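import Fermat.Agent.S43.I.Main0
import Fermat.Agent.S43.QF.Slope
import Fermat.Agent.S43.QF.WT
import Fermat.Agent.S43.Q.EVLoc
import Fermat.Agent.S43.EV.Inst

/-!
# S43 / I / CtxEV : `(EV)` for the data of `Fin.Ctx`, when `p ∣ q² - 1`

Every class `z` of the inertia invariant part of the `θ`-part of `Kum (M q) p` has a representative `fz` fixed by the inertia group,
with `KUM.EV`:
`QF.exists_vertical_unit` (+ `QF.w_heckeF`) → `Q.exists_loc_of_redTo` → `EV.exists_loc_ctx` → `EV.ev_of_local`.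
-/

set_option autoImplicit false

open AlgebraicCurve ModularCurve

namespace Fermat.Agent.S43.I

open Fermat.Agent.ES Fermat.Agent.SS Fermat.Agent.S15.W

variable {M q p : ℕ} [NeZero M] [NeZero q]

theorem ctx_admissible (C : Fin.Ctx M q p) (hpq : p ∣ q ^ 2 - 1) :
    Fermat.Agent.Crux.Admissible q M := by
  refine ⟨fun h => ?_, fun h => absurd h C.hq2⟩
  exfalso
  rw [h] at hpq
  have h8 : p ∣ 2 ^ 3 := by norm_num at hpq ⊢; exact hpq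
  have := (Nat.prime_dvd_prime_iff_eq C.hp Nat.prime_two).1 (C.hp.dvd_of_dvd_pow h8)
  have := C.hp5
  omega

theorem ctx_coprime12 (C : Fin.Ctx M q p) : Nat.Coprime p 12 := by
  rw [Nat.Prime.coprime_iff_not_dvd C.hp]
  intro h
  have h5 := C.hp5
  have h12 : (12 : ℕ) = 2 ^ 2 * 3 := by norm_num
  rw [h12] at h
  rcases (Nat.Prime.dvd_mul C.hp).1 h with h | h
  · have := (Nat.prime_dvd_prime_iff_eq C.hp Nat.prime_two).1 (C.hp.dvd_of_dvd_pow h)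
    omega
  · have := (Nat.prime_dvd_prime_iff_eq C.hp Nat.prime_three).1 h
    omega

/-- **(EV)**. -/
theorem ctx_hEV (C : Fin.Ctx M q p) (hpq : p ∣ q ^ 2 - 1) : EVF C := by
  intro z hz
  obtain ⟨ℓ, hℓ, hℓS, hℓE⟩ := C.hnE
  have : NeZero ℓ := ⟨hℓ.ne_zero⟩
  have hℓN : ¬ ℓ ∣ M * q := fun h => hℓS (ctx_hNS C ℓ hℓ h)
  have hzF : z ∈ Fin.Vth (M * q) p C.S C.a := by
    rw [Th.Fin_Vth_eq_I (hNS := ctx_hNS C)]
    exact hz.1
  have hne : IsCoprime (C.a ℓ - ℓ - 1) (p : ℤ) :=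
    ((Nat.prime_iff_prime_int.1 C.hp).coprime_iff_not_dvd.2 hℓE).symm
  obtain ⟨fz, hfz, hfix, ⟨r₁, hr₁, h₁⟩, ⟨r₂, hr₂, h₂⟩⟩ :=
    QF.exists_vertical_unit C.hq C.hA C.hw C.hp.ne_zero hℓ hℓN
      (QF.w_heckeF C.hq C.hqM C.hw hℓ hℓN) (C.a ℓ) hne (Fin.hk (M * q) p C.a ℓ hℓ hℓN)
      (fun _ => rfl) z hz.2 (hzF ℓ hℓ hℓN hℓS)
  refine ⟨fz, hfz, hfix, ?_⟩
  obtain ⟨K₀, _, _, _, F, E, _, _, _, _, _, _, _, _, Φ, w', X, W, hK, Cq, hb, hl1, hl2⟩ :=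
    Q.exists_loc_of_redTo M q p C.hq C.hqM (ctx_admissible C hpq) C.hp.pos (ctx_coprime12 C) C.hA
      C.w C.hw fz (QF.IFix.coeff_mem hfix) h₁ hr₁ h₂ hr₂
  obtain ⟨y, u, h1, h2, h3, h4⟩ := EV.exists_loc_ctx C.hq C.hA
    (fun s hs c hc => Fermat.Agent.S36.Base.mem_L0_iff.1 (hK hc) s hs) Cq hl1 hl2 hb.symm
  exact EV.ev_of_local C.hq C.hA C.hp.ne_zero y u (fun s hs v _ => (h4 s hs v).1)
    (fun s hs v _ => (h2 s hs v).1) (fun v _ => h1 v) (fun v _ => (h3 v).2)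

end Fermat.Agent.S43.I
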