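import Fermat.Agent.S44.Old.Main

/-!
# S43 / I / OldQ : **OLD_q** : the theorem OLD of S44 with residue characteristic `q` and an arbitrary exponent `e`

`A` a valuation ring of `ℚ̄` over `q ≥ 5`, `q ∤ M`; `Ft = resF M A` the function field of `X₀(M)` mod `q`.
If `φ ∈ Ftˣ` has `e ∣ ord_Q φ` at all places, is a Hecke eigenfunction modulo `e`-th powers with eigenvalues `a ℓ`, and
the system `a` does not occur at level `M` (a Hecke polynomial `P` kills all `Kum M m` and `P(a)` is prime to `e`), then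
`φ = const * h ^ e`.

The proof is the one of `S44.Old.old` (route B: Deuring reduction of divisors `S19.Geo0.rD`, specialisation `S44.Old.sp`,
abstract end game `S44.Old.sp_eq_zero_of_eigen`); nothing there uses that the exponent is the residue characteristic.
-/

set_option autoImplicit false

open AlgebraicCurve ModularCurve

namespace Fermat.Agent.S43.I

open Fermat.Agent.ES Fermat.Agent.SS Fermat.Agent.S44.Old
open Fermat.Agent.S37.Mod (resF gaussVFF xQ xk RedRel)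
open Fermat.Agent.S37.Red (IsPreChart)
open Fermat.Agent.S19.Geo0 (Good rP rD FixF FixP)
open Fermat.Agent.Crux (GM.GoodCoord)
open Fermat.Agent.S26 (divisorOf)
open Fermat.Agent.S44.Eis (ALLk)

noncomputable section

/-- **OLD_q** (statement). -/
def OldQ (M q e : ℕ) [NeZero M] : Prop :=
  ∀ (A : ValuationSubring Qb), A.LiesOverPrime q →
  ∀ (S : Finset ℕ) (hMS : ∀ r : ℕ, r.Prime → r ∣ M → r ∈ S), q ∈ S →
  ∀ (a : ℕ → ℤ) (P : FreeAlgebra ℤ (GP S)),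
    (∀ m : ℕ, 0 < m → FreeAlgebra.lift ℤ (fun ℓ : GP S => heckeT M m (ℓ.good hMS)) P = 0) →
    IsCoprime (FreeAlgebra.lift ℤ (fun ℓ : GP S => a ℓ.1) P) (e : ℤ) →
  ∀ φ : LaurentSeries (kA A), ALLk M A e φ →
    (∀ (ℓ : ℕ) [NeZero ℓ], ℓ.Prime → ℓ ∉ S → ∃ (c : kA A) (h : LaurentSeries (kA A)),
      h ∈ resF M A ∧ heckeSer ℓ φ = cstk A c * φ ^ (a ℓ) * h ^ e) →
  ∃ (c : kA A) (h : LaurentSeries (kA A)), h ∈ resF M A ∧ φ = cstk A c * h ^ e

variable {M : ℕ} [NeZero M] {A : ValuationSubring Qb}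

/-- the eigen-relation on classes (exponent `e`, residue characteristic `q`). -/
theorem OldQ_sp_TJ_of_eigen {q e ℓ n : ℕ} [NeZero ℓ] (hq : q.Prime) (hq5 : 5 ≤ q) (hM : ¬ q ∣ M)
    (he : e ≠ 0)
    (hA : A.LiesOverPrime q) (hℓ : ℓ.Prime) (hℓM : ¬ ℓ ∣ M) (hℓq : ℓ ≠ q)
    (hx : GM.GoodCoord M q (xh M) 1728 n) {g : resF M A} (hg : g ≠ 0)
    {D : Divisor.degZero (K := Qb) (F := FF M)}
    (hD : e • rD (Fermat.Agent.S19.Geo0.Inst.good_goodCoord hq hx hA) (D : Divisor Qb (FF M)) = divisorOf g)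
    {a : ℤ} {c : kA A} {h : LaurentSeries (kA A)} (hh : h ∈ resF M A)
    (heig : heckeSer ℓ (g : LaurentSeries (kA A)) = cstk A c * (g : LaurentSeries (kA A)) ^ a * h ^ e) :
    sp (Fermat.Agent.S19.Geo0.Inst.good_goodCoord hq hx hA) (TJ M ℓ (Pic0.mk D)) =
      a • sp (Fermat.Agent.S19.Geo0.Inst.good_goodCoord hq hx hA) (Pic0.mk D) := by
  have hMℓ : ¬ q ∣ M * ℓ := fun h =>
    (hq.dvd_mul.mp h).elim hM (fun h' => hℓq ((Nat.prime_dvd_prime_iff_eq hq hℓ).mp h').symm)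
  obtain ⟨n', hx'⟩ := exists_goodCoord (M * ℓ) hq hq5 hMℓ
  have := Fermat.Agent.S37.hasPrincipalDivisors_FF (M * ℓ)
  obtain ⟨βt, -, hβ⟩ := exists_compat_beta (ℓ := ℓ) hq hA hx hx'
  obtain ⟨αt, -, hα⟩ := exists_compat_alpha (ℓ := ℓ) hq hA hℓ hℓq hx hx'
  have hmem : ∀ ft : resF M A, heckeSer ℓ (ft : LaurentSeries (kA A)) ∈ resF M A := by
    intro ft
    obtain ⟨f, hf⟩ := (gaussVFF M A).exists_lift ft
    exact (red_heckeF hq hA hℓ hℓM hℓq f ft hf).1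
  have hT' : ∀ ft : resF M A, ((heckeT' M A ℓ ft : resF M A) : LaurentSeries (kA A)) =
      heckeSer ℓ (ft : LaurentSeries (kA A)) := by
    intro ft
    rw [heckeT', dif_pos (hmem ft)]
  rw [TJ_eq]
  refine sp_correspondence_of_eigen _ (Fermat.Agent.S19.Geo0.Inst.good_goodCoord hq hx' hA) hβ hα _ _ _ _ _
    (fun f => heckeF M ℓ hℓ hℓM f) (heckeT' M A ℓ) ?_ ?_ he hg ?_ hD (a := a) (c := c)
    (h := ⟨h, hh⟩) ?_
  · intro f hf
    have hf' : heckeF M ℓ hℓ hℓM f ≠ 0 := by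
      intro h0
      have h1 : heckeF M ℓ hℓ hℓM f * heckeF M ℓ hℓ hℓM f⁻¹ = 1 := by
        rw [← map_mul, mul_inv_cancel₀ hf, map_one]
      rw [h0, zero_mul] at h1
      exact zero_ne_one h1
    refine ⟨hf', ?_⟩
    ext P
    rw [Fermat.Agent.S37.correspondence_apply_of_ord ℓ hℓ hℓM hf
      (fun P => Fermat.Agent.S26.divisorOf_apply _ _) P, Fermat.Agent.S26.divisorOf_apply]
  · intro f ft hf
    obtain ⟨h', hr⟩ := red_heckeF hq hA hℓ hℓM hℓq f ft hf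
    have : heckeT' M A ℓ ft = ⟨_, h'⟩ := Subtype.ext (hT' ft)
    rw [this]
    exact hr
  · intro h0
    obtain ⟨ξ, hξ⟩ := Fermat.Agent.S44.Eis.exists_primitiveRoot_kA hq hA hℓ hℓq
    have h1 := hT' g
    rw [h0] at h1
    exact Fermat.Agent.S44.Eis.heckeSer_ne_zero hξ (fun h => hg (Subtype.ext h)) h1.symm
  · apply Subtype.ext
    rw [hT', heig]
    rfl

/-- **OLD_q**. -/
theorem oldQ (M q e : ℕ) [NeZero M] (hq : q.Prime) (hq5 : 5 ≤ q) (hM : ¬ q ∣ M) (he : e ≠ 0) :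
    OldQ M q e := by
  intro A hA S hMS hqS a P hP hθ φ hφ heig
  obtain ⟨hφm, hφ0, hdiv⟩ := hφ
  obtain ⟨n, hx⟩ := exists_goodCoord M hq hq5 hM
  set hG := Fermat.Agent.S19.Geo0.Inst.good_goodCoord hq hx hA with hGdef
  set g : resF M A := ⟨φ, hφm⟩ with hgdef
  have hg : g ≠ 0 := fun h => hφ0 (congrArg Subtype.val h)
  obtain ⟨D, hD⟩ := exists_class hG he hg hdiv
  obtain ⟨L, hL, hLz⟩ := Fermat.Agent.S17.class_smooth M (Pic0.mk D : JZero M)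
  have hprime : ∀ ℓ : GP S, ℓ.1.Prime ∧ ¬ ℓ.1 ∣ M ∧ ℓ.1 ≠ q := fun ℓ =>
    ⟨ℓ.2.1, fun h => ℓ.2.2 (hMS ℓ.1 ℓ.2.1 h), fun h => ℓ.2.2 (h ▸ hqS)⟩
  have hfin : ∃ n : ℕ, 0 < n ∧ ∀ y : JZero M, (∀ σ ∈ L.fixingSubgroup, σ • y = y) →
      n • sp hG y = 0 := by
    have hy : FixF (αL M L) (xQ hx) := fun σ =>
      Subtype.ext (Fermat.Agent.Crux.GM.coeffMap_castS _ (xh M))
    have ho : FixP (αL M L) (Fermat.Agent.S17.infP Qb M) := fun σ =>
      Fermat.Agent.S17.gal_smul_infP (L := Qb) (N := M) (σ : GQ)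
    obtain ⟨n, hn, h⟩ := exists_nsmul_sp_eq_zero (αL M L) hG hy ho (smallOrb_αL hq hA M L)
    exact ⟨n, hn, fun y hy => h y fun σ => hy σ σ.2⟩
  have key : sp hG (Pic0.mk D) = 0 := by
    refine sp_eq_zero_of_eigen (G := GQ) (TJS M S) ?_ (sp hG) ?_ jZero_divisible
      (fun ℓ : GP S => a ℓ.1) (Pic0.mk D) ?_ e (nsmul_sp_eq_zero hG hg hD) P
      (opOf_TJ_torsion M S hMS P hP) ?_ L.fixingSubgroup hLz hfin
    · intro σ ℓ x
      have : NeZero ℓ.1 := ⟨ℓ.2.1.ne_zero⟩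
      exact gal_TJ M ℓ.1 σ x
    · intro ℓ x hx0
      have : NeZero ℓ.1 := ⟨ℓ.2.1.ne_zero⟩
      exact sp_TJ_eq_zero hq hq5 hM hA (hprime ℓ).1 (hprime ℓ).2.2 hx x hx0
    · intro ℓ
      have : NeZero ℓ.1 := ⟨ℓ.2.1.ne_zero⟩
      obtain ⟨c, h, hh, he'⟩ := heig ℓ.1 ℓ.2.1 ℓ.2.2
      exact OldQ_sp_TJ_of_eigen hq hq5 hM he hA (hprime ℓ).1 (hprime ℓ).2.1 (hprime ℓ).2.2 hx hg hD hh he'
    · exact hθ
  obtain ⟨c, h, hgh⟩ := eq_const_mul_pow_of_sp_eq_zero hG hg hD key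
  exact ⟨c, h, h.2, congrArg Subtype.val hgh⟩

end

end Fermat.Agent.S43.I
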