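import Fermat.Agent.S43.I.Defs
import Fermat.Agent.S43.I.OldQ
import Fermat.Agent.S44.Defs
import Fermat.Agent.S36.Base.DescentL0

/-!
# S43 / I / InvDefs : interface statements of block (a_k)  ("inertia invariant at `θ` ⟹ toric")

Level `M q`, `q ∤ M`, `A` over `q`, exponent `e` prime to `12 q`.

* `ConstQ M q e` : **the local analysis** (S44.Const without the cover trick, base = the inertia field `L0 A`, uniformiser `q`, `T = 12`):
  if `f ∈ Dm (M q) e` has all its coefficients in `L0 A` then `e ∣ ord_Q (red f)` at the cuspidal places of `resF M A`, and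
  `e ∣ ord_Q (red (f ^ 12 * XD ^ (-c)))` at the non cuspidal places (`c` = slope `v_0 f - v_∞ f` in units of `v(q)`).
* `EisQ M q e`   : the Eisenstein trick (S44.Eis.nc_of_eigen with two parameters and an extra factor `u ≡ const`).
* `WA M q e`     : weak approximation: a class which is `InK1` and whose `w`-image is `InK1` is toric.
-/

set_option autoImplicit false

open AlgebraicCurve ModularCurve

namespace Fermat.Agent.S43.I

open Fermat.Agent.ES Fermat.Agent.SS Fermat.Agent.S33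
open Fermat.Agent.S37.Mod (resF)
open Fermat.Agent.S44 (CuspP Cuspk)
open Fermat.Agent.S44.Eis (NC NCk ALLk HasRed)
open Fermat.Agent.S44.XD (XD)

noncomputable section

/-- **CONST_q**. -/
def ConstQ (M q e : ℕ) [NeZero M] [NeZero q] : Prop :=
  ∀ (A : ValuationSubring Qb), A.LiesOverPrime q →
  ∀ f : Dm (M * q) e,
    (∀ n : ℤ, ((((f : (FF (M * q))ˣ) : FF (M * q)) : LaurentSeries Qb)).coeff n
      ∈ Fermat.Agent.S36.Base.L0 A) →
    ∃ c : ℤ, CuspP M A e (((f : (FF (M * q))ˣ) : FF (M * q)) : LaurentSeries Qb) ∧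
      NC M A e ((((f : (FF (M * q))ˣ) : FF (M * q)) : LaurentSeries Qb) ^ (12 : ℤ)
        * XD Qb q ^ (-c))

/-- **EIS_q**. -/
def EisQ (M q e : ℕ) [NeZero M] [NeZero q] : Prop :=
  ∀ (A : ValuationSubring Qb), A.LiesOverPrime q →
  ∀ (ℓ : ℕ) [NeZero ℓ], ℓ.Prime → ¬ ℓ ∣ M * q →
  ∀ (f h u : LaurentSeries Qb) (T c a : ℤ) (c₀ : Qb), c₀ ≠ 0 →
    HasRed M A f → HasRed M A h → RedUp A u 1 → IsCoprime T (e : ℤ) →
    IsCoprime (a - (ℓ + 1)) (e : ℤ) →
    NC M A e (f ^ T * XD Qb q ^ (-c)) →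
    heckeSer ℓ f = cst c₀ * f ^ a * h ^ e * u →
    NC M A e f

/-- **WA**. -/
def WA (M q e : ℕ) [NeZero M] [NeZero q] (hq : q.Prime) : Prop :=
  ∀ (A : ValuationSubring Qb), A.LiesOverPrime q →
  ∀ (w : FF (M * q) →ₐ[Qb] FF (M * q)) (hw : IsAL M q w) (x : Kum (M * q) e),
    InK1 A x → InK1 A (wKum hw hq e x) → x ∈ Tor A w e

end

end Fermat.Agent.S43.I
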