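import Fermat.Agent.S43.I.Raise3C
import Fermat.Agent.S43.NC.Main

/-!
# S43 / I / ConstQAll : `ConstQ M q e` for EVERY odd prime `q ∤ M` (no `Crux.Admissible`), `e` prime to `12`
-/

set_option autoImplicit false

namespace Fermat.Agent.S43.I.Raise3

theorem constQ_all (M q e : ℕ) [NeZero M] [NeZero q] (hq : q.Prime) (hq2 : q ≠ 2) (hqM : ¬ q ∣ M)
    (he : 0 < e) (he12 : Nat.Coprime e 12) : ConstQ M q e :=
  constQ_of_admissible e (Nat.Coprime.coprime_dvd_right (by norm_num) he12)
    (fun M q _ _ hq hqM hadm => Fermat.Agent.S43.NC.constQ M q e hq hqM hadm he he12) M q hq hq2 hqM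

end Fermat.Agent.S43.I.Raise3
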