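import Fermat.Agent.S43.I.OldQ
import Fermat.Agent.S15.GR.Main

/-!
# S43 / I / OldQAll : **OLD_q** for EVERY prime `q ∤ M` (in particular `q = 3`)

Same statement `S43.I.OldQ M q e` as `S43/I/OldQ.lean`, without the hypothesis `5 ≤ q`: the good coordinate `GM.GoodCoord` (which needs `5 ≤ q`) is
replaced by `S15.GR.good_jQ : Good (gaussVFF M A) (jQ M) (jk M A)`, valid at every prime not dividing the level.
-/

set_option autoImplicit false

open AlgebraicCurve ModularCurve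

namespace Fermat.Agent.S43.I

open Fermat.Agent.ES Fermat.Agent.SS Fermat.Agent.S44.Old
open Fermat.Agent.S37.Mod (resF gaussVFF RedRel)
open Fermat.Agent.S37.Red (IsPreChart)
open Fermat.Agent.S19.Geo0 (Good rP rD FixF FixP)
open Fermat.Agent.S26 (divisorOf)
open Fermat.Agent.S44.Eis (ALLk)
open Fermat.Agent.S15.GR (jQ jk good_jQ isPreChart_jQ betaRes red_beta beta_jQ betaRes_jk coe_jQ coe_jk
  red_jQ transcendental_jk)

noncomputable section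

variable {M : ℕ} [NeZero M] {A : ValuationSubring Qb}

/-- `Compat` for `β = V_ℓ`, coordinate `j(q^M)`. -/
theorem All_compat_beta {q ℓ : ℕ} [NeZero ℓ] (hq : q.Prime) (hMℓ : ¬ q ∣ M * ℓ)
    (hA : A.LiesOverPrime q) :
    Compat (gaussVFF M A) (gaussVFF (M * ℓ) A) (jQ M) (jk M A) (heckeBetaBar Qb M ℓ)
      (fun u => betaRes M ℓ A u) := by
  refine ⟨fun f ft h => red_beta ℓ h, ?_⟩
  rw [beta_jQ, betaRes_jk]
  exact isPreChart_jQ hq hMℓ hA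

/-- `α (j(q^M))` is a pre-chart at level `M ℓ`. -/
theorem All_isPreChart_alpha {q ℓ : ℕ} [NeZero ℓ] (hq : q.Prime) (hMℓ : ¬ q ∣ M * ℓ)
    (hA : A.LiesOverPrime q) (hℓ : ℓ.Prime) (hℓq : ℓ ≠ q)
    (yt' : resF (M * ℓ) A) (hyt' : (yt' : LaurentSeries (kA A)) = (jk M A : LaurentSeries (kA A))) :
    IsPreChart (gaussVFF (M * ℓ) A) (heckeAlphaBar Qb M ℓ (jQ M)) yt' := by
  have hpc := isPreChart_jQ (M := M * ℓ) hq hMℓ hA
  have hcast : ∀ (R : Type) [Field R] (N : ℕ) [NeZero N],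
      Fermat.Agent.Crux.GM.castS R (Fermat.Agent.S28.V ℤ N (Fermat.Agent.S28.J ℤ))
        = Fermat.Agent.S28.jd R N := by
    intro R _ N _
    rw [Fermat.Agent.Crux.GM.CoordJ.castS_VJ, Fermat.Agent.S28.jd_eq]
  refine ⟨?_, ?_, ?_⟩
  · rw [Fermat.Agent.S37.Mod.red_iff, coe_heckeAlphaBar, hyt']
    exact RedRel.mono (dvd_mul_right M ℓ) (Fermat.Agent.S37.Mod.red_iff.1 (red_jQ A))
  · have h1 := transcendental_jk (M := M) A
    intro h2
    apply h1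
    have h3 := h2.algebraMap (A := LaurentSeries (kA A))
    have h4 : IsAlgebraic (kA A) ((jk M A : resF M A) : LaurentSeries (kA A)) := by
      rw [← hyt']; exact h3
    exact (isAlgebraic_algebraMap_iff (algebraMap (resF M A) (LaurentSeries (kA A))).injective).1 h4
  · have : CharP (kA A) q := Fermat.Agent.S37.Mod.charP_kA hq hA
    have hℓk : (ℓ : kA A) ≠ 0 := by
      intro h0
      rw [CharP.cast_eq_zero_iff (kA A) q ℓ] at h0
      exact hℓq ((Nat.prime_dvd_prime_iff_eq hq hℓ).1 h0).symm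
    have hℓQ : (ℓ : Qb) ≠ 0 := Nat.cast_ne_zero.2 hℓ.ne_zero
    have e1 : Module.finrank (IntermediateField.adjoin Qb {heckeAlphaBar Qb M ℓ (jQ M)}) (FF (M * ℓ))
        = Module.finrank (IntermediateField.adjoin Qb {jQ (M * ℓ)}) (FF (M * ℓ)) := by
      rw [← ModDeg_relfinrank_eq_finrank, ← ModDeg_relfinrank_eq_finrank, coe_heckeAlphaBar,
        coe_jQ, coe_jQ, hcast, hcast]
      refine ModDeg_relfinrank_jd Qb M ℓ hℓ hℓQ _ ?_ ?_
      · rw [← hcast, ← coe_jQ, ← coe_heckeAlphaBar (N := M) (ℓ := ℓ)]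
        exact (heckeAlphaBar Qb M ℓ (jQ M)).2
      · rw [← hcast, ← coe_jQ]
        exact (jQ (M * ℓ)).2
    have e2 : Module.finrank (IntermediateField.adjoin (kA A) {yt'}) (resF (M * ℓ) A)
        = Module.finrank (IntermediateField.adjoin (kA A) {jk (M * ℓ) A}) (resF (M * ℓ) A) := by
      rw [← ModDeg_relfinrank_eq_finrank, ← ModDeg_relfinrank_eq_finrank, hyt',
        coe_jk, coe_jk, hcast, hcast]
      refine ModDeg_relfinrank_jd (kA A) M ℓ hℓ hℓk _ ?_ ?_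
      · rw [← hcast, ← coe_jk A, ← hyt']
        exact yt'.2
      · rw [← hcast, ← coe_jk A]
        exact (jk (M * ℓ) A).2
    rw [e1, e2]
    exact hpc.deg

/-- `Compat` for `α` = inclusion, coordinate `j(q^M)`. -/
theorem All_exists_compat_alpha {q ℓ : ℕ} [NeZero ℓ] (hq : q.Prime) (hMℓ : ¬ q ∣ M * ℓ)
    (hA : A.LiesOverPrime q) (hℓ : ℓ.Prime) (hℓq : ℓ ≠ q) :
    ∃ φt : resF M A → resF (M * ℓ) A,
      (∀ u : resF M A, ((φt u : resF (M * ℓ) A) : LaurentSeries (kA A)) =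
        (u : LaurentSeries (kA A))) ∧
      Compat (gaussVFF M A) (gaussVFF (M * ℓ) A) (jQ M) (jk M A) (heckeAlphaBar Qb M ℓ) φt := by
  have hmem : ∀ u : resF M A, (u : LaurentSeries (kA A)) ∈ resF (M * ℓ) A := by
    rintro ⟨u, f, hf⟩
    exact ⟨f, hf.mono (dvd_mul_right M ℓ)⟩
  refine ⟨fun u => ⟨u, hmem u⟩, fun _ => rfl, ?_, ?_⟩
  · intro f ft h
    rw [Fermat.Agent.S37.Mod.red_iff] at h ⊢
    rw [coe_heckeAlphaBar]
    exact h.mono (dvd_mul_right M ℓ)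
  · exact All_isPreChart_alpha hq hMℓ hA hℓ hℓq _ rfl

theorem All_not_dvd {q ℓ : ℕ} (hq : q.Prime) (hM : ¬ q ∣ M) (hℓ : ℓ.Prime) (hℓq : ℓ ≠ q) :
    ¬ q ∣ M * ℓ := fun h =>
  (hq.dvd_mul.mp h).elim hM (fun h' => hℓq ((Nat.prime_dvd_prime_iff_eq hq hℓ).mp h').symm)

/-- `ker sp` is stable under `T_ℓ`. -/
theorem All_sp_TJ_eq_zero {q ℓ : ℕ} [NeZero ℓ] (hq : q.Prime) (hM : ¬ q ∣ M)
    (hA : A.LiesOverPrime q) (hℓ : ℓ.Prime) (hℓq : ℓ ≠ q)
    (x : JZero M) (h : sp (good_jQ hq hM hA) x = 0) :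
    sp (good_jQ hq hM hA) (TJ M ℓ x) = 0 := by
  have hMℓ := All_not_dvd (M := M) hq hM hℓ hℓq
  have := Fermat.Agent.S37.hasPrincipalDivisors_FF (M * ℓ)
  have hβ := All_compat_beta (M := M) (ℓ := ℓ) hq hMℓ hA
  obtain ⟨αt, -, hα⟩ := All_exists_compat_alpha (M := M) (ℓ := ℓ) hq hMℓ hA hℓ hℓq
  rw [TJ_eq]
  exact sp_correspondence_eq_zero _ (good_jQ hq hMℓ hA) hβ hα _ _ _ _ _ x h

/-- the eigen-relation on classes (exponent `e`, residue characteristic `q`). -/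
theorem All_sp_TJ_of_eigen {q e ℓ : ℕ} [NeZero ℓ] (hq : q.Prime) (hM : ¬ q ∣ M)
    (he : e ≠ 0)
    (hA : A.LiesOverPrime q) (hℓ : ℓ.Prime) (hℓM : ¬ ℓ ∣ M) (hℓq : ℓ ≠ q)
    {g : resF M A} (hg : g ≠ 0)
    {D : Divisor.degZero (K := Qb) (F := FF M)}
    (hD : e • rD (good_jQ hq hM hA) (D : Divisor Qb (FF M)) = divisorOf g)
    {a : ℤ} {c : kA A} {h : LaurentSeries (kA A)} (hh : h ∈ resF M A)
    (heig : heckeSer ℓ (g : LaurentSeries (kA A)) = cstk A c * (g : LaurentSeries (kA A)) ^ a * h ^ e) :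
    sp (good_jQ hq hM hA) (TJ M ℓ (Pic0.mk D)) =
      a • sp (good_jQ hq hM hA) (Pic0.mk D) := by
  have hMℓ := All_not_dvd (M := M) hq hM hℓ hℓq
  have := Fermat.Agent.S37.hasPrincipalDivisors_FF (M * ℓ)
  have hβ := All_compat_beta (M := M) (ℓ := ℓ) hq hMℓ hA
  obtain ⟨αt, -, hα⟩ := All_exists_compat_alpha (M := M) (ℓ := ℓ) hq hMℓ hA hℓ hℓq
  have hmem : ∀ ft : resF M A, heckeSer ℓ (ft : LaurentSeries (kA A)) ∈ resF M A := by
    intro ft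
    obtain ⟨f, hf⟩ := (gaussVFF M A).exists_lift ft
    exact (red_heckeF hq hA hℓ hℓM hℓq f ft hf).1
  have hT' : ∀ ft : resF M A, ((heckeT' M A ℓ ft : resF M A) : LaurentSeries (kA A)) =
      heckeSer ℓ (ft : LaurentSeries (kA A)) := by
    intro ft
    rw [heckeT', dif_pos (hmem ft)]
  rw [TJ_eq]
  refine sp_correspondence_of_eigen _ (good_jQ hq hMℓ hA) hβ hα _ _ _ _ _
    (fun f => heckeF M ℓ hℓ hℓM f) (heckeT' M A ℓ) ?_ ?_ he hg ?_ hD (a := a) (c := c)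
    (h := ⟨h, hh⟩) ?_
  · intro f hf
    have hf' : heckeF M ℓ hℓ hℓM f ≠ 0 := by
      intro h0
      have h1 : heckeF M ℓ hℓ hℓM f * heckeF M ℓ hℓ hℓM f⁻¹ = 1 := by
        rw [← map_mul, mul_inv_cancel₀ hf, map_one]
      rw [h0, zero_mul] at h1
      exact zero_ne_one h1
    refine ⟨hf', ?_⟩
    ext P
    rw [Fermat.Agent.S37.correspondence_apply_of_ord ℓ hℓ hℓM hf
      (fun P => Fermat.Agent.S26.divisorOf_apply _ _) P, Fermat.Agent.S26.divisorOf_apply]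
  · intro f ft hf
    obtain ⟨h', hr⟩ := red_heckeF hq hA hℓ hℓM hℓq f ft hf
    have : heckeT' M A ℓ ft = ⟨_, h'⟩ := Subtype.ext (hT' ft)
    rw [this]
    exact hr
  · intro h0
    obtain ⟨ξ, hξ⟩ := Fermat.Agent.S44.Eis.exists_primitiveRoot_kA hq hA hℓ hℓq
    have h1 := hT' g
    rw [h0] at h1
    exact Fermat.Agent.S44.Eis.heckeSer_ne_zero hξ (fun h => hg (Subtype.ext h)) h1.symm
  · apply Subtype.ext
    rw [hT', heig]
    rfl

/-- **OLD_q** at every prime `q ∤ M`. -/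
theorem oldQ_all (M q e : ℕ) [NeZero M] (hq : q.Prime) (hM : ¬ q ∣ M) (he : e ≠ 0) :
    OldQ M q e := by
  intro A hA S hMS hqS a P hP hθ φ hφ heig
  obtain ⟨hφm, hφ0, hdiv⟩ := hφ
  set hG := good_jQ hq hM hA with hGdef
  set g : resF M A := ⟨φ, hφm⟩ with hgdef
  have hg : g ≠ 0 := fun h => hφ0 (congrArg Subtype.val h)
  obtain ⟨D, hD⟩ := exists_class hG he hg hdiv
  obtain ⟨L, hL, hLz⟩ := Fermat.Agent.S17.class_smooth M (Pic0.mk D : JZero M)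
  have hprime : ∀ ℓ : GP S, ℓ.1.Prime ∧ ¬ ℓ.1 ∣ M ∧ ℓ.1 ≠ q := fun ℓ =>
    ⟨ℓ.2.1, fun h => ℓ.2.2 (hMS ℓ.1 ℓ.2.1 h), fun h => ℓ.2.2 (h ▸ hqS)⟩
  have hfin : ∃ n : ℕ, 0 < n ∧ ∀ y : JZero M, (∀ σ ∈ L.fixingSubgroup, σ • y = y) →
      n • sp hG y = 0 := by
    have hy : FixF (αL M L) (jQ M) := fun σ =>
      Subtype.ext (Fermat.Agent.Crux.GM.coeffMap_castS _ _)
    have ho : FixP (αL M L) (Fermat.Agent.S17.infP Qb M) := fun σ =>
      Fermat.Agent.S17.gal_smul_infP (L := Qb) (N := M) (σ : GQ)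
    obtain ⟨n, hn, h⟩ := exists_nsmul_sp_eq_zero (αL M L) hG hy ho (smallOrb_αL hq hA M L)
    exact ⟨n, hn, fun y hy => h y fun σ => hy σ σ.2⟩
  have key : sp hG (Pic0.mk D) = 0 := by
    refine sp_eq_zero_of_eigen (G := GQ) (TJS M S) ?_ (sp hG) ?_ jZero_divisible
      (fun ℓ : GP S => a ℓ.1) (Pic0.mk D) ?_ e (nsmul_sp_eq_zero hG hg hD) P
      (opOf_TJ_torsion M S hMS P hP) ?_ L.fixingSubgroup hLz hfin
    · intro σ ℓ x
      have : NeZero ℓ.1 := ⟨ℓ.2.1.ne_zero⟩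
      exact gal_TJ M ℓ.1 σ x
    · intro ℓ x hx0
      have : NeZero ℓ.1 := ⟨ℓ.2.1.ne_zero⟩
      exact All_sp_TJ_eq_zero hq hM hA (hprime ℓ).1 (hprime ℓ).2.2 x hx0
    · intro ℓ
      have : NeZero ℓ.1 := ⟨ℓ.2.1.ne_zero⟩
      obtain ⟨c, h, hh, he'⟩ := heig ℓ.1 ℓ.2.1 ℓ.2.2
      exact All_sp_TJ_of_eigen hq hM he hA (hprime ℓ).1 (hprime ℓ).2.1 (hprime ℓ).2.2 hg hD hh he'
    · exact hθ
  obtain ⟨c, h, hgh⟩ := eq_const_mul_pow_of_sp_eq_zero hG hg hD key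
  exact ⟨c, h, h.2, congrArg Subtype.val hgh⟩

end

end Fermat.Agent.S43.I
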