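import Fermat.Agent.S44.Eis.Main
import Fermat.Agent.S43.I.OldQAll
import Fermat.Agent.S43.I.InvDefs

/-!
# S43 / I / Eis2 : two-parameter copy of `S44/Eis`

`A` a valuation ring of `ℚ̄` over the prime `q` (ANY prime `q ∤ M`, also `q = 3`), **exponent `e` arbitrary** (`e = p ^ k`).

* `NCk.heckeSer2`, `NC.heckeSer2` : `NC M A e` is stable under the multiplicative Hecke operators `heckeSer ℓ`, `ℓ ∤ M q`;
* `NCk.of_zpow2`, `NC.of_zpow2`   : `NC (u ^ n)`, `n` prime to `e`  ⟹  `NC u`;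
* `nc_slope`     : `NC (f ^ T * XD_q ^ (-c))`, `T` prime to `e`  ⟹  `NC (heckeSer ℓ f / f ^ (ℓ + 1))`
                   (the class `(T_ℓ - ℓ - 1) x` is non-cuspidally `e`-divisible: the slope is Eisenstein);
* `nc_of_eigen2` : eigenvector form (`S44.Eis.nc_of_eigen` with two parameters).
-/

set_option autoImplicit false

open AlgebraicCurve ModularCurve

namespace Fermat.Agent.S43.I

open Fermat.Agent.ES (Qb FF heckeSer heckeF Vq heckeBetaBarIntegral heckeAlphaBarIntegral)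
open Fermat.Agent.S37.Mod (kA resF gaussVFF xQ xk)
open Fermat.Agent.S19.Geo0 (Good rP rD rD_divisorOf)
open Fermat.Agent.S26 (divisorOf divisorOf_apply)
open Fermat.Agent.S44.Old
open Fermat.Agent.S44.Eis
open Fermat.Agent.SS (RedTo RedUp cst cstk)
open Fermat.Agent.S44.XD (XD)

noncomputable section

/-- **(J2)** with residue characteristic `q` and exponent `e`. -/
theorem NCk.heckeSer2 {M : ℕ} [NeZero M] {A : ValuationSubring Qb} {q e ℓ : ℕ} [NeZero ℓ]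
    (hp : q.Prime) (hM : ¬ q ∣ M) (hA : A.LiesOverPrime q)
    (hℓ : ℓ.Prime) (hℓM : ¬ ℓ ∣ M * q) {r : LaurentSeries (kA A)} (h : NCk M A e r) :
    NCk M A e (heckeSer ℓ r) := by
  obtain ⟨hr, hr0, hdiv⟩ := h
  have hℓM' : ¬ ℓ ∣ M := fun h => hℓM (h.mul_right q)
  have hℓp : ℓ ≠ q := by
    rintro rfl
    exact hℓM (dvd_mul_left _ _)
  have hMℓ : ¬ q ∣ M * ℓ := by
    intro h
    rcases (Nat.Prime.dvd_mul hp).1 h with h | h
    · exact hM h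
    · exact hℓp ((Nat.prime_dvd_prime_iff_eq hp hℓ).1 h).symm
  have hG := Fermat.Agent.S15.GR.good_jQ hp hM hA
  have hG' := Fermat.Agent.S15.GR.good_jQ hp hMℓ hA
  obtain ⟨αt, hαt, hα⟩ := All_exists_compat_alpha (M := M) (ℓ := ℓ) hp hMℓ hA hℓ hℓp
  obtain ⟨βt, hβt, hβ⟩ : ∃ φt : resF M A → resF (M * ℓ) A,
      (∀ u : resF M A, ((φt u : resF (M * ℓ) A) : LaurentSeries (kA A)) =
        Vq (kA A) ℓ (u : LaurentSeries (kA A))) ∧
      Compat (gaussVFF M A) (gaussVFF (M * ℓ) A) (Fermat.Agent.S15.GR.jQ M)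
        (Fermat.Agent.S15.GR.jk M A) (heckeBetaBar Qb M ℓ) φt :=
    ⟨fun u => Fermat.Agent.S15.GR.betaRes M ℓ A u, fun _ => rfl,
      All_compat_beta (M := M) (ℓ := ℓ) hp hMℓ hA⟩
  have := Fermat.Agent.S37.hasPrincipalDivisors_FF (M * ℓ)
  obtain ⟨f, hf⟩ := (gaussVFF M A).exists_lift ⟨r, hr⟩
  have hrt0 : (⟨r, hr⟩ : resF M A) ≠ 0 := fun h => hr0 (congrArg Subtype.val h)
  have hf0 : f ≠ 0 := hf.ne_zero hrt0
  obtain ⟨hr', hf'⟩ := red_heckeF hp hA hℓ hℓM' hℓp f _ hf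
  obtain ⟨ζ', hζ'⟩ := exists_primitiveRoot_kA hp hA hℓ hℓp
  have hr'0 : Fermat.Agent.ES.heckeSer ℓ r ≠ 0 := heckeSer_ne_zero hζ' hr0
  refine ⟨hr', hr'0, fun Q hQ => ?_⟩
  have hr't0 : (⟨Fermat.Agent.ES.heckeSer ℓ r, hr'⟩ : resF M A) ≠ 0 := fun h => hr'0 (congrArg Subtype.val h)
  have hcorr : Divisor.correspondence (heckeBetaBar Qb M ℓ) (heckeAlphaBar Qb M ℓ)
      (heckeBetaBarIntegral M ℓ) (heckeAlphaBarIntegral M ℓ) (divisorOf f)
      = divisorOf (heckeF M ℓ hℓ hℓM' f) := by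
    ext P
    rw [Fermat.Agent.S37.correspondence_apply_of_ord ℓ hℓ hℓM' hf0
      (fun Q => divisorOf_apply _ _) P, divisorOf_apply]
  have hj0 : jt M A ≠ 0 := by
    intro h0
    have h1 : jqModC (kA A) = 0 := congrArg Subtype.val h0
    exact Fermat.Agent.S28.transcendental_jqModC (kA A) (h1 ▸ isAlgebraic_zero)
  have hint := Fermat.Agent.S28.isIntegralElem_V_of_dvd (kA A) 1 ℓ (one_dvd ℓ)
  have e1 : Fermat.Agent.S28.V (kA A) 1 (Fermat.Agent.S28.J (kA A)) = jqModC (kA A) :=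
    qExpand_one_apply _
  rw [e1] at hint
  have hC : ∀ Q' : Place (kA A) (resF (M * ℓ) A),
      rPt hG hG' (heckeBetaBarIntegral M ℓ) Q' ∈ {Q : Place (kA A) (resF M A) | Q.ord (jt M A) < 0} ↔
      rPt hG hG' (heckeAlphaBarIntegral M ℓ) Q' ∈ {Q : Place (kA A) (resF M A) | Q.ord (jt M A) < 0} := by
    intro Q'
    have h1 := ord_map hG hG' hβ (heckeBetaBarIntegral M ℓ) hj0 Q'
    have h2 := ord_map hG hG' hα (heckeAlphaBarIntegral M ℓ) hj0 Q'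
    have p1 := eT_pos hG hG' hβ (heckeBetaBarIntegral M ℓ) Q'
    have p2 := eT_pos hG hG' hα (heckeAlphaBarIntegral M ℓ) Q'
    have h3 : 0 ≤ Q'.ord (βt (jt M A)) ↔ 0 ≤ Q'.ord (αt (jt M A)) := by
      constructor
      · intro h
        refine J2_ord_nonneg _ _ _ ?_ Q' h
        rw [hαt, hβt]
        exact hint.2
      · intro h
        refine J2_ord_nonneg _ _ _ ?_ Q' h
        rw [hαt, hβt]
        exact hint.1
    rw [h1, h2] at h3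
    simp only [Set.mem_ofPred_eq]
    rw [← not_le, ← not_le, not_iff_not]
    rw [mul_nonneg_iff_of_pos_left p1, mul_nonneg_iff_of_pos_left p2] at h3
    exact h3
  have key := dvd_rD_correspondence hG hG' hβ hα (heckeBetaBarIntegral M ℓ)
    (heckeAlphaBarIntegral M ℓ) {Q | Q.ord (jt M A) < 0} hC (e : ℤ) (E := divisorOf f) (by
      intro Q hQ
      rw [rD_divisorOf hG hf hrt0, divisorOf_apply]
      exact hdiv Q (not_lt.1 hQ)) Q (not_lt.2 hQ)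
  rw [hcorr, rD_divisorOf hG hf' hr't0, divisorOf_apply] at key
  exact key

variable {M : ℕ} [NeZero M] {A : ValuationSubring Qb} {q e ℓ : ℕ} [NeZero ℓ] [NeZero q]

/-- `NC` (exponent `e`) is stable under the multiplicative Hecke operators. -/
theorem NC.heckeSer2 (hq : q.Prime) (hM : ¬ q ∣ M) (hA : A.LiesOverPrime q)
    (hℓ : ℓ.Prime) (hℓM : ¬ ℓ ∣ M * q) {u : LaurentSeries Qb} (h : NC M A e u) :
    NC M A e (heckeSer ℓ u) := by
  obtain ⟨r, h1, h2⟩ := h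
  have hℓp : ℓ ≠ q := by
    rintro rfl
    exact hℓM (dvd_mul_left _ _)
  exact ⟨_, RedUp.heckeSer hq hA hℓ hℓp h1, NCk.heckeSer2 hq hM hA hℓ hℓM h2⟩

theorem NCk.of_zpow2 {n : ℤ} (hn : IsCoprime n (e : ℤ)) (hn0 : n ≠ 0) {r : LaurentSeries (kA A)}
    (hr : r ∈ resF M A) (h : NCk M A e (r ^ n)) : NCk M A e r := by
  obtain ⟨hrn, h0, h⟩ := h
  have hr0 : r ≠ 0 := by
    rintro rfl
    exact h0 (zero_zpow n hn0)
  refine ⟨hr, hr0, fun P hP => ?_⟩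
  have e' : (⟨r ^ n, hrn⟩ : resF M A) = (⟨r, hr⟩ : resF M A) ^ n :=
    Subtype.ext (map_zpow₀ (resF M A).val (⟨r, hr⟩ : resF M A) n).symm
  have h1 := h P hP
  rw [e', P.ord_zpow] at h1
  exact hn.symm.dvd_of_dvd_mul_left h1

theorem NC.of_zpow2 {n : ℤ} (hn : IsCoprime n (e : ℤ)) (hn0 : n ≠ 0) {u : LaurentSeries Qb}
    (hu : HasRed M A u) (h : NC M A e (u ^ n)) : NC M A e u := by
  obtain ⟨r₀, h1, h2, h3⟩ := hu
  exact ⟨r₀, h1, NCk.of_zpow2 hn hn0 h3 (h.nck (RedUp.zpow h1 h2 n) (zpow_ne_zero n h2))⟩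

omit [NeZero M] in
theorem HasRed.ne_zero2 {f : LaurentSeries Qb} (hf : HasRed M A f) : f ≠ 0 := by
  rintro rfl
  obtain ⟨r, ⟨d, hd, h1⟩, h2, -⟩ := hf
  rw [mul_zero] at h1
  have h0 : RedTo A (0 : LaurentSeries Qb) (0 : LaurentSeries (kA A)) := by
    refine ⟨0, 1, ?_, ?_, ?_⟩
    · rw [map_one]; exact one_ne_zero
    · simp
    · simp
  exact h2 (h1.unique h0)

/-- `HasRed` is stable under the multiplicative Hecke operators. -/
theorem HasRed.heckeSer2 (hq : q.Prime) (hM : ¬ q ∣ M) (hA : A.LiesOverPrime q)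
    (hℓ : ℓ.Prime) (hℓM : ¬ ℓ ∣ M * q) {u : LaurentSeries Qb} (h : HasRed M A u) :
    HasRed M A (heckeSer ℓ u) := by
  have h1 : NC M A 1 u := by
    obtain ⟨r, h1, h2, h3⟩ := h
    exact ⟨r, h1, h3, h2, fun P _ => by simp⟩
  exact (NC.heckeSer2 hq hM hA hℓ hℓM h1).hasRed

/-- **the slope is Eisenstein** (function form): if `f ^ T * XD ^ (-c)` is non-cuspidally `e`-divisible modulo `A`, `T` prime
to `e`, then so is `heckeSer ℓ f / f ^ (ℓ + 1)`. -/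
theorem nc_slope (hq : q.Prime) (hM : ¬ q ∣ M) (hA : A.LiesOverPrime q)
    (hℓ : ℓ.Prime) (hℓM : ¬ ℓ ∣ M * q) {f : LaurentSeries Qb} {T c : ℤ}
    (hf : HasRed M A f) (hT : IsCoprime T (e : ℤ)) (hT0 : T ≠ 0)
    (hNC : NC M A e (f ^ T * XD Qb q ^ (-c))) :
    NC M A e (heckeSer ℓ f * (f ^ (ℓ + 1))⁻¹) := by
  obtain ⟨ζ, hζ⟩ := Fermat.Agent.ES.exists_primitiveRoot_Qb ℓ
  have hℓp : ℓ ≠ q := by
    rintro rfl
    exact hℓM (dvd_mul_left _ _)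
  have hf0 : f ≠ 0 := HasRed.ne_zero2 hf
  have hX0 : XD Qb q ≠ 0 := Fermat.Agent.S44.XD.XD_ne_zero q
  have h1 := NC.heckeSer2 hq hM hA hℓ hℓM hNC
  have h2 := (hNC.zpow ((ℓ : ℤ) + 1)).inv
  have h3 := h1.mul h2
  have hH : HasRed M A (heckeSer ℓ f * (f ^ (ℓ + 1))⁻¹) :=
    (HasRed.heckeSer2 hq hM hA hℓ hℓM hf).mul (hf.pow (ℓ + 1)).inv
  refine NC.of_zpow2 hT hT0 hH (h3.congr ?_)
  rw [Fermat.Agent.ES.heckeSer_mul ℓ hζ, heckeSer_zpow hζ, heckeSer_zpow hζ,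
    Fermat.Agent.S44.XD.heckeSer_XD ℓ q hℓ hq hℓp]
  rw [mul_zpow, mul_zpow, ← zpow_mul, ← zpow_mul, inv_zpow]
  have e2 : (XD Qb q ^ (ℓ + 1)) ^ (-c) = XD Qb q ^ (-c * ((ℓ : ℤ) + 1)) := by
    rw [← zpow_natCast, ← zpow_mul]
    congr 1
    push_cast
    ring
  have e3 : (f ^ (ℓ + 1)) ^ T = f ^ (T * ((ℓ : ℤ) + 1)) := by
    rw [← zpow_natCast, ← zpow_mul]
    congr 1
    push_cast
    ring
  rw [e2, e3]
  have hA1 : f ^ (T * ((ℓ : ℤ) + 1)) ≠ 0 := zpow_ne_zero _ hf0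
  have hA2 : XD Qb q ^ (-c * ((ℓ : ℤ) + 1)) ≠ 0 := zpow_ne_zero _ hX0
  field_simp

/-- **(T6)** with two parameters (eigenvector form). -/
theorem nc_of_eigen2 (hq : q.Prime) (hM : ¬ q ∣ M) (hA : A.LiesOverPrime q)
    (hℓ : ℓ.Prime) (hℓM : ¬ ℓ ∣ M * q) {f h : LaurentSeries Qb} {T c a : ℤ} {c₀ : Qb}
    (hc₀ : c₀ ≠ 0) (hf : HasRed M A f) (hh : HasRed M A h) (hT : IsCoprime T (e : ℤ)) (hT0 : T ≠ 0)
    (ha : IsCoprime (a - (ℓ + 1)) (e : ℤ)) (ha0 : a - (ℓ + 1) ≠ 0)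
    (hNC : NC M A e (f ^ T * XD Qb q ^ (-c)))
    (heig : heckeSer ℓ f = cst c₀ * f ^ a * h ^ e) :
    NC M A e f := by
  have hf0 : f ≠ 0 := HasRed.ne_zero2 hf
  have hh0 : h ≠ 0 := HasRed.ne_zero2 hh
  have h1 := nc_slope hq hM hA hℓ hℓM hf hT hT0 hNC
  have h2 : NC M A e (h ^ e)⁻¹ := (NC.ppow hh).inv
  have h3 := h1.mul h2
  have h4 : NC M A e (cst c₀ * f ^ (a - (ℓ + 1))) := by
    refine h3.congr ?_
    rw [heig]
    have e3 : f ^ (a - (ℓ + 1)) = f ^ a * (f ^ (ℓ + 1))⁻¹ := by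
      rw [← zpow_natCast f (ℓ + 1), ← zpow_neg, ← zpow_add₀ hf0]
      congr 1
    rw [e3]
    have hA3 : h ^ e ≠ 0 := pow_ne_zero _ hh0
    have hA1 : f ^ (ℓ + 1) ≠ 0 := pow_ne_zero _ hf0
    field_simp
  exact NC.of_zpow2 ha ha0 hf (h4.of_const_mul hc₀)

/-- `u ≡ const` modulo the Gauss valuation is `NC` for every exponent. -/
theorem nc_of_redUp_one {u : LaurentSeries Qb} (hu : RedUp A u 1) : NC M A e u :=
  ⟨1, hu, NCk.one⟩

/-- **EIS_q** in the shape of `S43/I/InvDefs.lean`. -/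
theorem eisQ (M q e : ℕ) [NeZero M] [NeZero q] (hq : q.Prime) (hqM : ¬ q ∣ M) (he : 1 < e) :
    EisQ M q e := by
  intro A hA ℓ _ hℓ hℓM f h u T c a c₀ hc₀ hf hh hu hT ha hNC heig
  have hne : ∀ n : ℤ, IsCoprime n (e : ℤ) → n ≠ 0 := by
    rintro n hn rfl
    rw [isCoprime_zero_left, Int.isUnit_iff] at hn
    rcases hn with hn | hn <;> omega
  have hf0 : f ≠ 0 := HasRed.ne_zero2 hf
  have hh0 : h ≠ 0 := HasRed.ne_zero2 hh
  have hu0 : u ≠ 0 := HasRed.ne_zero2 (M := M) (nc_of_redUp_one (e := 1) hu).hasRed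
  have h1 := nc_slope hq hqM hA hℓ hℓM hf hT (hne T hT) hNC
  have h2 : NC M A e (h ^ e)⁻¹ := (NC.ppow hh).inv
  have h2' : NC M A e u⁻¹ := (nc_of_redUp_one hu).inv
  have h3 := (h1.mul h2).mul h2'
  have h4 : NC M A e (cst c₀ * f ^ (a - (ℓ + 1))) := by
    refine h3.congr ?_
    rw [heig]
    have e3 : f ^ (a - (ℓ + 1)) = f ^ a * (f ^ (ℓ + 1))⁻¹ := by
      rw [← zpow_natCast f (ℓ + 1), ← zpow_neg, ← zpow_add₀ hf0]
      congr 1
    rw [e3]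
    have hA3 : h ^ e ≠ 0 := pow_ne_zero _ hh0
    have hA1 : f ^ (ℓ + 1) ≠ 0 := pow_ne_zero _ hf0
    field_simp
  exact NC.of_zpow2 ha (hne _ ha) hf (h4.of_const_mul hc₀)

end

end Fermat.Agent.S43.I
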