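import Fermat.Agent.S43.I.Defs
import Fermat.Agent.SS.Formal.Core34

/-!
# S43 / I / Tor : formal properties of the toric part `Tor A w m ≤ Kum (M q) m`

Everything here is formal from `SS.RedUp` calculus (`SS/Formal/RedUp.lean`), `SS.redConst_gal_div` and `SS.GM2.crux2`.
-/

set_option autoImplicit false

open AlgebraicCurve ModularCurve

namespace Fermat.Agent.S43.I

open Fermat.Agent.ES Fermat.Agent.SS

noncomputable section

variable {M q : ℕ} [NeZero M] [NeZero q] {w : FF (M * q) →ₐ[Qb] FF (M * q)}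
  {A : ValuationSubring Qb} {m : ℕ}

/-- TASK S43/I-Tor-a.  `RedConst` is `RedUp … 1`.  [`←` is `SS.redConst_of_redUp`; `→`: unfold `RedConst`, `RedUp`, `RedTo`,
`cst`: the witnesses are `c, y₁, y₂`.] -/
theorem redConst_iff_redUp {N : ℕ} [NeZero N] (u : FF N) :
    RedConst A u ↔ RedUp A (u : LaurentSeries Qb) 1 := by
  constructor
  · rintro ⟨c, y₁, y₂, hc, -, -, h12, h2, he⟩
    exact ⟨c, hc, y₁, y₂, h2, he, by rw [one_mul, h12]⟩
  · exact redConst_of_redUp u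

/-- TASK S43/I-Tor-a. -/
theorem IsTor.zero : IsTor A w m (0 : Kum (M * q) m) := by
  have h1 : RedConst A (1 : FF (M * q)) := by
    rw [redConst_iff_redUp]
    refine ⟨1, one_ne_zero, 1, 1, ?_, ?_, ?_⟩
    · rw [map_one]; exact one_ne_zero
    · rw [map_one, mul_one, cst, map_one, one_mul]; rfl
    · rw [map_one, mul_one]
  refine ⟨1, Kum.mk_one.symm, ?_, ?_⟩
  · exact h1
  · have e : w (((1 : Dm (M * q) m) : (FF (M * q))ˣ) : FF (M * q)) = 1 := map_one w
    rw [e]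
    exact h1

/-- TASK S43/I-Tor-a.  [`Kum.mk_mul`, `RedUp.mul`, `map_mul`.] -/
theorem IsTor.add {x y : Kum (M * q) m} (hx : IsTor A w m x) (hy : IsTor A w m y) :
    IsTor A w m (x + y) := by
  obtain ⟨u, rfl, hu, hu'⟩ := hx
  obtain ⟨v, rfl, hv, hv'⟩ := hy
  rw [redConst_iff_redUp] at hu hu' hv hv'
  refine ⟨u * v, (Kum.mk_mul u v).symm, ?_, ?_⟩
  · rw [redConst_iff_redUp]
    exact (hu.mul hv).congr rfl (one_mul 1)
  · rw [redConst_iff_redUp]
    have e : w (((u * v : Dm (M * q) m) : (FF (M * q))ˣ) : FF (M * q))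
        = w ((u : (FF (M * q))ˣ) : FF (M * q)) * w ((v : (FF (M * q))ˣ) : FF (M * q)) :=
      map_mul w _ _
    rw [e]
    exact (hu'.mul hv').congr rfl (one_mul 1)

/-- TASK S43/I-Tor-a.  [`Kum.mk_inv`, `RedUp.inv`, `map_inv₀`.] -/
theorem IsTor.neg {x : Kum (M * q) m} (hx : IsTor A w m x) : IsTor A w m (-x) := by
  obtain ⟨u, rfl, hu, hu'⟩ := hx
  rw [redConst_iff_redUp] at hu hu'
  refine ⟨u⁻¹, (Kum.mk_inv u).symm, ?_, ?_⟩
  · rw [redConst_iff_redUp]
    have e : (((u⁻¹ : Dm (M * q) m) : (FF (M * q))ˣ) : FF (M * q))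
        = (((u : (FF (M * q))ˣ) : FF (M * q)))⁻¹ := by
      rw [Subgroup.coe_inv, Units.val_inv_eq_inv_val]
    rw [e]
    exact (hu.inv one_ne_zero).congr rfl inv_one
  · rw [redConst_iff_redUp]
    have e : w (((u⁻¹ : Dm (M * q) m) : (FF (M * q))ˣ) : FF (M * q))
        = (w ((u : (FF (M * q))ˣ) : FF (M * q)))⁻¹ := by
      rw [Subgroup.coe_inv, Units.val_inv_eq_inv_val, map_inv₀]
    rw [e]
    exact (hu'.inv one_ne_zero).congr rfl inv_one

/-- TASK S43/I-Tor-a. -/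
theorem mem_Tor_iff {x : Kum (M * q) m} : x ∈ Tor A w m ↔ IsTor A w m x := by
  constructor
  · intro hx
    induction hx using AddSubgroup.closure_induction with
    | mem x hx => exact hx
    | zero => exact IsTor.zero
    | add x y _ _ hx hy => exact hx.add hy
    | neg x _ hx => exact hx.neg
  · intro hx
    exact AddSubgroup.subset_closure hx

/-- TASK S43/I-Tor-b.  `(σ - 1) V ⊆ Tor` [as in the proof of `SS.core34`: `res_galA_of_inertia`, `redConst_gal_div` for `f` and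
for `w f`, `hw.galF_comm`]. -/
theorem ram_le_tor (hq : q.Prime) (hw : IsAL M q w) (V : AddSubgroup (Kum (M * q) m)) :
    Ram A m V ≤ Tor A w m := by
  have : NeZero (M * q) := ⟨Nat.mul_ne_zero (NeZero.ne M) (NeZero.ne q)⟩
  unfold Ram
  rw [AddSubgroup.closure_le]
  rintro x ⟨σ, hσ, y, -, rfl⟩
  apply AddSubgroup.subset_closure
  obtain ⟨f, rfl⟩ := Kum.mk_surjective y
  obtain ⟨g, rfl, hg⟩ := res_galA_of_inertia hσ
  refine ⟨_, by rw [galKum_mk, sub_eq_add_neg, ← Kum.mk_inv, ← Kum.mk_mul], ?_, ?_⟩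
  · rw [Subgroup.coe_mul, Units.val_mul, Subgroup.coe_inv, Units.val_inv_eq_inv_val, coe_galU]
    exact redConst_gal_div A g hg _ (f : (FF (M * q))ˣ).ne_zero
  · rw [Subgroup.coe_mul, Units.val_mul, Subgroup.coe_inv, Units.val_inv_eq_inv_val, coe_galU,
      map_mul, map_inv₀, ← hw.galF_comm hq]
    refine redConst_gal_div A g hg _ ?_
    rw [Ne, map_eq_zero]
    exact (f : (FF (M * q))ˣ).ne_zero

/-- TASK S43/I-Tor-b.  inertia acts trivially on `Tor` [this is `key` in the proof of `SS.core34`, with `SS.GM2.crux2`]. -/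
theorem gal_of_mem_tor (hq : q.Prime) (hqM : ¬ q ∣ M) (hqm : ¬ q ∣ m) (hw : IsAL M q w)
    (hA : A.LiesOverPrime q) {σ : GQ} (hσ : σ ∈ A.inertiaSubgroupIn ℚ) {x : Kum (M * q) m}
    (hx : x ∈ Tor A w m) : galKum (M * q) m σ x = x := by
  have : NeZero (M * q) := ⟨Nat.mul_ne_zero (NeZero.ne M) (NeZero.ne q)⟩
  obtain ⟨τ, hτ, hτσ⟩ := Subgroup.mem_map.mp hσ
  have hτσ' : (τ : GQ) = σ := hτσ
  have hτ1 : ∀ x : kA A, τ • x = x := by
    intro x
    have h1 : MulSemiringAction.toRingAut (A.decompositionSubgroup ℚ)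
      (IsLocalRing.ResidueField A) τ = 1 := hτ
    exact congrArg (fun f => f x) h1
  unfold Tor at hx
  induction hx using AddSubgroup.closure_induction with
  | mem x hx =>
    obtain ⟨u, rfl, h1, h2⟩ := hx
    have h := GM2.crux2 M q m hq hqM hqm A hA w hw τ (fun x _ => hτ1 x) 1
      (fun ζ hζ => by
        rw [pow_one, hτσ']
        exact S31.inertia_apply_root A hq hA _ hσ hqm hζ) u h1 h2
    rwa [one_smul, hτσ'] at h
  | zero => exact map_zero _
  | add x y _ _ hx hy => rw [map_add, hx, hy]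
  | neg x _ hx => rw [map_neg, hx]

/-- TASK S43/I-Tor-c.  `φ² = q²` on `Tor` [as at the end of the proof of `SS.core35`]. -/
theorem frob_sq_of_mem_tor (hq : q.Prime) (hqM : ¬ q ∣ M) (hqm : ¬ q ∣ m) (hw : IsAL M q w)
    (hA : A.LiesOverPrime q) {φ : GQ} (hφ : A.IsFrobeniusAt φ q) {x : Kum (M * q) m}
    (hx : x ∈ Tor A w m) : galKum (M * q) m φ (galKum (M * q) m φ x) = (q ^ 2) • x := by
  have : NeZero (M * q) := ⟨Nat.mul_ne_zero (NeZero.ne M) (NeZero.ne q)⟩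
  obtain ⟨u, rfl, h1, h2⟩ := mem_Tor_iff.mp hx
  obtain ⟨g, hgφ, hg⟩ := res_galA_of_frobenius hq hA hφ
  have hgk : ∀ x : kA A, g • x = x ^ q := by
    intro x
    obtain ⟨a, rfl⟩ := IsLocalRing.residue_surjective x
    have := congrArg (fun F : A →+* kA A => F a) hg
    rw [← IsLocalRing.ResidueField.residue_smul]
    exact this
  have key := GM2.crux2 M q m hq hqM hqm A hA w hw (g * g)
    (fun x hx => by rw [mul_smul, hgk, hgk, ← pow_mul, ← pow_two, hx]) (q ^ 2)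
    (fun ζ hζ => by
      have := S31.frob_pow_apply_root A hq hA φ hφ hqm hζ 2
      rw [← this, pow_two, ← hgφ]
      rfl) u h1 h2
  rw [← galKum_mul, ← key, ← hgφ]
  rfl

/-- TASK S43/I-Tor-c.  [`wKum_mk`, `hw.invol`.] -/
theorem wKum_mem_tor (hq : q.Prime) (hw : IsAL M q w) {x : Kum (M * q) m} (hx : x ∈ Tor A w m) :
    wKum hw hq m x ∈ Tor A w m := by
  obtain ⟨u, rfl, h1, h2⟩ := mem_Tor_iff.mp hx
  rw [mem_Tor_iff, wKum_mk]
  refine ⟨_, rfl, ?_, ?_⟩
  · exact h2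
  · have e : w (((⟨wU w u, hw.wU_mem_Dm hq u.2⟩ : Dm (M * q) m) : (FF (M * q))ˣ) : FF (M * q))
        = ((u : (FF (M * q))ˣ) : FF (M * q)) := hw.invol hq _
    rw [e]
    exact h1

/-- TASK S43/I-Tor-c.  [`res_galA_of_frobenius`, `RedUp.gal`, `coeffMap` of `1` is `1`, `hw.galF_comm`, `coe_galF`.] -/
theorem frob_mem_tor (hq : q.Prime) (hw : IsAL M q w) (hA : A.LiesOverPrime q) {φ : GQ}
    (hφ : A.IsFrobeniusAt φ q) {x : Kum (M * q) m} (hx : x ∈ Tor A w m) :
    galKum (M * q) m φ x ∈ Tor A w m := by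
  have : NeZero (M * q) := ⟨Nat.mul_ne_zero (NeZero.ne M) (NeZero.ne q)⟩
  obtain ⟨u, rfl, h1, h2⟩ := mem_Tor_iff.mp hx
  obtain ⟨g, rfl, hg⟩ := res_galA_of_frobenius hq hA hφ
  rw [redConst_iff_redUp] at h1 h2
  rw [mem_Tor_iff, galKum_mk]
  refine ⟨_, rfl, ?_, ?_⟩
  · rw [redConst_iff_redUp]
    exact (h1.gal g _ hg).congr rfl (map_one _)
  · rw [redConst_iff_redUp]
    have e : w (((⟨galU (M * q) (g : GQ) u, galU_mem_Dm (g : GQ) u.2⟩ : Dm (M * q) m) :
        (FF (M * q))ˣ) : FF (M * q))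
        = galF (M * q) (g : GQ) (w ((u : (FF (M * q))ˣ) : FF (M * q))) :=
      (hw.galF_comm hq (g : GQ) _).symm
    rw [e]
    exact (h2.gal g _ hg).congr rfl (map_one _)

end

end Fermat.Agent.S43.I
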