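import Fermat.Agent.S43.I.Iso
import Fermat.Agent.S43.I.Tor
import Fermat.Agent.S43.KUM.Main
import Fermat.Agent.S43.Tame.Kum
import Fermat.Agent.S43.Fin.Defs

/-!
# S43 / I / IsoInst : `IsoHyp` for the data of `Fin.Ctx`

Inputs which remain: `(a_k)` (`Inv ≤ Tor` at all exponents `p ^ (k+1)`) and `(EV)` (with the inertia-fixed representative).
-/

set_option autoImplicit false

open AlgebraicCurve ModularCurve

namespace Fermat.Agent.S43.I

open Fermat.Agent.ES Fermat.Agent.SS Fermat.Agent.S15.W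

variable {M q p : ℕ} [NeZero M] [NeZero q]

/-- the primes of the level are in `S`. -/
theorem ctx_hNS (C : Fin.Ctx M q p) : ∀ r : ℕ, r.Prime → r ∣ M * q → r ∈ C.S := by
  intro r hr h
  rcases (Nat.Prime.dvd_mul hr).1 h with h | h
  · exact C.hMS r hr h
  · rw [(Nat.prime_dvd_prime_iff_eq hr C.hq).1 h]
    exact C.hqS

/-- (GEN), for all exponents `m = p ^ (k+1)`. -/
theorem ctx_gen (C : Fin.Ctx M q p) : ∀ m, IsPP p m → ∀ x : Kum (M * q) m,
    galKum (M * q) m C.Sg x = x → ∀ σ ∈ C.A.inertiaSubgroupIn ℚ, galKum (M * q) m σ x = x := by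
  rintro _ ⟨k, rfl⟩ x hx
  exact Tame.fixed_of_fixed_gen (Tame.IsGenOn.kum C.hq C.hqM C.hp C.hqp C.A C.hA C.hSg (k + 1)) hx

/-- **`IsoHyp` from `(a_k)` and `(EV)`.** -/
theorem isoHyp (C : Fin.Ctx M q p)
    (hTor : ∀ m, IsPP p m → Inv (M * q) (ctx_hNS C) C.a C.A m ≤ Tor C.A C.w m)
    (hEV : ∀ z ∈ Inv (M * q) (ctx_hNS C) C.a C.A p, ∃ fz : Dm (M * q) p, Kum.mk fz = z ∧
      (∀ s ∈ C.A.inertiaSubgroupIn ℚ,
        galF (M * q) s ((fz : (FF (M * q))ˣ) : FF (M * q)) = ((fz : (FF (M * q))ˣ) : FF (M * q))) ∧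
      KUM.EV (M * q) C.A q p ((fz : (FF (M * q))ˣ) : FF (M * q))) :
    IsoHyp (M * q) (ctx_hNS C) C.a C.A p q C.Sg C.Ph where
  hp := C.hp
  hq := C.hq
  hqp := C.hqp
  hA := C.hA
  hSg := C.hSg.1
  hφ := C.hPh
  gen := ctx_gen C
  kum := by
    intro m hm x' _ hx y hy z hz
    obtain ⟨fz, rfl, hfz, hev⟩ := hEV z hz
    exact KUM.kum_main C.hq C.hA ((IsPP.self p).not_dvd C.hp C.hq C.hqp) (hm.pos C.hp).ne' x'
      (fun s hs => hx.2 s hs) fz hfz hev C.Sg C.hSg.1 y hy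
  fr := by
    intro m hm x hx
    exact frob_sq_of_mem_tor C.hq C.hqM (hm.not_dvd C.hp C.hq C.hqp) C.hw C.hA C.hPh (hTor m hm hx)

end Fermat.Agent.S43.I
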