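import Fermat.Agent.S43.I.WA
import Fermat.Agent.S43.I.InvDefs

/-!
# S43 / I / WAExport : `WA M q e hq` (the shape of weak approximation consumed by block (a_k))
-/

set_option autoImplicit false

open AlgebraicCurve ModularCurve

namespace Fermat.Agent.S43.I

open Fermat.Agent.ES Fermat.Agent.SS Fermat.Agent.S33

/-- a class which is constant mod `v_∞` and whose `w`-image is constant mod `v_∞` is toric. -/
theorem wa (M q e : ℕ) [NeZero M] [NeZero q] (hq : q.Prime) (hqM : ¬ q ∣ M) : WA M q e hq := by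
  intro A hA w hw x h1 h2
  obtain ⟨u, rfl, hu⟩ := h1
  obtain ⟨v, hv, hvr⟩ := h2
  rw [mem_Tor_iff]
  -- `u' := w v` represents `x`
  have hx : Kum.mk u = Kum.mk (⟨wU w (v : (FF (M * q))ˣ), hw.wU_mem_Dm hq v.2⟩ : Dm (M * q) e) := by
    rw [← wKum_mk hw hq v, hv, wKum_wKum]
  refine isTor_of_two hq hqM hw hA u _ hx hu ?_
  have : w (((⟨wU w (v : (FF (M * q))ˣ), hw.wU_mem_Dm hq v.2⟩ : Dm (M * q) e) : (FF (M * q))ˣ) :
      FF (M * q)) = ((v : (FF (M * q))ˣ) : FF (M * q)) := by
    show w (w _) = _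
    exact hw.invol hq _
  rw [this]
  exact hvr

end Fermat.Agent.S43.I
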