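import Fermat.Agent.S43.I.InvTor
import Fermat.Agent.S43.I.IsoInst
import Fermat.Agent.S43.I.Eis2
import Fermat.Agent.S43.I.ConstQAll
import Fermat.Agent.S43.I.WAExport
import Fermat.Agent.S44.ResDeg.RedTo

/-!
# S43 / I / CtxTor : `(a_k)` for the data of `Fin.Ctx`

`Inv ≤ Tor` at all exponents `p ^ (k+1)`, unconditionally: the hypothesis `hTor` of `I.isoHyp`.
-/

set_option autoImplicit false

open AlgebraicCurve ModularCurve

namespace Fermat.Agent.S43.I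

open Fermat.Agent.ES Fermat.Agent.SS Fermat.Agent.S15.W

variable {M q p : ℕ} [NeZero M] [NeZero q]

theorem IsPP.coprime_of_not_dvd {p m n : ℕ} (hp : p.Prime) (h : IsPP p m) (hn : ¬ p ∣ n) :
    Nat.Coprime m n := by
  obtain ⟨k, rfl⟩ := h
  exact Nat.Coprime.pow_left _ ((Nat.Prime.coprime_iff_not_dvd hp).2 hn)

theorem IsPP.isCoprime_of_not_dvd {p m : ℕ} {n : ℤ} (hp : p.Prime) (h : IsPP p m)
    (hn : ¬ (p : ℤ) ∣ n) : IsCoprime n (m : ℤ) := by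
  obtain ⟨k, rfl⟩ := h
  push_cast
  exact (((Nat.prime_iff_prime_int.1 hp).coprime_iff_not_dvd.2 hn).symm).pow_right

/-- **`(a_k)` for `Fin.Ctx`.** -/
theorem ctx_hTor (C : Fin.Ctx M q p) :
    ∀ m, IsPP p m → Inv (M * q) (ctx_hNS C) C.a C.A m ≤ Tor C.A C.w m := by
  intro m hm
  have hm0 : 0 < m := hm.pos C.hp
  have hp12 : ¬ p ∣ 12 := by
    intro h
    have h5 := C.hp5
    have h12 : (12 : ℕ) = 2 ^ 2 * 3 := by norm_num
    rw [h12] at h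
    rcases (Nat.Prime.dvd_mul C.hp).1 h with h | h
    · have := (Nat.prime_dvd_prime_iff_eq C.hp Nat.prime_two).1 (C.hp.dvd_of_dvd_pow h)
      omega
    · have := (Nat.prime_dvd_prime_iff_eq C.hp Nat.prime_three).1 h
      omega
  have hm12 : Nat.Coprime m 12 := hm.coprime_of_not_dvd C.hp hp12
  have hm1 : 1 < m := by
    obtain ⟨k, rfl⟩ := hm
    exact Nat.one_lt_pow (Nat.succ_ne_zero k) C.hp.one_lt
  have hMq : M ≠ M * q := by
    intro h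
    have h1 : M * 1 = M * q := by rw [mul_one]; exact h
    exact C.hq.one_lt.ne (Nat.eq_of_mul_eq_mul_left (Nat.pos_of_ne_zero (NeZero.ne M)) h1)
  obtain ⟨Pol, hPol, hPol'⟩ := C.hSep M C.hMS (Dvd.intro q rfl) hMq
  obtain ⟨ℓ, hℓ, hℓS, hℓ'⟩ := C.hnE
  refine inv_le_tor C.hq hm0.ne' ?_ (Raise3.constQ_all M q m C.hq C.hq2 C.hqM hm0 hm12)
    (eisQ M q m C.hq C.hqM hm1) (oldQ_all M q m C.hq C.hqM hm0.ne')
    (Fermat.Agent.S44.ResDeg.resDeg M q C.hq C.hqM) (wa M q m C.hq C.hqM) C.hA C.hw C.S C.hMS C.hqS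
    ?_ C.a Pol hPol (hm.isCoprime_of_not_dvd C.hp hPol') ⟨ℓ, hℓ, hℓS, ?_⟩ (ctx_hNS C)
  · have := Nat.isCoprime_iff_coprime.2 hm12.symm
    exact_mod_cast this
  · intro r hr hd
    obtain ⟨k, rfl⟩ := hm
    rw [(Nat.prime_dvd_prime_iff_eq hr C.hp).1 (hr.dvd_of_dvd_pow hd)]
    exact C.hpS
  · refine hm.isCoprime_of_not_dvd C.hp ?_
    have e1 : C.a ℓ - ((ℓ : ℤ) + 1) = C.W.apOfModel ℓ - ℓ - 1 := by
      show C.W.apOfModel ℓ - ((ℓ : ℤ) + 1) = _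
      ring
    rw [e1]
    exact hℓ'

end Fermat.Agent.S43.I
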