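import Fermat.Agent.S43.I.Main0
import Fermat.Agent.S43.I.CtxTor
import Fermat.Agent.S43.I.CtxEV

/-!
# S43 / I / Main : **XBlock**
-/

set_option autoImplicit false

namespace Fermat.Agent.S43.I

/-- **XBlock.** -/
theorem xBlock {M q p : ℕ} [NeZero M] [NeZero q] : Fin.XBlock M q p :=
  xBlock_of_ev (fun C => ctx_hTor C) (fun C h => ctx_hEV C h)

end Fermat.Agent.S43.I
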