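import Fermat.Agent.S43.I.AbsIso
import Fermat.Agent.S43.Defs
import Fermat.Agent.S15.W.Export
import Fermat.Agent.ES.Glue.Iota

/-!
# S43 / I / Vth : the generalized `θ`-eigenspace `Vth N m S hNS a ≤ Kum N m`  (any level `N`, any exponent `m`)

* `TT N m hNS a ℓ = T_ℓ - a ℓ` (`ℓ ∉ S`), as a `ℤ`-linear endomorphism of `Kum N m`;
* `Vth N m hNS a = {x | ∀ ℓ ∉ S, ∃ n, (T_ℓ - a ℓ) ^ n x = 0}`;
* stability under Galois, Hecke, `Kum.trans`, `Kum.incl`;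
* `exists_thProj` : a projector onto `Vth` (at two exponents at a time) commuting with `Kum.trans`, Galois, self-adjoint for `e1N`.
-/

set_option autoImplicit false

open AlgebraicCurve ModularCurve

namespace Fermat.Agent.S43.I

open Fermat.Agent.ES Fermat.Agent.SS Fermat.Agent.S15.W

noncomputable section

variable (N : ℕ) [NeZero N] (m : ℕ) {S : Finset ℕ} (hNS : ∀ r : ℕ, r.Prime → r ∣ N → r ∈ S)
  (a : ℕ → ℤ)

/-- `T_ℓ - a ℓ`. -/
def TT (ℓ : GP S) : Module.End ℤ (Kum N m) := heckeT N m (ℓ.good hNS) - (a ℓ.1) • 1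

theorem TT_apply (ℓ : GP S) (x : Kum N m) :
    TT N m hNS a ℓ x = heckeT N m (ℓ.good hNS) x - a ℓ.1 • x := rfl

/-- the generalized eigenspace. -/
def Vth : AddSubgroup (Kum N m) := gker (TT N m hNS a)

variable {N m hNS a}

theorem mem_Vth {x : Kum N m} :
    x ∈ Vth N m hNS a ↔ ∀ ℓ : GP S, ∃ n : ℕ, (TT N m hNS a ℓ ^ n) x = 0 := Iff.rfl

theorem TT_commute (ℓ ℓ' : GP S) : Commute (TT N m hNS a ℓ) (TT N m hNS a ℓ') := by
  have h : Commute (heckeT N m (ℓ.good hNS)) (heckeT N m (ℓ'.good hNS)) := by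
    refine LinearMap.ext fun x => ?_
    have : NeZero ℓ.1 := ⟨ℓ.2.1.ne_zero⟩
    have : NeZero ℓ'.1 := ⟨ℓ'.2.1.ne_zero⟩
    exact heckeKum_comm ℓ.1 ℓ'.1 ℓ.2.1 (ℓ.good hNS).2.2 ℓ'.2.1 (ℓ'.good hNS).2.2 x
  unfold TT
  refine Commute.sub_left (Commute.sub_right h ?_) (Commute.sub_right ?_ ?_)
  · exact (Commute.one_right _).smul_right _
  · exact (Commute.one_left _).smul_left _
  · exact ((Commute.one_left _).smul_left _).smul_right _

theorem gal_TT (σ : GQ) (ℓ : GP S) (x : Kum N m) :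
    galKum N m σ (TT N m hNS a ℓ x) = TT N m hNS a ℓ (galKum N m σ x) := by
  have : NeZero ℓ.1 := ⟨ℓ.2.1.ne_zero⟩
  rw [TT_apply, TT_apply, map_sub, map_zsmul, heckeT_apply, heckeT_apply]
  congr 1
  exact galKum_heckeKum N ℓ.1 ℓ.2.1 (ℓ.good hNS).2.2 σ x

theorem trans_TT {m' : ℕ} (h : m' ∣ m) (ℓ : GP S) (x : Kum N m) :
    Kum.trans N h (TT N m hNS a ℓ x) = TT N m' hNS a ℓ (Kum.trans N h x) := by
  rw [TT_apply, TT_apply, map_sub, map_zsmul, Kum.trans_heckeT]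

theorem incl_TT (k : ℕ) (ℓ : GP S) (x : Kum N m) :
    Kum.incl N m k (TT N m hNS a ℓ x) = TT N (m * k) hNS a ℓ (Kum.incl N m k x) := by
  have : NeZero ℓ.1 := ⟨ℓ.2.1.ne_zero⟩
  rw [TT_apply, TT_apply, map_sub, map_zsmul, heckeT_apply, heckeT_apply]
  congr 1
  exact Kum.incl_heckeKum k ℓ.1 ℓ.2.1 (ℓ.good hNS).2.2 x

theorem gal_mem_Vth (σ : GQ) {x : Kum N m} (hx : x ∈ Vth N m hNS a) :
    galKum N m σ x ∈ Vth N m hNS a :=
  gker_intertwine _ _ (galKum N m σ) (fun ℓ x => gal_TT σ ℓ x) hx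

theorem trans_mem_Vth {m' : ℕ} (h : m' ∣ m) {x : Kum N m} (hx : x ∈ Vth N m hNS a) :
    Kum.trans N h x ∈ Vth N m' hNS a :=
  gker_intertwine _ _ (Kum.trans N h) (fun ℓ x => trans_TT h ℓ x) hx

theorem incl_mem_Vth (k : ℕ) {x : Kum N m} (hx : x ∈ Vth N m hNS a) :
    Kum.incl N m k x ∈ Vth N (m * k) hNS a :=
  gker_intertwine _ _ (Kum.incl N m k) (fun ℓ x => incl_TT k ℓ x) hx

/-- an eigenvector lies in `Vth`. -/
theorem mem_Vth_of_eigen {x : Kum N m}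
    (hx : ∀ ℓ : GP S, heckeT N m (ℓ.good hNS) x = a ℓ.1 • x) : x ∈ Vth N m hNS a :=
  fun ℓ => ⟨1, by rw [pow_one, TT_apply, hx, sub_self]⟩

theorem TT_adj (hm : m ≠ 0) (ℓ : GP S) (x y : Kum N m) :
    e1NHom hm (TT N m hNS a ℓ x) y = e1NHom hm x (TT N m hNS a ℓ y) := by
  have : NeZero ℓ.1 := ⟨ℓ.2.1.ne_zero⟩
  rw [TT_apply, TT_apply, map_sub, map_sub, AddMonoidHom.sub_apply, map_zsmul, map_zsmul,
    AddMonoidHom.zsmul_apply]
  congr 1
  rw [e1NHom_eq_iff]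
  exact e1N_hecke hm ℓ.2.1 (ℓ.good hNS).2.2 x y

/-- **the projector onto `Vth`**, at two exponents at a time. -/
theorem exists_thProj (m m' : ℕ) (hm : 0 < m) (hm' : 0 < m') :
    ∃ (L : List (GP S)) (r : ℕ),
      (∀ x, projOp (TT N m hNS a) r L x ∈ Vth N m hNS a) ∧
      (∀ x ∈ Vth N m hNS a, projOp (TT N m hNS a) r L x = x) ∧
      (∀ x, projOp (TT N m' hNS a) r L x ∈ Vth N m' hNS a) ∧
      (∀ x ∈ Vth N m' hNS a, projOp (TT N m' hNS a) r L x = x) := by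
  have : Finite (Kum N m) := Glue.finite_Kum hm
  have : Finite (Kum N m') := Glue.finite_Kum hm'
  exact exists_proj _ _ TT_commute TT_commute

/-- the Weil pairing is non degenerate on `Vth` (prime exponent). -/
theorem Vth_nondeg {e : ℕ} (he : e.Prime) {x : Kum N e} (hx : x ∈ Vth N e hNS a) (hx0 : x ≠ 0) :
    ∃ y ∈ Vth N e hNS a, e1N x y ≠ 1 := by
  obtain ⟨L, r, h1, h2, -, -⟩ := exists_thProj (N := N) (hNS := hNS) (a := a) e e he.pos he.pos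
  obtain ⟨y, hy⟩ := e1N_nondeg he hx0
  refine ⟨_, h1 y, fun h => hy ?_⟩
  rw [← e1NHom_eq_zero_iff he.ne_zero] at h ⊢
  rw [← projOp_adj (e1NHom he.ne_zero) _ TT_commute (fun ℓ x y => TT_adj he.ne_zero ℓ x y), h2 x hx] at h
  exact h

end

end Fermat.Agent.S43.I
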