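import Fermat.Agent.S43.I.Vth
import Fermat.Agent.S43.ND.Main
import Fermat.Agent.S15.P.Lift
import Fermat.Agent.S15.W.ModLevel
import Fermat.Agent.S43.Lev.ES

/-!
# S43 / I / Lev : change of exponent on `Kum N m` and on `Vth`

`Kum.trans : Kum N (m' k) → Kum N m'` ("multiplication by `k`", `J[m' k] → J[m']`) is onto; `Kum.incl : Kum N m' → Kum N (m' k)`
(the inclusion `J[m'] ⊆ J[m' k]`) is injective with image the `m'`-torsion.  The same on the `θ`-parts.  Non degeneracy of `e1N` on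
`Vth` at every exponent.
-/

set_option autoImplicit false

open AlgebraicCurve ModularCurve

namespace Fermat.Agent.S43.I

open Fermat.Agent.ES Fermat.Agent.SS Fermat.Agent.S15.W

noncomputable section

variable {N : ℕ} [NeZero N] {m' k : ℕ}

/-- TASK S43/I-Lev-a.  [`x = Kum.mk f`, `div f = m' D`, `deg D = 0`; `Pic⁰` divisible: `D + div h = k D'`; then `f h^{m'} ∈ Dm N (m' k)`
maps to `x`.  MODEL: `S15.P.exists_gens_lift` (`S15/P/Lift.lean`), which does exactly this kind of lifting with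
`S17.G.pic0_divisible`.] -/
theorem lev_trans_surjective (hm : 0 < m' * k) :
    Function.Surjective (Kum.trans N (dvd_mul_right m' k)) :=
  Fermat.Agent.S43.Lev.trans_surjective (Nat.pos_of_mul_pos_right hm).ne'
    (Nat.pos_of_mul_pos_left hm).ne'

/-- (helper, Lev-b) a root of unity of `FF N` is an `n`-th power. -/
theorem lev_unit_pow_of_pow_eq_one {j n : ℕ} (hj : 0 < j) (hn : 0 < n) {z : (FF N)ˣ}
    (hz : z ^ j = 1) : ∃ c : (FF N)ˣ, c ^ n = z := by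
  have hz' : (z : FF N) ^ j = 1 := by
    rw [← Units.val_pow_eq_pow_val, hz, Units.val_one]
  obtain ⟨c0, hc0⟩ := An.BC_const_of_pow_eq_one (K := Qb) hj hz'
  obtain ⟨d, hd⟩ := IsAlgClosed.exists_pow_nat_eq c0 hn
  have hd0 : algebraMap Qb (FF N) d ≠ 0 := by
    intro h0
    have h1 : (z : FF N) = 0 := by
      rw [← hc0, ← hd, map_pow, h0, zero_pow hn.ne']
    exact z.ne_zero h1
  refine ⟨Units.mk0 _ hd0, Units.ext ?_⟩
  rw [Units.val_pow_eq_pow_val, Units.val_mk0, ← map_pow, hd, hc0]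

/-- TASK S43/I-Lev-b.  [`f ^ k = h ^ (m' k)` ⟹ `(f / h^{m'}) ^ k = 1` ⟹ `f / h ^ m'` is a root of unity of `FF N`, hence a constant
(`ℚ̄` is algebraically closed in `FF N`; a root of `X ^ k - 1`, which splits in `ℚ̄`), hence an `m'`-th power.] -/
theorem lev_incl_injective (hm : 0 < m' * k) : Function.Injective (Kum.incl N m' k) := by
  have hm' : 0 < m' := Nat.pos_of_mul_pos_right hm
  have hk : 0 < k := Nat.pos_of_mul_pos_left hm
  rw [injective_iff_map_eq_zero]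
  intro x hx
  obtain ⟨f, rfl⟩ := Kum.mk_surjective x
  rw [Kum.incl_mk, Kum.mk_eq_zero_iff] at hx
  obtain ⟨h, hh⟩ := hx
  rw [Dm.coe_powHom] at hh
  have h1 : ((f : (FF N)ˣ) * (h ^ m')⁻¹) ^ k = 1 := by
    rw [mul_pow, inv_pow, ← pow_mul, hh, mul_inv_cancel]
  obtain ⟨c, hc⟩ := lev_unit_pow_of_pow_eq_one hk hm' h1
  rw [Kum.mk_eq_zero_iff]
  refine ⟨c * h, ?_⟩
  rw [mul_pow, hc, inv_mul_cancel_right]

/-- TASK S43/I-Lev-b.  [`x = Kum.mk g`, `g ^ m' = h ^ (m' k)` ⟹ `g = ζ h ^ k`, `ζ` a constant `= c ^ (m' k)`; `h ∈ Dm N m'` because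
`k ord h = ord g ∈ m' k ℤ`; `x = Kum.incl (Kum.mk h)`.] -/
theorem lev_exists_incl (hm : 0 < m' * k) {x : Kum N (m' * k)} (hx : m' • x = 0) :
    ∃ y : Kum N m', Kum.incl N m' k y = x := by
  have hm' : 0 < m' := Nat.pos_of_mul_pos_right hm
  have hk : 0 < k := Nat.pos_of_mul_pos_left hm
  obtain ⟨g, rfl⟩ := Kum.mk_surjective x
  rw [← Kum.mk_pow, Kum.mk_eq_zero_iff] at hx
  obtain ⟨h, hh⟩ := hx
  have hh' : h ^ (m' * k) = (g : (FF N)ˣ) ^ m' := hh
  have h1 : ((g : (FF N)ˣ) * (h ^ k)⁻¹) ^ m' = 1 := by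
    rw [mul_pow, inv_pow, ← pow_mul, mul_comm k m', hh', mul_inv_cancel]
  obtain ⟨c, hc⟩ := lev_unit_pow_of_pow_eq_one hm' hk h1
  have hg : (c * h) ^ k = (g : (FF N)ˣ) := by
    rw [mul_pow, hc, inv_mul_cancel_right]
  have hmem : c * h ∈ Dm N m' := by
    intro P
    have h2 := g.2 P
    rw [← hg] at h2
    have h3 : (((c * h) ^ k : (FF N)ˣ) : FF N) = ((c * h : (FF N)ˣ) : FF N) ^ (k : ℤ) := by simp
    rw [h3, P.ord_zpow] at h2
    have hk0 : (k : ℤ) ≠ 0 := Int.natCast_ne_zero.mpr hk.ne'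
    have h4 : (k : ℤ) * (m' : ℤ) ∣ (k : ℤ) * P.ord ((c * h : (FF N)ˣ) : FF N) := by
      have e : ((m' * k : ℕ) : ℤ) = (k : ℤ) * (m' : ℤ) := by push_cast; ring
      rwa [e] at h2
    exact (mul_dvd_mul_iff_left hk0).mp h4
  refine ⟨Kum.mk ⟨c * h, hmem⟩, ?_⟩
  rw [Kum.incl_mk]
  congr 1
  exact Subtype.ext hg

variable {S : Finset ℕ} {hNS : ∀ r : ℕ, r.Prime → r ∣ N → r ∈ S} {a : ℕ → ℤ}

/-- TASK S43/I-Lev-c.  [`lev_trans_surjective` + `exists_thProj (m' * k) m'` + `projOp_intertwine` with `trans_TT`.] -/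
theorem lev_trans_surjective_Vth (hm : 0 < m' * k) {y : Kum N m'} (hy : y ∈ Vth N m' hNS a) :
    ∃ y' ∈ Vth N (m' * k) hNS a, Kum.trans N (dvd_mul_right m' k) y' = y := by
  have hm' : 0 < m' := Nat.pos_of_mul_pos_right hm
  obtain ⟨L, r, h1, -, -, h4⟩ :=
    exists_thProj (N := N) (hNS := hNS) (a := a) (m' * k) m' hm hm'
  obtain ⟨z, hz⟩ := lev_trans_surjective (N := N) hm y
  refine ⟨_, h1 z, ?_⟩
  rw [projOp_intertwine (TT N (m' * k) hNS a) (TT N m' hNS a) (Kum.trans N (dvd_mul_right m' k))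
    (fun ℓ x => trans_TT (dvd_mul_right m' k) ℓ x), hz]
  exact h4 y hy

/-- TASK S43/I-Lev-c.  [`lev_exists_incl`, `lev_incl_injective`, `gker_of_intertwine_injective` with `incl_TT`.] -/
theorem lev_exists_incl_Vth (hm : 0 < m' * k) {x : Kum N (m' * k)}
    (hxV : x ∈ Vth N (m' * k) hNS a) (hx : m' • x = 0) :
    ∃ y ∈ Vth N m' hNS a, Kum.incl N m' k y = x := by
  obtain ⟨y, hy⟩ := lev_exists_incl (N := N) hm hx
  refine ⟨y, ?_, hy⟩
  refine gker_of_intertwine_injective (TT N m' hNS a) (TT N (m' * k) hNS a) (Kum.incl N m' k)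
    (lev_incl_injective hm) (fun ℓ x => incl_TT k ℓ x) ?_
  rw [hy]
  exact hxV

/-- TASK S43/I-Lev-d.  **Non degeneracy on `Vth` at every exponent.**  [as `Vth_nondeg` in `Vth.lean`, with
`S43.ND.e1K_nondeg_gen` (through `S15.W.toB1`, see the proof of `S15.W.e1N_nondeg` in `S15/W/Mod.lean` for the embedding `j : ℚ̄ → ℂ`)
instead of `e1N_nondeg`.] -/
theorem lev_Vth_nondeg {m : ℕ} (hm : m ≠ 0) {x : Kum N m} (hx : x ∈ Vth N m hNS a)
    (h : ∀ y ∈ Vth N m hNS a, e1N x y = 1) : x = 0 := by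
  have hm0 : 0 < m := Nat.pos_of_ne_zero hm
  obtain ⟨L, r, h1, h2, -, -⟩ := exists_thProj (N := N) (hNS := hNS) (a := a) m m hm0 hm0
  have halg : Algebra.IsAlgebraic ℚ (AlgebraicClosure ℚ) :=
    (inferInstance : @Algebra.IsAlgebraic ℚ (AlgebraicClosure ℚ) _ _
      (AlgebraicClosure.instAlgebra ℚ))
  have hall : ∀ y : Kum N m, e1N x y = 1 := by
    intro y
    have h3 := h _ (h1 y)
    rw [← e1NHom_eq_zero_iff hm] at h3 ⊢
    rw [← projOp_adj (e1NHom hm) _ TT_commute (fun ℓ x y => TT_adj hm ℓ x y), h2 x hx] at h3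
    exact h3
  have h4 : toB1 N m x = 0 := Fermat.Agent.S43.ND.eq_zero_of_e1K_left hm
    ((IsAlgClosed.lift : AlgebraicClosure ℚ →ₐ[ℚ] ℂ) : AlgebraicClosure ℚ →+* ℂ)
    (fun b => by
      have := hall ((toB1 N m).symm b)
      unfold e1N at this
      rwa [AddEquiv.apply_symm_apply] at this)
  exact (toB1 N m).map_eq_zero_iff.1 h4

end

end Fermat.Agent.S43.I
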