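import Fermat.Agent.S43.I.I2
import Fermat.Agent.S43.I.WAExport
import Fermat.Agent.S54.Frobenius

/-!
# S43 / I / NT : the norm trick (board #3453)

Level `M q`, `A` over `q`.  A class `x` of `Kum (M q) m` which is constant modulo `v_∞` and whose norm to level `M` vanishes
is also constant modulo `v_0 = v_∞ ∘ w`; hence it is toric, and inertia at `A` acts trivially on it.

* `InK1.galD`           : `InK1` is stable under the decomposition group of `A`;
* `inK1_w_of_inK1`      : `InK1 A x → nmKum x = 0 → InK1 A (w x)`;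
* `mem_tor_of_inK1`     : `… → x ∈ Tor A w m`;
* `gal_fixed_of_inK1`   : `… → σ x = x` for `σ` in the inertia group.
-/

set_option autoImplicit false

open AlgebraicCurve ModularCurve

namespace Fermat.Agent.S43.I

open Fermat.Agent.ES Fermat.Agent.SS Fermat.Agent.S33

noncomputable section

variable {M q : ℕ} [NeZero M] [NeZero q] {w : FF (M * q) →ₐ[Qb] FF (M * q)}
  {A : ValuationSubring Qb} {m : ℕ}

theorem NT_res_galA (g : A.decompositionSubgroup ℚ) :
    (resA A).comp (galA g)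
      = (MulSemiringAction.toRingHom (A.decompositionSubgroup ℚ) (kA A) g).comp (resA A) :=
  RingHom.ext fun a => IsLocalRing.ResidueField.residue_smul (G := A.decompositionSubgroup ℚ) g a

theorem NT_redUp_one_gal (g : A.decompositionSubgroup ℚ) {x : LaurentSeries Qb}
    (h : RedUp A x 1) : RedUp A (coeffMap (((g : GQ) : Qb →+* Qb)) x) 1 := by
  have h1 := h.gal g _ (NT_res_galA g)
  rwa [map_one] at h1

/-- `InK1` is stable under the decomposition group. -/
theorem InK1.galD {N : ℕ} [NeZero N] (g : A.decompositionSubgroup ℚ) {x : Kum N m}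
    (h : InK1 A x) : InK1 A (galKum N m (g : GQ) x) := by
  obtain ⟨u, rfl, hu⟩ := h
  refine ⟨⟨galU N (g : GQ) u, galU_mem_Dm _ u.2⟩, (galKum_mk _ _).symm, ?_⟩
  rw [redConst_iff_redUp] at hu ⊢
  exact NT_redUp_one_gal g hu

/-- **the norm trick.** -/
theorem inK1_w_of_inK1 (hq : q.Prime) (hqM : ¬ q ∣ M) (hw : IsAL M q w) (hA : A.LiesOverPrime q)
    {x : Kum (M * q) m} (hx : InK1 A x) (hnm : nmKum M q m x = 0) :
    InK1 A (wKum hw hq m x) := by
  have : NeZero (M * q) := ⟨Nat.mul_ne_zero (NeZero.ne M) (NeZero.ne q)⟩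
  obtain ⟨f, rfl, hf⟩ := hx
  rw [nmKum_mk, Kum.mk_eq_zero_iff] at hnm
  obtain ⟨g, hg⟩ := hnm
  obtain ⟨φ, hφ⟩ := S54.exists_isFrobeniusAt q hq A hA
  obtain ⟨γ, hγφ, hγ⟩ := res_galA_of_frobenius hq hA hφ
  -- the key congruence
  have hf0 : ((f : (FF (M * q))ˣ) : FF (M * q)) ≠ 0 := (f : (FF (M * q))ˣ).ne_zero
  have hwf0 : w ((f : (FF (M * q))ˣ) : FF (M * q)) ≠ 0 := by
    rw [Ne, map_eq_zero]; exact hf0
  have key := redUp_frob_w hq hqM hw hA γ hγ (w ((f : (FF (M * q))ˣ) : FF (M * q))) hwf0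
  rw [hw.invol hq] at key
  have hgN : normA M q ((f : (FF (M * q))ˣ) : FF (M * q)) = ((g : (FF M)ˣ) : FF M) ^ m := by
    have := congrArg (fun u : (FF M)ˣ => (u : FF M)) hg
    simpa using this.symm
  rw [hgN, map_pow] at key
  rw [redConst_iff_redUp] at hf
  have hfinv := hf.inv one_ne_zero
  rw [inv_one] at hfinv
  have h2 := hfinv.mul key
  rw [one_mul] at h2
  -- the representative of `φ (w x)`
  have hcl : InK1 A (galKum (M * q) m (γ : GQ) (wKum hw hq m (Kum.mk f))) := by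
    refine ⟨⟨galU (M * q) (γ : GQ) (wU w (f : (FF (M * q))ˣ)) * ((alphaU M q g) ^ m)⁻¹, ?_⟩, ?_, ?_⟩
    · refine mul_mem (galU_mem_Dm _ (hw.wU_mem_Dm hq f.2)) (inv_mem ?_)
      exact Pw_le_Dm _ _ ⟨alphaU M q g, rfl⟩
    · rw [wKum_mk, galKum_mk, Kum.mk_eq_mk_iff]
      refine ⟨(alphaU M q g)⁻¹, ?_⟩
      simp only [inv_pow]
      exact (mul_inv_cancel_comm _ _).symm
    · rw [redConst_iff_redUp]
      refine h2.congr ?_ rfl
      simp only [Units.val_mul, Units.val_inv_eq_inv_val, Units.val_pow_eq_pow_val, coe_galU,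
        coe_wU, coe_alphaU, IntermediateField.coe_mul, IntermediateField.coe_inv,
        IntermediateField.coe_pow]
      have hf0' : (((f : (FF (M * q))ˣ) : FF (M * q)) : LaurentSeries Qb) ≠ 0 :=
        fun h => hf0 (Subtype.ext h)
      field_simp
  have h3 := InK1.galD γ⁻¹ hcl
  rwa [Subgroup.coe_inv, ← galKum_mul, inv_mul_cancel, galKum_one] at h3

/-- a class constant modulo `v_∞` without level `M` is toric. -/
theorem mem_tor_of_inK1 (hq : q.Prime) (hqM : ¬ q ∣ M) (hw : IsAL M q w) (hA : A.LiesOverPrime q)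
    {x : Kum (M * q) m} (hx : InK1 A x) (hnm : nmKum M q m x = 0) : x ∈ Tor A w m :=
  wa M q m hq hqM A hA w hw x hx (inK1_w_of_inK1 hq hqM hw hA hx hnm)

/-- inertia acts trivially on a class constant modulo `v_∞` without level `M`. -/
theorem gal_fixed_of_inK1 (hq : q.Prime) (hqM : ¬ q ∣ M) (hqm : ¬ q ∣ m) (hw : IsAL M q w)
    (hA : A.LiesOverPrime q) {σ : GQ} (hσ : σ ∈ A.inertiaSubgroupIn ℚ)
    {x : Kum (M * q) m} (hx : InK1 A x) (hnm : nmKum M q m x = 0) :
    galKum (M * q) m σ x = x :=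
  gal_of_mem_tor hq hqM hqm hw hA hσ (mem_tor_of_inK1 hq hqM hw hA hx hnm)

end

end Fermat.Agent.S43.I
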