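import Fermat.Agent.S43.Defs
import Fermat.Agent.S15.W.Export
import Fermat.Agent.S15.W.ModLevel
import Fermat.Agent.SS.Formal.Core35
import Fermat.Agent.SS.GM2.Main

/-!
# S43 / I : the local structure at `q` of `Kum (M q) m` (blocks (I1), (I2) of the blueprint)

Level `N = M q`, `q ∤ M`, `A` a valuation ring of `ℚ̄` over `q`, `w` the Atkin-Lehner involution.

* `IsTor A w m x` : `x` is the class of a function which is constant modulo both Gauss valuations
                    `v_∞` and `v_0 = v_∞ ∘ w`;
* `Tor A w m`     : the subgroup generated by these classes (the toric part);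
* `Ram A m V`     : the subgroup generated by the `(σ - 1) y`, `σ` in the inertia group, `y ∈ V`.
-/

set_option autoImplicit false

open AlgebraicCurve ModularCurve

namespace Fermat.Agent.S43.I

open Fermat.Agent.ES Fermat.Agent.SS

noncomputable section

variable {M q : ℕ} [NeZero M] [NeZero q]

/-- `x` is represented by a function which is constant modulo `v_∞` and modulo `v_0`. -/
def IsTor (A : ValuationSubring Qb) (w : FF (M * q) →ₐ[Qb] FF (M * q)) (m : ℕ)
    (x : Kum (M * q) m) : Prop :=
  ∃ u : Dm (M * q) m, x = Kum.mk u ∧ RedConst A ((u : (FF (M * q))ˣ) : FF (M * q)) ∧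
    RedConst A (w ((u : (FF (M * q))ˣ) : FF (M * q)))

/-- the toric part. -/
def Tor (A : ValuationSubring Qb) (w : FF (M * q) →ₐ[Qb] FF (M * q)) (m : ℕ) :
    AddSubgroup (Kum (M * q) m) :=
  AddSubgroup.closure {x | IsTor A w m x}

/-- the subgroup generated by `(σ - 1) V`, `σ` in the inertia group of `A`. -/
def Ram (A : ValuationSubring Qb) (m : ℕ) (V : AddSubgroup (Kum (M * q) m)) :
    AddSubgroup (Kum (M * q) m) :=
  AddSubgroup.closure {x | ∃ σ ∈ A.inertiaSubgroupIn ℚ, ∃ y ∈ V, x = galKum (M * q) m σ y - y}

end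

end Fermat.Agent.S43.I
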