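import Fermat.Agent.S43.I.Vth
import Fermat.Agent.S43.I.Defs
import Fermat.Agent.S44.Soft.Comm
import Fermat.Agent.S44.Soft.AbsEigen
import Fermat.Agent.S43.Th.Abs

/-!
# S43 / I / VthX : the `θ`-part at level `M q`: stability under `w`, vanishing of the norms to level `M`
-/

set_option autoImplicit false

open AlgebraicCurve ModularCurve

namespace Fermat.Agent.S43.I

open Fermat.Agent.ES Fermat.Agent.SS Fermat.Agent.S15.W

noncomputable section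

/-- TASK S43/I-VX-a.  Everything which commutes with Galois commutes with the `T_ℓ`
[`S44.Soft.heckeKum_eq_frob` at both levels with the same Frobenius `φ` at `ℓ` (`S54.exists_frob ℓ hℓ`), exactly as in
`S44.Soft.nmKum_mem_XX`; `heckeT_apply`, `TT_apply`; `ℓ ∤ m` because the primes of `m` are in `S`]. -/
theorem TT_comm_of_gal {N N' m : ℕ} [NeZero N] [NeZero N'] (hm : m ≠ 0) {S : Finset ℕ}
    (hNS : ∀ r : ℕ, r.Prime → r ∣ N → r ∈ S) (hN'S : ∀ r : ℕ, r.Prime → r ∣ N' → r ∈ S)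
    (hmS : ∀ r : ℕ, r.Prime → r ∣ m → r ∈ S) (a : ℕ → ℤ)
    (g : Kum N m →+ Kum N' m) (hg : ∀ (σ : GQ) (x : Kum N m), g (galKum N m σ x) = galKum N' m σ (g x))
    (ℓ : GP S) (x : Kum N m) : g (TT N m hNS a ℓ x) = TT N' m hN'S a ℓ (g x) := by
  have : NeZero ℓ.1 := ⟨ℓ.2.1.ne_zero⟩
  have hℓm : ¬ ℓ.1 ∣ m := fun h => ℓ.2.2 (hmS ℓ.1 ℓ.2.1 h)
  obtain ⟨A, hA, φ, hφ⟩ := Fermat.Agent.S54.exists_frob ℓ.1 ℓ.2.1
  rw [TT_apply, TT_apply, map_sub, map_zsmul, heckeT_apply, heckeT_apply]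
  congr 1
  have h1 := Fermat.Agent.S44.Soft.heckeKum_eq_frob hm ℓ.2.1 (ℓ.good hNS).2.2 hℓm A hA φ hφ x
  have h2 := Fermat.Agent.S44.Soft.heckeKum_eq_frob hm ℓ.2.1 (ℓ.good hN'S).2.2 hℓm A hA φ hφ (g x)
  refine (congrArg g h1).trans (Eq.trans ?_ h2.symm)
  rw [map_add, map_nsmul, hg, hg]

variable {M q m : ℕ} [NeZero M] [NeZero q] {w : FF (M * q) →ₐ[Qb] FF (M * q)} {S : Finset ℕ}
  {hNS : ∀ r : ℕ, r.Prime → r ∣ M * q → r ∈ S} {hMS : ∀ r : ℕ, r.Prime → r ∣ M → r ∈ S}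
  {a : ℕ → ℤ}

/-- TASK S43/I-VX-a.  [`TT_comm_of_gal`, `galKum_wKum`, `gker_intertwine`.] -/
theorem wKum_mem_Vth (hm : m ≠ 0) (hmS : ∀ r : ℕ, r.Prime → r ∣ m → r ∈ S) (hq : q.Prime)
    (hw : IsAL M q w) {x : Kum (M * q) m} (hx : x ∈ Vth (M * q) m hNS a) :
    wKum hw hq m x ∈ Vth (M * q) m hNS a :=
  gker_intertwine _ _ (wKum hw hq m)
    (fun ℓ x => TT_comm_of_gal hm hNS hNS hmS a (wKum hw hq m)
      (fun σ x => (galKum_wKum hw hq σ x).symm) ℓ x) hx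

/-- TASK S43/I-VX-a.  [`TT_comm_of_gal`, `galKum_nmKum`, `gker_intertwine`.] -/
theorem nmKum_mem_Vth (hm : m ≠ 0) (hmS : ∀ r : ℕ, r.Prime → r ∣ m → r ∈ S) (hq : q.Prime)
    (hqM : ¬ q ∣ M) {x : Kum (M * q) m} (hx : x ∈ Vth (M * q) m hNS a) :
    nmKum M q m x ∈ Vth M m hMS a :=
  gker_intertwine _ _ (nmKum M q m)
    (fun ℓ x => TT_comm_of_gal hm hNS hMS hmS a (nmKum M q m)
      (fun σ x => (galKum_nmKum hq hqM σ x).symm) ℓ x) hx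

/-- TASK S43/I-VX-b.  **No level `D`.**  [Suppose `x ∈ Vth`, `x ≠ 0`.  `Vth` is a finite group killed by `p ^ k`, stable under the
commuting operators `TT ℓ`, each of which is nilpotent on it; so there is `x₀ ≠ 0` in `Vth` with `p • x₀ = 0` and `TT ℓ x₀ = 0` for all `ℓ`
(take `x₀ ≠ 0` in `Vth` with `p • x₀ = 0`; among the nonzero elements of the form `(∏ TT ℓ_i) x₀` there is one killed by all `TT ℓ`:
e.g. induction on the cardinality of the subgroup, or well-founded argument: the subgroup `{y ∈ Vth | p y = 0}` is finite, and if `TT ℓ ≠ 0`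
on a nonzero stable subgroup `Y` then `ker (TT ℓ) ∩ Y` is a nonzero, strictly smaller stable subgroup).
For such `x₀`: `FreeAlgebra.lift ℤ (heckeT …) Pol x₀ = (FreeAlgebra.lift ℤ a Pol) • x₀` (`FreeAlgebra.induction`), so
`Pol(a) • x₀ = 0 = p • x₀`, `p ∤ Pol(a)`: `x₀ = 0`.] -/
theorem Vth_eq_bot_of_sep {D p : ℕ} [NeZero D] (hp : p.Prime)
    {hDS : ∀ r : ℕ, r.Prime → r ∣ D → r ∈ S} (hsep : Sep D p S hDS a) {e : ℕ}
    (he : ∃ k : ℕ, e = p ^ k) : Vth D e hDS a = ⊥ := by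
  obtain ⟨k, rfl⟩ := he
  obtain ⟨Pol, h1, h2⟩ := hsep
  have hpos : 0 < p ^ k := pow_pos hp.pos k
  have hfin : Finite (Kum D (p ^ k)) := Glue.finite_Kum hpos
  have hT : ∀ ℓ ℓ' : GP S,
      Commute (heckeT D (p ^ k) (ℓ.good hDS)) (heckeT D (p ^ k) (ℓ'.good hDS)) := by
    intro ℓ ℓ'
    refine LinearMap.ext fun x => ?_
    have : NeZero ℓ.1 := ⟨ℓ.2.1.ne_zero⟩
    have : NeZero ℓ'.1 := ⟨ℓ'.2.1.ne_zero⟩
    exact heckeKum_comm ℓ.1 ℓ'.1 ℓ.2.1 (ℓ.good hDS).2.2 ℓ'.2.1 (ℓ'.good hDS).2.2 x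
  rw [eq_bot_iff]
  intro x hx
  rw [AddSubgroup.mem_bot]
  refine Th.inf_eq_bot (T := fun ℓ : GP S => heckeT D (p ^ k) (ℓ.good hDS)) hT
    (lam := fun ℓ => a ℓ.1) hp (k := k) (fun y => Kum.nsmul_eq_zero y) ?_ ?_
  · intro ℓ
    obtain ⟨n, hn⟩ := hx ℓ
    refine ⟨n, ?_⟩
    have h3 : Th.dd (fun ℓ : GP S => heckeT D (p ^ k) (ℓ.good hDS)) (fun ℓ => a ℓ.1) ℓ
        = TT D (p ^ k) hDS a ℓ := by
      refine LinearMap.ext fun y => ?_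
      rw [Th.dd_apply, TT_apply]
    rw [h3]
    exact hn
  · exact ⟨Pol, by rw [h1 _ hpos]; rfl, h2⟩

end

end Fermat.Agent.S43.I
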