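import Fermat.Agent.S43.I.Iso
import Fermat.Agent.S43.I.Tor

/-!
# S43 / I / KumEasy : the field `kum` of `IsoHyp` is SOFT when `p ∤ q² - 1`

(no (EV), no charts: only `Ram ≤ Tor`, `φ² = q²` on `Tor` and the weight argument).  In particular for `q = 3` (`p ≥ 5`), where the chart-based
leaves need `Crux.Admissible 3 M`, i.e. `2 ∣ M`.

`kum_easy` : `incl y = (σ - 1) x'` (`σ ∈ I_A`), `φ² z = q² z`, `p ∤ q² - 1`  ⟹  `e1N y z = 1`.
-/

set_option autoImplicit false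

open AlgebraicCurve ModularCurve

namespace Fermat.Agent.S43.I

open Fermat.Agent.ES Fermat.Agent.SS Fermat.Agent.S15.W

variable {M q : ℕ} [NeZero M] [NeZero q]

/-- elementary: a `p`-th root of unity `ζ` with `ζ ^ (n n) = ζ ^ n`, `p ∤ n (n - 1)`, is `1`. -/
theorem KumEasy_eq_one {p n : ℕ} (hp : p.Prime) (hn : 0 < n) (h1 : ¬ p ∣ n) (h2 : ¬ p ∣ n - 1)
    {ζ : Qb} (h0 : ζ ≠ 0) (hζ : ζ ^ p = 1) (h : ζ ^ (n * n) = ζ ^ n) : ζ = 1 := by
  have h3 : ζ ^ (n * (n - 1)) = 1 := by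
    have e1 : n * n = n * (n - 1) + n := by
      obtain ⟨t, rfl⟩ : ∃ t, n = t + 1 := ⟨n - 1, by omega⟩
      rw [Nat.add_sub_cancel]
      ring
    rw [e1, pow_add] at h
    exact mul_right_cancel₀ (pow_ne_zero _ h0) (by rw [h, one_mul])
  have hd1 : orderOf ζ ∣ p := orderOf_dvd_of_pow_eq_one hζ
  have hd2 : orderOf ζ ∣ n * (n - 1) := orderOf_dvd_of_pow_eq_one h3
  rcases (Nat.dvd_prime hp).1 hd1 with h4 | h4
  · exact orderOf_eq_one_iff.1 h4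
  · rw [h4] at hd2
    rcases (Nat.Prime.dvd_mul hp).1 hd2 with h5 | h5
    · exact absurd h5 h1
    · exact absurd h5 h2

/-- **(KUM) in the easy case `p ∤ q² - 1`.** -/
theorem kum_easy {p m : ℕ} (hp : p.Prime) (hq : q.Prime) (hqp : q ≠ p) (hqM : ¬ q ∣ M)
    (hpq : ¬ p ∣ q ^ 2 - 1) (hm : m ≠ 0) (hqm : ¬ q ∣ m)
    {A : ValuationSubring Qb} (hA : A.LiesOverPrime q)
    {w : FF (M * q) →ₐ[Qb] FF (M * q)} (hw : IsAL M q w)
    {φ : GQ} (hφ : A.IsFrobeniusAt φ q) {σ : GQ} (hσ : σ ∈ A.inertiaSubgroupIn ℚ)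
    (x' : Kum (M * q) (p * m)) (y : Kum (M * q) p)
    (hy : Kum.incl (M * q) p m y = galKum (M * q) (p * m) σ x' - x')
    (z : Kum (M * q) p)
    (hz : galKum (M * q) p φ (galKum (M * q) p φ z) = (q ^ 2) • z) : e1N y z = 1 := by
  have : NeZero (M * q) := ⟨Nat.mul_ne_zero (NeZero.ne M) (NeZero.ne q)⟩
  have hqp' : ¬ q ∣ p := fun h => hqp ((Nat.prime_dvd_prime_iff_eq hq hp).1 h)
  have hqpm : ¬ q ∣ p * m := fun h => (hq.dvd_mul.1 h).elim hqp' hqm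
  have ht : galKum (M * q) (p * m) σ x' - x' ∈ Tor A w (p * m) :=
    ram_le_tor hq hw ⊤ (AddSubgroup.subset_closure ⟨σ, hσ, x', AddSubgroup.mem_top _, rfl⟩)
  have h1 := frob_sq_of_mem_tor hq hqM hqpm hw hA hφ ht
  rw [← hy, ← Kum.incl_galKum, ← Kum.incl_galKum, ← map_nsmul] at h1
  have hy2 : galKum (M * q) p φ (galKum (M * q) p φ y) = (q ^ 2) • y :=
    incl_inj hp.ne_zero hm h1
  have h2 := S15.P.e1N_pow_of_frob hp.ne_zero φ (fun ζ hζ => by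
    have := S31.frob_pow_apply_root A hq hA φ hφ hqp' hζ 2
    rwa [pow_two] at this) y z hy2 hz
  refine KumEasy_eq_one hp (pow_pos hq.pos 2) (fun h => hqp ?_) hpq (e1N_ne_zero hp.ne_zero y z)
    (e1N_pow hp.ne_zero y z) h2
  exact ((Nat.prime_dvd_prime_iff_eq hp hq).1 (hp.dvd_of_dvd_pow h)).symm

end Fermat.Agent.S43.I
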