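import Fermat.Agent.S43.I.XBlock
import Fermat.Agent.S43.I.IsoInst
import Fermat.Agent.S43.I.KumEasy
import Fermat.Agent.S43.Th.Bridge

/-!
# S43 / I / Main0 : `Fin.XBlock M q p` from `(a_k)` and `(KUM)` (resp. `(EV)`)

* `isoHyp_of_kum` : `IsoHyp` for `C : Fin.Ctx M q p` from `(a_k)` and the field `kum`, the latter only when `p ∣ q² - 1`
  (`kum_easy` otherwise);
* `xHyp`          : the package `XHyp` of `I/XBlock.lean`;
* `xBlock_of_kum`, `xBlock_of_ev` : `Fin.XBlock M q p`.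
-/

set_option autoImplicit false

open AlgebraicCurve ModularCurve

namespace Fermat.Agent.S43.I

open Fermat.Agent.ES Fermat.Agent.SS Fermat.Agent.S15.W

variable {M q p : ℕ} [NeZero M] [NeZero q]

/-- `(a_k)` for the data `C`. -/
def AK (C : Fin.Ctx M q p) : Prop :=
  ∀ m, IsPP p m → Inv (M * q) (ctx_hNS C) C.a C.A m ≤ Tor C.A C.w m

/-- the field `kum` of `IsoHyp` for the data `C`. -/
def KumF (C : Fin.Ctx M q p) : Prop :=
  ∀ m, IsPP p m → ∀ x' ∈ Vth (M * q) (p * m) (ctx_hNS C) C.a,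
    Kum.trans (M * q) (Dvd.intro_left p rfl : m ∣ p * m) x' ∈ Inv (M * q) (ctx_hNS C) C.a C.A m →
    ∀ y : Kum (M * q) p, Kum.incl (M * q) p m y = galKum (M * q) (p * m) C.Sg x' - x' →
    ∀ z ∈ Inv (M * q) (ctx_hNS C) C.a C.A p, e1N y z = 1

/-- `(EV)` for the data `C`. -/
def EVF (C : Fin.Ctx M q p) : Prop :=
  ∀ z ∈ Inv (M * q) (ctx_hNS C) C.a C.A p, ∃ fz : Dm (M * q) p, Kum.mk fz = z ∧
    (∀ s ∈ C.A.inertiaSubgroupIn ℚ,
      galF (M * q) s ((fz : (FF (M * q))ˣ) : FF (M * q)) = ((fz : (FF (M * q))ˣ) : FF (M * q))) ∧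
    KUM.EV (M * q) C.A q p ((fz : (FF (M * q))ˣ) : FF (M * q))

theorem kumF_of_ev (C : Fin.Ctx M q p) (hEV : EVF C) : KumF C := by
  intro m hm x' _ hx y hy z hz
  obtain ⟨fz, rfl, hfz, hev⟩ := hEV z hz
  exact KUM.kum_main C.hq C.hA ((IsPP.self p).not_dvd C.hp C.hq C.hqp) (hm.pos C.hp).ne' x'
    (fun s hs => hx.2 s hs) fz hfz hev C.Sg C.hSg.1 y hy

theorem ctx_fr (C : Fin.Ctx M q p) (hTor : AK C) : ∀ m, IsPP p m →
    ∀ x ∈ Inv (M * q) (ctx_hNS C) C.a C.A m,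
      galKum (M * q) m C.Ph (galKum (M * q) m C.Ph x) = (q ^ 2) • x := by
  intro m hm x hx
  exact frob_sq_of_mem_tor C.hq C.hqM (hm.not_dvd C.hp C.hq C.hqp) C.hw C.hA C.hPh (hTor m hm hx)

/-- **`IsoHyp` from `(a_k)` and `(KUM)`**, the latter only if `p ∣ q² - 1`. -/
theorem isoHyp_of_kum (C : Fin.Ctx M q p) (hTor : AK C) (hKum : p ∣ q ^ 2 - 1 → KumF C) :
    IsoHyp (M * q) (ctx_hNS C) C.a C.A p q C.Sg C.Ph where
  hp := C.hp
  hq := C.hq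
  hqp := C.hqp
  hA := C.hA
  hSg := C.hSg.1
  hφ := C.hPh
  gen := ctx_gen C
  kum := by
    by_cases hpq : p ∣ q ^ 2 - 1
    · exact hKum hpq
    · intro m hm x' _ _ y hy z hz
      exact kum_easy C.hp C.hq C.hqp C.hqM hpq (hm.pos C.hp).ne' (hm.not_dvd C.hp C.hq C.hqp)
        C.hA C.hw C.hPh C.hSg.1 x' y hy z (ctx_fr C hTor p (IsPP.self p) z hz)
  fr := ctx_fr C hTor

theorem ctx_sepM (C : Fin.Ctx M q p) : Sep M p C.S C.hMS C.a := by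
  refine C.hSep M C.hMS (dvd_mul_right M q) ?_
  intro h
  have h1 : M * 1 = M * q := by rw [mul_one]; exact h
  have h2 := Nat.eq_of_mul_eq_mul_left (Nat.pos_of_ne_zero (NeZero.ne M)) h1
  exact C.hq.one_lt.ne h2

theorem isPP_mul_pow (p n : ℕ) : IsPP p (p * p ^ n) := ⟨n, (pow_succ' p n).symm⟩

/-- the package of `I/XBlock.lean`. -/
theorem xHyp (C : Fin.Ctx M q p) (H : IsoHyp (M * q) (ctx_hNS C) C.a C.A p q C.Sg C.Ph) (n : ℕ) :
    XHyp M q p n C.w C.A C.S (ctx_hNS C) C.hMS C.a where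
  hq := C.hq
  hqM := C.hqM
  hp := C.hp
  hp2 := by have := C.hp5; omega
  hpq := C.hqp.symm
  hpS := C.hpS
  hw := C.hw
  hA := C.hA
  hsep := ctx_sepM C
  hiso := by
    intro x hx y hy hxT hyT
    have hqm := (isPP_mul_pow p n).not_dvd C.hp C.hq C.hqp
    exact H.isotropic (isPP_mul_pow p n)
      ⟨hx, fun σ hσ => gal_of_mem_tor C.hq C.hqM hqm C.hw C.hA hσ hxT⟩
      ⟨hy, fun σ hσ => gal_of_mem_tor C.hq C.hqM hqm C.hw C.hA hσ hyT⟩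

theorem ctx_eps (C : Fin.Ctx M q p) : C.ε * C.ε = 1 := by
  rcases C.hε with h | h <;> rw [h] <;> norm_num

/-- (LOC) at a general exponent `m = p * p ^ n`. -/
theorem loc_gen (C : Fin.Ctx M q p) (H : IsoHyp (M * q) (ctx_hNS C) C.a C.A p q C.Sg C.Ph)
    (n m : ℕ) (hm : p * p ^ n = m) (y : Kum (M * q) m) (hy : y ∈ Fin.Vth (M * q) m C.S C.a)
    (hwy : wKum C.hw C.hq m y = -(C.ε • y)) :
    galKum (M * q) m C.Ph (galKum (M * q) m C.Ph y)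
      - (C.ε * ((q : ℤ) + 1)) • galKum (M * q) m C.Ph y + (q : ℤ) • y = 0 := by
  subst hm
  rw [Th.Fin_Vth_eq_I (hNS := ctx_hNS C)] at hy
  have h := xloc (xHyp C H n) C.hPh (ctx_eps C) hy hwy
  rw [map_sub, map_zsmul] at h
  generalize galKum (M * q) (p * p ^ n) C.Ph (galKum (M * q) (p * p ^ n) C.Ph y) = Z at h ⊢
  generalize galKum (M * q) (p * p ^ n) C.Ph y = Y at h ⊢
  have e1 : Z = C.ε • Y + (C.ε * (q : ℤ)) • (Y - C.ε • y) := by rw [← h]; abel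
  have e2 : (C.ε * (q : ℤ)) • (C.ε • y) = (q : ℤ) • y := by
    rw [smul_smul, mul_right_comm, ctx_eps C, one_mul]
  rw [e1, smul_sub, e2, mul_add, mul_one, add_smul]
  abel

/-- (GA) at a general exponent `m = p * p ^ n`. -/
theorem ga_gen (C : Fin.Ctx M q p) (H : IsoHyp (M * q) (ctx_hNS C) C.a C.A p q C.Sg C.Ph)
    (n m : ℕ) (hm : p * p ^ n = m) (P : Kum (M * q) m) (hP : P ∈ Fin.Vth (M * q) m C.S C.a)
    (hwP : wKum C.hw C.hq m P = -(C.ε • P)) (hpP : p • P = 0)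
    (hSP : galKum (M * q) m C.Sg P = P) :
    ∃ P' ∈ Fin.Vth (M * q) m C.S C.a, wKum C.hw C.hq m P' = -(C.ε • P') ∧ p ^ n • P' = P ∧
      galKum (M * q) m C.Sg P' = P' ∧ galKum (M * q) m C.Ph P' = (C.ε * (q : ℤ)) • P' := by
  subst hm
  rw [Th.Fin_Vth_eq_I (hNS := ctx_hNS C)] at hP ⊢
  obtain ⟨P', h1, h2, h3, h4, h5⟩ := xga (xHyp C H n) C.hPh C.hSg.1
    (fun x hx hinv => H.I1 ⟨hx, hinv⟩) (ctx_eps C) hP hwP hpP
    (ctx_gen C _ (isPP_mul_pow p n) P hSP)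
  exact ⟨P', h1, h2, h3, h4 C.Sg C.hSg.1, h5⟩

/-- **`XBlock` for one datum.** -/
theorem xBlock_ctx (C : Fin.Ctx M q p) (hTor : AK C) (hKum : p ∣ q ^ 2 - 1 → KumF C) :
    C.LOC ∧ C.GA := by
  have H := isoHyp_of_kum C hTor hKum
  constructor
  · intro y hy
    obtain ⟨h1, h2⟩ := C.mem_J.1 hy
    exact loc_gen C H C.e _ (pow_succ' p C.e).symm y h1 h2
  · intro P hP hpP hSP
    obtain ⟨h1, h2⟩ := C.mem_J.1 hP
    obtain ⟨P', g1, g2, g3, g4, g5⟩ := ga_gen C H C.e _ (pow_succ' p C.e).symm P h1 h2 hpP hSP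
    exact ⟨P', C.mem_J.2 ⟨g1, g2⟩, g3, g4, g5⟩

/-- **`XBlock` from `(a_k)` and `(KUM)`.** -/
theorem xBlock_of_kum (hTor : ∀ C : Fin.Ctx M q p, AK C)
    (hKum : ∀ C : Fin.Ctx M q p, p ∣ q ^ 2 - 1 → KumF C) : Fin.XBlock M q p :=
  fun C => xBlock_ctx C (hTor C) (hKum C)

/-- **`XBlock` from `(a_k)` and `(EV)`.** -/
theorem xBlock_of_ev (hTor : ∀ C : Fin.Ctx M q p, AK C)
    (hEV : ∀ C : Fin.Ctx M q p, p ∣ q ^ 2 - 1 → EVF C) : Fin.XBlock M q p :=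
  fun C => xBlock_ctx C (hTor C) (fun h => kumF_of_ev C (hEV C h))

end Fermat.Agent.S43.I
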