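import Fermat.Agent.S15.W.KumPair

/-!
# S43 / I / AbsIso : abstract lemmas for (DIV) + (WT)

* `gker T`      : the common generalized kernel of a family of endomorphisms of an abelian group;
* `projOp T r L`: the operator `∏_{i ∈ L} (1 - T i ^ r)`;
* `exists_proj` : on finite groups, for a suitable `(L, r)`, `projOp` is a projector onto `gker` (two groups at a time);
* `mem_of_perp_perp` : `𝒩^⊥⊥ ⊆ 𝒩` for a non degenerate pairing on a finite group killed by a prime.
-/

set_option autoImplicit false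

namespace Fermat.Agent.S43.I

section Proj

variable {ι X X' : Type*} [AddCommGroup X] [AddCommGroup X']

theorem AI_pow_apply_of_le (T : Module.End ℤ X) {n m : ℕ} (h : n ≤ m) {x : X}
    (hx : (T ^ n) x = 0) : (T ^ m) x = 0 := by
  obtain ⟨k, rfl⟩ := Nat.exists_eq_add_of_le h
  rw [add_comm, pow_add, Module.End.mul_apply, hx, map_zero]

/-- the common generalized kernel. -/
def gker (T : ι → Module.End ℤ X) : AddSubgroup X where
  carrier := {x | ∀ i, ∃ n : ℕ, (T i ^ n) x = 0}
  zero_mem' := fun _ => ⟨0, map_zero _⟩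
  add_mem' := by
    intro x y hx hy i
    obtain ⟨n, hn⟩ := hx i
    obtain ⟨m, hm⟩ := hy i
    refine ⟨n + m, ?_⟩
    rw [map_add, AI_pow_apply_of_le (T i) (Nat.le_add_right n m) hn,
      AI_pow_apply_of_le (T i) (Nat.le_add_left m n) hm, add_zero]
  neg_mem' := by
    intro x hx i
    obtain ⟨n, hn⟩ := hx i
    exact ⟨n, by rw [map_neg, hn, neg_zero]⟩

theorem mem_gker {T : ι → Module.End ℤ X} {x : X} :
    x ∈ gker T ↔ ∀ i, ∃ n : ℕ, (T i ^ n) x = 0 := Iff.rfl

/-- `∏_{i ∈ L} (1 - T i ^ r)`. -/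
def projOp (T : ι → Module.End ℤ X) (r : ℕ) : List ι → Module.End ℤ X
  | [] => 1
  | i :: L => (1 - T i ^ r) * projOp T r L

/-- uniform bound for the nilpotency index. -/
theorem AI_pow_card_apply [Finite X] (T : Module.End ℤ X) {n : ℕ} {x : X} (hx : (T ^ n) x = 0) :
    (T ^ Nat.card X) x = 0 := by
  classical
  have hex : ∃ k, (T ^ k) x = 0 := ⟨n, hx⟩
  have hk := Nat.find_spec hex
  have hmin : ∀ j, j < Nat.find hex → (T ^ j) x ≠ 0 := fun j hj => Nat.find_min hex hj
  generalize Nat.find hex = k at hk hmin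
  refine AI_pow_apply_of_le T ?_ hk
  have hinj : Function.Injective (fun j : Fin k => (T ^ (j : ℕ)) x) := by
    have key : ∀ i j : ℕ, i < j → j < k → (T ^ i) x ≠ (T ^ j) x := by
      intro i j hij hjk h
      apply hmin (i + (k - j)) (by omega)
      have h1 : (T ^ (k - j)) ((T ^ i) x) = (T ^ (k - j)) ((T ^ j) x) := by rw [h]
      rw [← Module.End.mul_apply, ← Module.End.mul_apply, ← pow_add, ← pow_add,
        show k - j + j = k by omega, hk] at h1
      rw [add_comm]
      exact h1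
    intro i j h
    by_contra hne
    rcases lt_or_gt_of_ne (fun h' => hne (Fin.ext h')) with hlt | hlt
    · exact key i j hlt j.2 h
    · exact key j i hlt i.2 h.symm
  have := Nat.card_le_card_of_injective _ hinj
  rwa [Nat.card_fin] at this

theorem AI_exists_period [Finite X] (T : Module.End ℤ X) :
    ∃ n d : ℕ, 0 < d ∧ ∀ r, d ∣ r → T ^ n * (1 - T ^ r) = 0 := by
  have hfin : Finite (Module.End ℤ X) :=
    Finite.of_injective (fun f : Module.End ℤ X => (f : X → X)) DFunLike.coe_injective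
  obtain ⟨a, b, hab, h⟩ := Finite.exists_ne_map_eq_of_infinite (fun n : ℕ => T ^ n)
  have h' : T ^ a = T ^ b := h
  have main : ∀ n d : ℕ, T ^ (n + d) = T ^ n → ∀ r, d ∣ r → T ^ n * (1 - T ^ r) = 0 := by
    intro n d hnd r hr
    obtain ⟨k, rfl⟩ := hr
    have : ∀ k : ℕ, T ^ (n + d * k) = T ^ n := by
      intro k
      induction k with
      | zero => simp
      | succ k ih =>
        rw [Nat.mul_succ, ← add_assoc, pow_add, ih, ← pow_add, hnd]
    rw [mul_sub, mul_one, ← pow_add, this, sub_self]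
  rcases lt_or_gt_of_ne hab with hlt | hlt
  · exact ⟨a, b - a, by omega, main a (b - a) (by rw [show a + (b - a) = b by omega, h'])⟩
  · exact ⟨b, a - b, by omega, main b (a - b) (by rw [show b + (a - b) = a by omega, h'])⟩

theorem AI_exists_period_list [Finite X] (T : ι → Module.End ℤ X) (L : List ι) :
    ∃ r₀ : ℕ, 0 < r₀ ∧ ∀ r, r₀ ∣ r → ∀ i ∈ L, ∃ n : ℕ, T i ^ n * (1 - T i ^ r) = 0 := by
  induction L with
  | nil => exact ⟨1, one_pos, fun _ _ i hi => absurd hi (List.not_mem_nil)⟩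
  | cons j L ih =>
    obtain ⟨r₀, hr₀, h⟩ := ih
    obtain ⟨n, d, hd, hn⟩ := AI_exists_period (T j)
    refine ⟨d * r₀, Nat.mul_pos hd hr₀, fun r hr i hi => ?_⟩
    rcases List.mem_cons.mp hi with rfl | hi
    · exact ⟨n, hn r ((dvd_mul_right d r₀).trans hr)⟩
    · exact h r ((dvd_mul_left r₀ d).trans hr) i hi

theorem AI_commute_projOp (T : ι → Module.End ℤ X) (hc : ∀ i j, Commute (T i) (T j)) (r : ℕ)
    (L : List ι) (i : ι) : Commute (T i) (projOp T r L) := by
  induction L with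
  | nil => exact Commute.one_right _
  | cons j L ih =>
    exact Commute.mul_right (Commute.sub_right (Commute.one_right _) ((hc i j).pow_right r)) ih

theorem AI_pow_mul_projOp (T : ι → Module.End ℤ X) (hc : ∀ i j, Commute (T i) (T j)) (r : ℕ)
    (L : List ι) (h : ∀ i ∈ L, ∃ n : ℕ, T i ^ n * (1 - T i ^ r) = 0) :
    ∀ i ∈ L, ∃ n : ℕ, T i ^ n * projOp T r L = 0 := by
  induction L with
  | nil => exact fun i hi => absurd hi (List.not_mem_nil)
  | cons j L ih =>
    intro i hi
    by_cases hij : i = j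
    · subst hij
      obtain ⟨n, hn⟩ := h i hi
      exact ⟨n, by rw [projOp, ← mul_assoc, hn, zero_mul]⟩
    · have hi' : i ∈ L := (List.mem_cons.mp hi).resolve_left hij
      obtain ⟨n, hn⟩ := ih (fun i hi => h i (List.mem_cons_of_mem _ hi)) i hi'
      refine ⟨n, ?_⟩
      have hcom : Commute (T i ^ n) (1 - T j ^ r) :=
        Commute.sub_right (Commute.one_right _) ((hc i j).pow_pow n r)
      rw [projOp, ← mul_assoc, hcom.eq, mul_assoc, hn, mul_zero]

theorem AI_projOp_apply_of_mem [Finite X] (T : ι → Module.End ℤ X) (r : ℕ) (hr : Nat.card X ≤ r)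
    (L : List ι) {x : X} (hx : x ∈ gker T) : projOp T r L x = x := by
  induction L with
  | nil => rfl
  | cons j L ih =>
    obtain ⟨n, hn⟩ := hx j
    rw [projOp, Module.End.mul_apply, ih, LinearMap.sub_apply, Module.End.one_apply,
      AI_pow_apply_of_le (T j) hr (AI_pow_card_apply (T j) hn), sub_zero]

theorem AI_exists_list [Finite X] (T : ι → Module.End ℤ X) :
    ∃ L₀ : List ι, ∀ y : X, (∀ i ∈ L₀, ∃ n : ℕ, (T i ^ n) y = 0) → y ∈ gker T := by
  classical
  have := Fintype.ofFinite X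
  have hch : ∀ y : X, ∃ i : Option ι, y ∉ gker T → ∃ j, i = some j ∧ ¬ ∃ n : ℕ, (T j ^ n) y = 0 := by
    intro y
    by_cases hy : y ∈ gker T
    · exact ⟨none, fun h => absurd hy h⟩
    · rw [mem_gker] at hy
      push Not at hy
      obtain ⟨j, hj⟩ := hy
      exact ⟨some j, fun _ => ⟨j, rfl, by push Not; exact hj⟩⟩
  choose c hc using hch
  refine ⟨(Finset.univ : Finset X).toList.filterMap c, fun y hy => ?_⟩
  by_contra hyn
  obtain ⟨j, hj, hjn⟩ := hc y hyn
  exact hjn (hy j (List.mem_filterMap.mpr ⟨y, Finset.mem_toList.mpr (Finset.mem_univ y), hj⟩))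

/-- intertwiners. -/
theorem AI_pow_intertwine (T : Module.End ℤ X) (T' : Module.End ℤ X') (g : X →+ X')
    (h : ∀ x, g (T x) = T' (g x)) (n : ℕ) (x : X) : g ((T ^ n) x) = (T' ^ n) (g x) := by
  induction n generalizing x with
  | zero => rfl
  | succ n ih => rw [pow_succ, pow_succ, Module.End.mul_apply, Module.End.mul_apply, ih, h]

theorem projOp_intertwine (T : ι → Module.End ℤ X) (T' : ι → Module.End ℤ X') (g : X →+ X')
    (h : ∀ i x, g (T i x) = T' i (g x)) (r : ℕ) (L : List ι) (x : X) :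
    g (projOp T r L x) = projOp T' r L (g x) := by
  induction L generalizing x with
  | nil => rfl
  | cons j L ih =>
    rw [projOp, projOp, Module.End.mul_apply, Module.End.mul_apply, LinearMap.sub_apply,
      LinearMap.sub_apply, Module.End.one_apply, Module.End.one_apply, map_sub,
      AI_pow_intertwine (T j) (T' j) g (h j), ih]

theorem gker_intertwine (T : ι → Module.End ℤ X) (T' : ι → Module.End ℤ X') (g : X →+ X')
    (h : ∀ i x, g (T i x) = T' i (g x)) {x : X} (hx : x ∈ gker T) : g x ∈ gker T' := by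
  intro i
  obtain ⟨n, hn⟩ := hx i
  exact ⟨n, by rw [← AI_pow_intertwine (T i) (T' i) g (h i), hn, map_zero]⟩

theorem gker_of_intertwine_injective (T : ι → Module.End ℤ X) (T' : ι → Module.End ℤ X')
    (g : X →+ X') (hg : Function.Injective g)
    (h : ∀ i x, g (T i x) = T' i (g x)) {x : X} (hx : g x ∈ gker T') : x ∈ gker T := by
  intro i
  obtain ⟨n, hn⟩ := hx i
  refine ⟨n, hg ?_⟩
  rw [AI_pow_intertwine (T i) (T' i) g (h i), hn, map_zero]

/-- self-adjointness. -/
theorem projOp_adj {M : Type*} [AddCommGroup M] (β : X →+ X →+ M) (T : ι → Module.End ℤ X)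
    (hc : ∀ i j, Commute (T i) (T j)) (hadj : ∀ i x y, β (T i x) y = β x (T i y)) (r : ℕ)
    (L : List ι) (x y : X) : β (projOp T r L x) y = β x (projOp T r L y) := by
  have hpow : ∀ (i : ι) (n : ℕ) (x y : X), β ((T i ^ n) x) y = β x ((T i ^ n) y) := by
    intro i n
    induction n with
    | zero => intro x y; rfl
    | succ n ih =>
      intro x y
      rw [pow_succ, Module.End.mul_apply, ih, hadj, ← Module.End.mul_apply, ← pow_succ', pow_succ]
  induction L generalizing x y with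
  | nil => rfl
  | cons j L ih =>
    have hcom : Commute (1 - T j ^ r) (projOp T r L) :=
      Commute.sub_left (Commute.one_left _) ((AI_commute_projOp T hc r L j).pow_left r)
    have h1 : ∀ x y : X, β ((1 - T j ^ r) x) y = β x ((1 - T j ^ r) y) := by
      intro x y
      rw [LinearMap.sub_apply, LinearMap.sub_apply, Module.End.one_apply, Module.End.one_apply,
        map_sub, map_sub, AddMonoidHom.sub_apply, hpow]
    rw [projOp, Module.End.mul_apply, h1, ih, ← Module.End.mul_apply, hcom.eq]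

/-- **the projector onto the generalized eigenspace**, for two finite groups at a time. -/
theorem exists_proj [Finite X] [Finite X'] (T : ι → Module.End ℤ X) (T' : ι → Module.End ℤ X')
    (hc : ∀ i j, Commute (T i) (T j)) (hc' : ∀ i j, Commute (T' i) (T' j)) :
    ∃ (L : List ι) (r : ℕ), (∀ x, projOp T r L x ∈ gker T) ∧ (∀ x ∈ gker T, projOp T r L x = x) ∧
      (∀ x, projOp T' r L x ∈ gker T') ∧ (∀ x ∈ gker T', projOp T' r L x = x) := by
  obtain ⟨L₀, hL₀⟩ := AI_exists_list T
  obtain ⟨L₀', hL₀'⟩ := AI_exists_list T'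
  obtain ⟨r₀, hr₀, h₀⟩ := AI_exists_period_list T (L₀ ++ L₀')
  obtain ⟨r₀', hr₀', h₀'⟩ := AI_exists_period_list T' (L₀ ++ L₀')
  have hX : 0 < Nat.card X := Nat.card_pos
  have hX' : 0 < Nat.card X' := Nat.card_pos
  refine ⟨L₀ ++ L₀', r₀ * r₀' * (Nat.card X * Nat.card X'), ?_, ?_, ?_, ?_⟩
  · intro x
    apply hL₀
    intro i hi
    obtain ⟨n, hn⟩ := AI_pow_mul_projOp T hc _ (L₀ ++ L₀')
      (h₀ _ (Dvd.dvd.mul_right (dvd_mul_right r₀ r₀') _)) i (List.mem_append_left _ hi)
    exact ⟨n, by rw [← Module.End.mul_apply, hn, LinearMap.zero_apply]⟩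
  · intro x hx
    refine AI_projOp_apply_of_mem T _ ?_ _ hx
    calc Nat.card X ≤ Nat.card X * Nat.card X' := Nat.le_mul_of_pos_right _ hX'
      _ ≤ r₀ * r₀' * (Nat.card X * Nat.card X') := Nat.le_mul_of_pos_left _ (Nat.mul_pos hr₀ hr₀')
  · intro x
    apply hL₀'
    intro i hi
    obtain ⟨n, hn⟩ := AI_pow_mul_projOp T' hc' _ (L₀ ++ L₀')
      (h₀' _ (Dvd.dvd.mul_right (dvd_mul_left r₀' r₀) _)) i (List.mem_append_right _ hi)
    exact ⟨n, by rw [← Module.End.mul_apply, hn, LinearMap.zero_apply]⟩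
  · intro x hx
    refine AI_projOp_apply_of_mem T' _ ?_ _ hx
    calc Nat.card X' ≤ Nat.card X * Nat.card X' := Nat.le_mul_of_pos_left _ hX
      _ ≤ r₀ * r₀' * (Nat.card X * Nat.card X') := Nat.le_mul_of_pos_left _ (Nat.mul_pos hr₀ hr₀')

end Proj

section Perp

open Fermat.Agent.S15.W

/-- the restriction map `G₀ → Hom(H, M)`, `b ↦ β(·, b)`. -/
def AI_res {G M : Type*} [AddCommGroup G] [AddCommGroup M] (β : G →+ G →+ M)
    (G₀ H : AddSubgroup G) : G₀ →+ (H →+ M) :=
  AddMonoidHom.mk' (fun b : G₀ => (β.flip b).comp H.subtype) (by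
    intro b b'
    ext a
    simp)

theorem AI_res_apply {G M : Type*} [AddCommGroup G] [AddCommGroup M] (β : G →+ G →+ M)
    (G₀ H : AddSubgroup G) (b : G₀) (a : H) : AI_res β G₀ H b a = β a b := rfl

/-- `𝒩^⊥⊥ ⊆ 𝒩`. -/
theorem mem_of_perp_perp {G M : Type*} [AddCommGroup G] [AddCommGroup M] {e : ℕ} (he : e.Prime)
    (hG : ∀ x : G, e • x = 0) (hM : ∀ s : Finset M, (∀ m ∈ s, e • m = 0) → s.card ≤ e)
    (β : G →+ G →+ M) (G₀ H : AddSubgroup G) [Finite G₀] (hH : H ≤ G₀)
    (hnd : ∀ a ∈ G₀, a ≠ 0 → ∃ b ∈ G₀, β a b ≠ 0)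
    {a : G} (ha : a ∈ G₀) (hperp : ∀ b ∈ G₀, (∀ c ∈ H, β c b = 0) → β a b = 0) : a ∈ H := by
  let Q : AddSubgroup G :=
    { carrier := {a | a ∈ G₀ ∧ ∀ b ∈ G₀, (∀ c ∈ H, β c b = 0) → β a b = 0}
      zero_mem' := ⟨G₀.zero_mem, fun b _ _ => by simp⟩
      add_mem' := by
        rintro x y ⟨hx, hx'⟩ ⟨hy, hy'⟩
        refine ⟨G₀.add_mem hx hy, fun b hb hc => ?_⟩
        rw [map_add, AddMonoidHom.add_apply, hx' b hb hc, hy' b hb hc, add_zero]
      neg_mem' := by
        rintro x ⟨hx, hx'⟩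
        refine ⟨G₀.neg_mem hx, fun b hb hc => ?_⟩
        rw [map_neg, AddMonoidHom.neg_apply, hx' b hb hc, neg_zero] }
  have hQG : Q ≤ G₀ := fun x hx => hx.1
  have hHQ : H ≤ Q := fun x hx => ⟨hH hx, fun b _ hc => hc x hx⟩
  have hfQ : Finite Q := Finite.of_injective (fun x : Q => (⟨x, hQG x.2⟩ : G₀)) (by
    intro x y h
    exact Subtype.ext (congrArg (fun z : G₀ => (z : G)) h))
  have hfH : Finite H := Finite.of_injective (fun x : H => (⟨x, hH x.2⟩ : G₀)) (by
    intro x y h
    exact Subtype.ext (congrArg (fun z : G₀ => (z : G)) h))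
  set Φ := AI_res β G₀ H with hΦ
  set Ψ := AI_res β G₀ Q with hΨ
  have hfr : Finite Ψ.range := by
    have : Finite (Set.range Ψ) := Set.finite_range Ψ
    exact this
  have hXr : ∀ x : Ψ.range, e • x = 0 := by
    rintro ⟨_, b, rfl⟩
    apply Subtype.ext
    rw [AddSubgroup.coe_nsmul, AddSubgroup.coe_zero, ← map_nsmul]
    have : e • b = 0 := Subtype.ext (by rw [AddSubgroup.coe_nsmul, hG]; rfl)
    rw [this, map_zero]
  have hXH : ∀ x : H, e • x = 0 := fun x => Subtype.ext (by rw [AddSubgroup.coe_nsmul, hG]; rfl)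
  obtain ⟨hfin1, hcard1⟩ := KP_card_hom_le he hXr hM
  obtain ⟨hfin2, hcard2⟩ := KP_card_hom_le he hXH hM
  -- `Q` injects into the dual of `Ψ.range`
  have h1 : Nat.card Q ≤ Nat.card (Ψ.range →+ M) := by
    refine Nat.card_le_card_of_injective
      (fun a : Q => AddMonoidHom.mk' (fun χ : Ψ.range => (χ : Q →+ M) a) (by intro χ χ'; simp)) ?_
    intro a a' haa
    by_contra hne
    have hne' : ((a - a' : Q) : G) ≠ 0 := by
      intro h0
      apply hne
      have : a - a' = 0 := Subtype.ext h0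
      exact sub_eq_zero.mp this
    obtain ⟨b, hb, hb'⟩ := hnd _ (hQG (a - a').2) hne'
    apply hb'
    have h2 := DFunLike.congr_fun haa ⟨Ψ ⟨b, hb⟩, ⟨b, hb⟩, rfl⟩
    have h3 : β a b = β a' b := h2
    rw [AddSubgroup.coe_sub, map_sub, AddMonoidHom.sub_apply, h3, sub_self]
  have h2 : Nat.card Φ.ker ≤ Nat.card Ψ.ker := by
    refine Nat.card_le_card_of_injective
      (fun b : Φ.ker => (⟨b, by
        rw [AddMonoidHom.mem_ker]
        ext a
        have hb : Φ b = 0 := b.2
        exact a.2.2 _ (b : G₀).2 fun c hc => by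
          have := DFunLike.congr_fun hb ⟨c, hc⟩
          exact this⟩ : Ψ.ker)) ?_
    intro b b' h
    exact Subtype.ext (congrArg (fun x : Ψ.ker => (x : G₀)) h)
  have h3 : Nat.card Ψ.ker * Nat.card Ψ.range = Nat.card G₀ := by
    rw [← AddSubgroup.index_ker, AddSubgroup.card_mul_index]
  have h4 : Nat.card Φ.ker * Nat.card Φ.range = Nat.card G₀ := by
    rw [← AddSubgroup.index_ker, AddSubgroup.card_mul_index]
  have h5 : Nat.card Φ.range ≤ Nat.card (H →+ M) :=
    Nat.card_le_card_of_injective (fun x : Φ.range => (x : H →+ M)) Subtype.val_injective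
  have hpos : 0 < Nat.card Ψ.ker := Nat.card_pos
  have h6 : Nat.card Ψ.ker * Nat.card Q ≤ Nat.card Ψ.ker * Nat.card H := by
    calc Nat.card Ψ.ker * Nat.card Q ≤ Nat.card Ψ.ker * Nat.card Ψ.range :=
          Nat.mul_le_mul_left _ (h1.trans hcard1)
      _ = Nat.card Φ.ker * Nat.card Φ.range := by rw [h3, h4]
      _ ≤ Nat.card Ψ.ker * Nat.card H := Nat.mul_le_mul h2 (h5.trans hcard2)
  have h7 : Nat.card Q ≤ Nat.card H := Nat.le_of_mul_le_mul_left h6 hpos
  have h8 : H = Q := AddSubgroup.eq_of_le_of_card_ge hHQ h7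
  rw [h8]
  exact ⟨ha, hperp⟩

end Perp

end Fermat.Agent.S43.I
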