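import Mathlib

/-!
# S43 / I / Formal : (I1) is a formal consequence of the tower

`(H1)` (`ker (δ-1) = (δ-1)^(n-1) H`), `(H3 mod Nm)` (`(δ-1)(Σ-1)(Σ-δ) = 0`) and `(H4)` (an additive involution `ι`
with `ι δ = δ⁻¹ ι`, `ι Σ = δ⁻¹ Σ ι`, `ι = ±1` on `V = H/(δ-1)H`) imply `ker N ⊆ N V` on `V`, `N = Σ - 1`.

* `core` : form over a commutative ring `R` acting on `H` (`g = δ^(1/2)`).
* `formal_I1`, `formal_I1_neg` : operator forms (`Module.End k V`), sign `+1` resp. `-1`.
* `sq_mem` : `N² = 0` on `V`.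

Mathlib only.
-/

set_option autoImplicit false
set_option linter.deprecated false
set_option linter.style.haveILetI false

namespace Fermat.Agent.S43.I.Formal

variable {R H : Type*} [CommRing R] [AddCommGroup H] [Module R H]

/-- `ker t³ ⊆ t H` if `ker t = t^(n-1) H`, `n ≥ 4`. -/
theorem mem_of_cube (t : R) (m : ℕ)
    (hker : ∀ x : H, t • x = 0 → ∃ y : H, x = t ^ (m + 3) • y)
    (k : H) (hk : t ^ 3 • k = 0) : ∃ w : H, k = t • w := by
  obtain ⟨y1, h1⟩ := hker (t ^ 2 • k) (by rw [smul_smul]; rw [← hk]; congr 1; ring)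
  obtain ⟨y2, h2⟩ := hker (t • k - t ^ (m + 2) • y1) (by
    rw [smul_sub, smul_smul, smul_smul, sub_eq_zero]
    rw [show t * t = t ^ 2 by ring, h1]; congr 1; ring)
  obtain ⟨y3, h3⟩ := hker (k - t ^ (m + 1) • y1 - t ^ (m + 2) • y2) (by
    have : t • (k - t ^ (m + 1) • y1 - t ^ (m + 2) • y2)
        = (t • k - t ^ (m + 2) • y1) - t ^ (m + 3) • y2 := by
      simp only [smul_sub, smul_smul]; congr 2 <;> congr 1 <;> ring
    rw [this, h2, sub_self])
  refine ⟨t ^ m • y1 + t ^ (m + 1) • y2 + t ^ (m + 2) • y3, ?_⟩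
  have : k = t ^ (m + 1) • y1 + t ^ (m + 2) • y2 + t ^ (m + 3) • y3 := by
    rw [← h3]; abel
  rw [this]
  simp only [smul_add, smul_smul]
  congr 2 <;> congr 1 <;> ring


/-- **Formal (I1)**, commutative-ring form. -/
theorem core (p : ℕ) (hp : Odd p) (hpH : ∀ x : H, p • x = 0) (m : ℕ)
    (g g' c S S' : R) (i : H →+ H)
    (hgg : g * g' = 1) (hc : g - 1 = (g * g - 1) * c) (hSS : S * S' = 1)
    (hii : ∀ x, i (i x) = x)
    (hig : ∀ x, i (g • x) = g' • i x) (hig' : ∀ x, i (g' • x) = g • i x)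
    (hiS : ∀ x, i (S • x) = (g' * g' * S) • i x)
    (hker : ∀ x : H, (g * g - 1) • x = 0 → ∃ y : H, x = (g * g - 1) ^ (m + 3) • y)
    (hiV : ∀ x, ∃ y : H, i x - x = (g * g - 1) • y)
    (hH3 : ∀ x : H, ((g * g - 1) * ((S - 1) * (S - g * g))) • x = 0)
    (x : H) (hx : ∃ y : H, (S - 1) • x = (g * g - 1) • y) :
    ∃ y w : H, x = (S - 1) • y + (g * g - 1) • w := by
  obtain ⟨h, hh⟩ := hp
  -- `2 (h+1) = p + 1`
  have half : ∀ v : H, (2 * (h + 1)) • v = v := by
    intro v
    have : 2 * (h + 1) = p + 1 := by omega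
    rw [this, add_smul, hpH, zero_add, one_smul]
  obtain ⟨y0, hy0⟩ := hx
  obtain ⟨y1, hy1⟩ := hiV x
  set t : R := g * g - 1 with ht
  set xp : H := (h + 1) • (x + i x) with hxp
  have hixp : i xp = xp := by
    rw [hxp, map_nsmul, map_add, hii, add_comm (i x) x]
  have hxxp : x = xp - t • ((h + 1) • y1) := by
    have h1 := half x
    have : xp - t • ((h + 1) • y1) = (2 * (h + 1)) • x := by
      rw [smul_comm t, ← hy1, hxp, ← smul_sub, mul_smul, smul_comm 2 (h + 1)]
      congr 1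
      rw [two_smul]; abel
    rw [this, h1]
  -- `ν = g' S - 1` commutes with `i`
  have hinu : ∀ v, i ((g' * S - 1) • v) = (g' * S - 1) • i v := by
    intro v
    rw [sub_smul, sub_smul, map_sub, one_smul, one_smul, mul_smul, hig', hiS, smul_smul]
    congr 2
    linear_combination (g' * S) * hgg
  set z1 : H := (g' * S - 1) • xp with hz1
  have hiz1 : i z1 = z1 := by rw [hz1, hinu, hixp]
  -- `z1 ∈ t H`
  have hg'1 : g' - 1 = - (g' * c) * t := by
    linear_combination (-g') * hc + hgg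
  obtain ⟨y2, hy2⟩ : ∃ y2 : H, z1 = t • y2 := by
    refine ⟨g' • y0 + (g' * (S - 1)) • ((h + 1) • y1) - (g' * c) • xp, ?_⟩
    have e1 : (S - 1) • xp = t • y0 + (S - 1) • (t • ((h + 1) • y1)) := by
      rw [← hy0]
      conv_rhs => rw [hxxp]
      module
    have e2 : z1 = g' • ((S - 1) • xp) + (g' - 1) • xp := by
      rw [hz1]; module
    rw [e2, e1, hg'1]
    module
  -- Step A : `z1 ∈ s H`, `s = g + g' - 2`
  obtain ⟨y3, hy3⟩ := hiV (g • y2)
  have htu : t = (g - g') * g := by rw [ht]; linear_combination hgg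
  have e3 : z1 = (g - g') • (g • y2) := by rw [hy2, htu, mul_smul]
  have e4 : z1 = - ((g - g') • i (g • y2)) := by
    rw [← hiz1]
    conv_lhs => rw [e3]
    rw [sub_smul, map_sub, hig, hig', sub_smul]; abel
  have e5 : (2 : ℕ) • z1 = - ((g - g') • (t • y3)) := by
    have e5' : (2 : ℕ) • z1 = (g - g') • (g • y2) + - ((g - g') • i (g • y2)) := by
      rw [← e3, ← e4, two_smul]
    rw [e5', ← hy3]; module
  obtain ⟨z, hz⟩ : ∃ z : H, z1 = (g + g' - 2) • z := by
    refine ⟨- ((g + g' + 2) * g) • ((h + 1) • y3), ?_⟩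
    have : z1 = (h + 1) • ((2 : ℕ) • z1) := by
      rw [smul_smul, mul_comm, half]
    rw [this, e5, htu]
    have e6 : (g - g') * ((g - g') * g) = (g + g' - 2) * ((g + g' + 2) * g) := by
      linear_combination (-4 * g) * hgg
    rw [smul_smul, e6]
    module
  -- the element `k`
  set y : H := (g * S') • z with hy
  set k : H := xp - (g' * S - 1) • y with hk
  have hE : ∀ v : H, ((g - 1) * (g' * g' * ((S - 1) * (S - g * g)))) • v = 0 := by
    intro v
    have : (g - 1) * (g' * g' * ((S - 1) * (S - g * g)))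
        = (c * g' * g') * (t * ((S - 1) * (S - g * g))) := by rw [hc]; ring
    rw [this, mul_smul, hH3, smul_zero]
  have hnu2 : (g' * S - 1) * (g' * S - 1)
      = (g + g' - 2) * (g' * S) + g' * g' * ((S - 1) * (S - g * g)) := by
    linear_combination (-(1 + g * g' - g * g' * S)) * hgg
  -- `ν k = - E (g S') z`
  have hnuk : (g' * S - 1) • k = - ((g' * g' * ((S - 1) * (S - g * g))) • y) := by
    have e7 : (g' * S - 1) • k = z1 - ((g' * S - 1) * (g' * S - 1)) • y := by
      rw [hk, smul_sub, ← hz1, smul_smul]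
    have e8 : ((g + g' - 2) * (g' * S)) • y = z1 := by
      rw [hz, hy, smul_smul]
      congr 1
      linear_combination ((g + g' - 2) * (g * g')) * hSS + (g + g' - 2) * hgg
    rw [e7, hnu2, add_smul, e8]; abel
  have h1 : (g - 1) • ((g' * S - 1) • k) = 0 := by
    rw [hnuk, smul_neg, smul_smul, hE, neg_zero]
  have h2 : ((g - 1) * ((g + g' - 2) * (g' * S))) • k = 0 := by
    have e9 : ((g - 1) * ((g' * S - 1) * (g' * S - 1))) • k = 0 := by
      have : (g - 1) * ((g' * S - 1) * (g' * S - 1)) = (g' * S - 1) * ((g - 1) * (g' * S - 1)) := by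
        ring
      rw [this, mul_smul, mul_smul, h1, smul_zero]
    rw [hnu2, mul_add, add_smul, hE, add_zero] at e9
    exact e9
  have h3 : (g - 1) ^ 3 • k = 0 := by
    have : (g - 1) ^ 3 = (g * g * S') * ((g - 1) * ((g + g' - 2) * (g' * S))) := by
      linear_combination (-(g * g * g' * ((g - 1) * (g + g' - 2)))) * hSS
        - (g * ((g - 1) * (g + g' - 2)) + (g - 1)) * hgg
    rw [this, mul_smul, h2, smul_zero]
  have h4 : t ^ 3 • k = 0 := by
    have : t ^ 3 = (g + 1) ^ 3 * (g - 1) ^ 3 := by rw [ht]; ring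
    rw [this, mul_smul, h3, smul_zero]
  obtain ⟨w0, hw0⟩ := mem_of_cube t m hker k h4
  refine ⟨y, w0 - (h + 1) • y1 - (g' * c * S) • y, ?_⟩
  have e10 : xp = (g' * S - 1) • y + t • w0 := by
    rw [← hw0, hk]; abel
  have e11 : (g' * S - 1) = (S - 1) + (g' - 1) * S := by ring
  rw [hxxp, e10, e11, hg'1]
  module


/-- **Formal (I1)**, operator form.  `H` killed by the odd number `p`; `d` (the diamond `δ`) of odd order dividing
`n ≥ 4`; `S` (the inertia generator `Σ`) invertible, commuting with `d`; `i` an additive involution with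
`i d = d⁻¹ i`, `i S = d⁻¹ S i`, `i ≡ 1` mod `(d-1)H`;  `ker (d-1) = (d-1)^(n-1) H`;
`(d-1)(S-1)(S-d) = 0`.  Then on `V = H/(d-1)H`: `ker (S-1) ⊆ (S-1) V`. -/
theorem formal_I1 {k V : Type*} [CommRing k] [AddCommGroup V] [Module k V]
    (p : ℕ) (hp : Odd p) (hpH : ∀ x : V, p • x = 0)
    (n : ℕ) (hn : Odd n) (hn4 : 4 ≤ n)
    (d S S' : Module.End k V) (i : V →+ V)
    (hd : d ^ n = 1) (hSd : S * d = d * S) (hS1 : S * S' = 1) (hS2 : S' * S = 1)
    (hii : ∀ x, i (i x) = x)
    (hid : ∀ x, i (d x) = (d ^ (n - 1)) (i x))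
    (hiS : ∀ x, i (S x) = (d ^ (n - 1)) (S (i x)))
    (hker : ∀ x, d x = x → ∃ y, x = ((d - 1) ^ (n - 1)) y)
    (hiV : ∀ x, ∃ y, i x - x = d y - y)
    (hH3 : ∀ x, (d - 1) ((S - 1) ((S - d) x)) = 0)
    (x : V) (hx : ∃ y, S x - x = d y - y) :
    ∃ y w, x = (S y - y) + (d w - w) := by
  obtain ⟨l, hl⟩ := hn
  obtain ⟨m, hm⟩ : ∃ m, n = m + 4 := ⟨n - 4, by omega⟩
  have hS'd : S' * d = d * S' := by
    calc S' * d = S' * d * (S * S') := by rw [hS1, mul_one]
      _ = S' * (S * d) * S' := by rw [hSd]; noncomm_ring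
      _ = (S' * S) * d * S' := by noncomm_ring
      _ = d * S' := by rw [hS2, one_mul]
  have hcomm : ∀ a ∈ ({d, S, S'} : Set (Module.End k V)), ∀ b ∈ ({d, S, S'} : Set (Module.End k V)),
      a * b = b * a := by
    intro a ha b hb
    simp only [Set.mem_insert_iff, Set.mem_singleton_iff] at ha hb
    rcases ha with rfl | rfl | rfl <;> rcases hb with rfl | rfl | rfl <;>
      first
        | rfl
        | exact hSd
        | exact hSd.symm
        | exact hS'd
        | exact hS'd.symm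
        | exact hS1.trans hS2.symm
        | exact hS2.trans hS1.symm
  letI : CommRing (Algebra.adjoin k ({d, S, S'} : Set (Module.End k V))) :=
    Algebra.adjoinCommRingOfComm k hcomm
  let dA : Algebra.adjoin k ({d, S, S'} : Set (Module.End k V)) :=
    ⟨d, Algebra.subset_adjoin (by simp)⟩
  let SA : Algebra.adjoin k ({d, S, S'} : Set (Module.End k V)) :=
    ⟨S, Algebra.subset_adjoin (by simp)⟩
  let SA' : Algebra.adjoin k ({d, S, S'} : Set (Module.End k V)) :=
    ⟨S', Algebra.subset_adjoin (by simp)⟩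
  have hdA : dA ^ n = 1 := Subtype.ext (by simpa [dA] using hd)
  have hSA : SA * SA' = 1 := Subtype.ext (by simpa [SA, SA'] using hS1)
  have smul_def' : ∀ (a : Algebra.adjoin k ({d, S, S'} : Set (Module.End k V))) (v : V),
      a • v = (a : Module.End k V) v := fun a v => rfl
  have hn1 : n - 1 = 2 * l := by omega
  have hde : dA * dA ^ (2 * l) = 1 := by rw [← pow_succ', ← hl, hdA]
  have hgg : dA ^ (l + 1) * dA ^ l = 1 := by
    rw [← pow_add, show l + 1 + l = n by omega, hdA]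
  have hgd : dA ^ (l + 1) * dA ^ (l + 1) = dA := by
    rw [← pow_add, show l + 1 + (l + 1) = n + 1 by omega, pow_succ, hdA, one_mul]
  have hg'g' : dA ^ l * dA ^ l = dA ^ (2 * l) := by rw [← pow_add, two_mul]
  have hidj : ∀ (j : ℕ) (v : V), i ((dA ^ j) • v) = ((dA ^ (2 * l)) ^ j) • i v := by
    intro j
    induction j with
    | zero => intro v; simp
    | succ j ih =>
      intro v
      rw [pow_succ, mul_smul, ih, pow_succ, mul_smul]
      congr 1
      have := hid v
      rw [hn1] at this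
      simpa [smul_def', dA] using this
  have he1 : (dA ^ (2 * l)) ^ (l + 1) = dA ^ l := by
    calc (dA ^ (2 * l)) ^ (l + 1) = (dA ^ (2 * l)) ^ (l + 1) * (dA ^ (l + 1) * dA ^ l) := by
          rw [hgg, mul_one]
      _ = (dA * dA ^ (2 * l)) ^ (l + 1) * dA ^ l := by rw [mul_pow]; ring
      _ = dA ^ l := by rw [hde, one_pow, one_mul]
  have he2 : (dA ^ (2 * l)) ^ l = dA ^ (l + 1) := by
    calc (dA ^ (2 * l)) ^ l = (dA ^ (2 * l)) ^ l * (dA ^ (l + 1) * dA ^ l) := by
          rw [hgg, mul_one]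
      _ = (dA * dA ^ (2 * l)) ^ l * dA ^ (l + 1) := by rw [mul_pow]; ring
      _ = dA ^ (l + 1) := by rw [hde, one_pow, one_mul]
  have hsub : ∀ v : V, (dA - 1) • v = d v - v := by
    intro v; rw [sub_smul, one_smul]; rfl
  have hSsub : ∀ v : V, (SA - 1) • v = S v - v := by
    intro v; rw [sub_smul, one_smul]; rfl
  have key := core (R := Algebra.adjoin k ({d, S, S'} : Set (Module.End k V))) (H := V)
    p hp hpH m (dA ^ (l + 1)) (dA ^ l) (∑ j ∈ Finset.range (l + 1), dA ^ j) SA SA' i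
    hgg (by rw [hgd, mul_comm, geom_sum_mul]) hSA hii
    (fun v => by rw [hidj, he1]) (fun v => by rw [hidj, he2])
    (fun v => by
      rw [hg'g', mul_smul]
      have := hiS v
      rw [hn1] at this
      simpa [smul_def', dA, SA] using this)
    (fun v hv => by
      rw [hgd, hsub, sub_eq_zero] at hv
      obtain ⟨y, hy⟩ := hker v hv
      refine ⟨y, ?_⟩
      rw [hgd, hy, show n - 1 = m + 3 by omega]
      simp [smul_def', dA])
    (fun v => by
      obtain ⟨y, hy⟩ := hiV v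
      exact ⟨y, by rw [hgd, hsub, hy]⟩)
    (fun v => by
      rw [hgd, mul_smul, mul_smul]
      have := hH3 v
      simpa [smul_def', dA, SA] using this)
    x (by
      obtain ⟨y, hy⟩ := hx
      exact ⟨y, by rw [hgd, hsub, hSsub, hy]⟩)
  obtain ⟨y, w, hyw⟩ := key
  exact ⟨y, w, by rw [hyw, hgd, hsub, hSsub]⟩

/-- the same with `i ≡ -1` mod `(d-1)H`. -/
theorem formal_I1_neg {k V : Type*} [CommRing k] [AddCommGroup V] [Module k V]
    (p : ℕ) (hp : Odd p) (hpH : ∀ x : V, p • x = 0)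
    (n : ℕ) (hn : Odd n) (hn4 : 4 ≤ n)
    (d S S' : Module.End k V) (i : V →+ V)
    (hd : d ^ n = 1) (hSd : S * d = d * S) (hS1 : S * S' = 1) (hS2 : S' * S = 1)
    (hii : ∀ x, i (i x) = x)
    (hid : ∀ x, i (d x) = (d ^ (n - 1)) (i x))
    (hiS : ∀ x, i (S x) = (d ^ (n - 1)) (S (i x)))
    (hker : ∀ x, d x = x → ∃ y, x = ((d - 1) ^ (n - 1)) y)
    (hiV : ∀ x, ∃ y, i x + x = d y - y)
    (hH3 : ∀ x, (d - 1) ((S - 1) ((S - d) x)) = 0)
    (x : V) (hx : ∃ y, S x - x = d y - y) :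
    ∃ y w, x = (S y - y) + (d w - w) := by
  refine formal_I1 p hp hpH n hn hn4 d S S' (-i) hd hSd hS1 hS2 ?_ ?_ ?_ hker ?_ hH3 x hx
  · intro v; simp [hii]
  · intro v; simp [hid]
  · intro v; simp [hiS]
  · intro v
    obtain ⟨y, hy⟩ := hiV v
    refine ⟨-y, ?_⟩
    have : (-i) v - v = - (i v + v) := by simp; abel
    rw [this, hy, map_neg]; abel

/-- `N² = 0` on `V = H/(d-1)H` as soon as `(S-1)(S-d)H ⊆ (d-1)H`. -/
theorem sq_mem {k V : Type*} [CommRing k] [AddCommGroup V] [Module k V]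
    (d S : Module.End k V) (hSd : S * d = d * S)
    (h : ∀ x, ∃ y, (S - 1) ((S - d) x) = d y - y) (x : V) :
    ∃ y, (S - 1) ((S - 1) x) = d y - y := by
  obtain ⟨y, hy⟩ := h x
  refine ⟨y + (S - 1) x, ?_⟩
  have e : (S - 1) * (S - 1) = (S - 1) * (S - d) + (d - 1) * (S - 1) := by
    have : (S - 1) * (S - d) = S * S - d * S - S + d := by rw [← hSd]; noncomm_ring
    rw [this]; noncomm_ring
  have e' := congrArg (fun f : Module.End k V => f x) e
  simp only [Module.End.mul_apply, LinearMap.add_apply] at e'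
  rw [e', hy]
  simp only [LinearMap.sub_apply, Module.End.one_apply, map_sub, map_add]
  abel

end Fermat.Agent.S43.I.Formal
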