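import Fermat.Agent.S43.I.XBlock
import Fermat.Agent.S43.I.IsoInst
import Fermat.Agent.S43.Th.Bridge

/-!
# S43 / I / Glue : `C.LOC ∧ C.GA` from `IsoHyp`

`xBlock_of_isoHyp : IsoHyp (M q) … C.Sg C.Ph → C.LOC ∧ C.GA`.
-/

set_option autoImplicit false

open AlgebraicCurve ModularCurve

namespace Fermat.Agent.S43.I

open Fermat.Agent.ES Fermat.Agent.SS Fermat.Agent.S15.W

variable {M q p : ℕ} [NeZero M] [NeZero q]

/-- (LOC) at a general exponent. -/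
def LOCat (C : Fin.Ctx M q p) (m : ℕ) : Prop :=
  ∀ y ∈ Fin.Vth (M * q) m C.S C.a, wKum C.hw C.hq m y = -(C.ε • y) →
    galKum (M * q) m C.Ph (galKum (M * q) m C.Ph y)
      - (C.ε * ((q : ℤ) + 1)) • galKum (M * q) m C.Ph y + (q : ℤ) • y = 0

/-- (GA) at a general exponent. -/
def GAat (C : Fin.Ctx M q p) (m : ℕ) : Prop :=
  ∀ P ∈ Fin.Vth (M * q) m C.S C.a, wKum C.hw C.hq m P = -(C.ε • P) → p • P = 0 →
    galKum (M * q) m C.Sg P = P →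
    ∃ P' ∈ Fin.Vth (M * q) m C.S C.a, wKum C.hw C.hq m P' = -(C.ε • P') ∧ p ^ C.e • P' = P ∧
      galKum (M * q) m C.Sg P' = P' ∧ galKum (M * q) m C.Ph P' = (C.ε * (q : ℤ)) • P'

theorem ctx_LOC_of (C : Fin.Ctx M q p) (h : LOCat C (p ^ (C.e + 1))) : C.LOC := by
  intro y hy
  obtain ⟨h1, h2⟩ := C.mem_J.1 hy
  exact h y h1 h2

theorem ctx_GA_of (C : Fin.Ctx M q p) (h : GAat C (p ^ (C.e + 1))) : C.GA := by
  intro P hP hpP hS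
  obtain ⟨h1, h2⟩ := C.mem_J.1 hP
  obtain ⟨P', h3, h4, h5, h6, h7⟩ := h P h1 h2 hpP hS
  exact ⟨P', C.mem_J.2 ⟨h3, h4⟩, h5, h6, h7⟩

theorem ctx_eps_sq (C : Fin.Ctx M q p) : C.ε * C.ε = 1 := by
  rcases C.hε with h | h <;> rw [h] <;> norm_num

theorem ctx_isPP (p n : ℕ) : IsPP p (p * p ^ n) := ⟨n, (pow_succ' p n).symm⟩

/-- the hypotheses of `xloc`, `xga`. -/
theorem ctx_xhyp (C : Fin.Ctx M q p)
    (H : IsoHyp (M * q) (ctx_hNS C) C.a C.A p q C.Sg C.Ph) (n : ℕ) :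
    XHyp M q p n C.w C.A C.S (ctx_hNS C) C.hMS C.a where
  hq := C.hq
  hqM := C.hqM
  hp := C.hp
  hp2 := by have := C.hp5; omega
  hpq := C.hqp.symm
  hpS := C.hpS
  hw := C.hw
  hA := C.hA
  hsep := C.hSep M C.hMS (Dvd.intro _ rfl) (by
    intro h
    have h1 : M * 1 = M * q := by rw [mul_one]; exact h
    have h2 := Nat.eq_of_mul_eq_mul_left (Nat.pos_of_ne_zero (NeZero.ne M)) h1
    exact C.hq.one_lt.ne h2)
  hiso := by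
    intro x hx y hy hxT hyT
    have hqm : ¬ q ∣ p * p ^ n := (ctx_isPP p n).not_dvd C.hp C.hq C.hqp
    exact H.isotropic (ctx_isPP p n)
      ⟨hx, fun σ hσ => gal_of_mem_tor C.hq C.hqM hqm C.hw C.hA hσ hxT⟩
      ⟨hy, fun σ hσ => gal_of_mem_tor C.hq C.hqM hqm C.hw C.hA hσ hyT⟩

theorem ctx_LOCat (C : Fin.Ctx M q p)
    (H : IsoHyp (M * q) (ctx_hNS C) C.a C.A p q C.Sg C.Ph) (n : ℕ) : LOCat C (p * p ^ n) := by
  intro y hy hwy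
  rw [Th.Fin_Vth_eq_I (hNS := ctx_hNS C)] at hy
  have h := xloc (ctx_xhyp C H n) C.hPh (ctx_eps_sq C) hy hwy
  rw [map_sub, map_zsmul] at h
  generalize galKum (M * q) (p * p ^ n) C.Ph (galKum (M * q) (p * p ^ n) C.Ph y) = Z at h ⊢
  generalize galKum (M * q) (p * p ^ n) C.Ph y = Y at h ⊢
  have e1 : (C.ε * (q : ℤ)) • (Y - C.ε • y) = (C.ε * (q : ℤ)) • Y - (q : ℤ) • y := by
    rw [smul_sub, smul_smul, mul_comm C.ε (q : ℤ), mul_assoc, ctx_eps_sq, mul_one]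
  rw [e1] at h
  have e2 : (C.ε * ((q : ℤ) + 1)) • Y = (C.ε * (q : ℤ)) • Y + C.ε • Y := by
    rw [mul_add, mul_one, add_smul]
  have e3 : Z = (C.ε * (q : ℤ)) • Y - (q : ℤ) • y + C.ε • Y := by
    rw [← h]; abel
  rw [e2, e3]
  abel

theorem ctx_GAat (C : Fin.Ctx M q p)
    (H : IsoHyp (M * q) (ctx_hNS C) C.a C.A p q C.Sg C.Ph) : GAat C (p * p ^ C.e) := by
  intro P hP hwP hpP hS
  rw [Th.Fin_Vth_eq_I (hNS := ctx_hNS C)] at hP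
  obtain ⟨P', h1, h2, h3, h4, h5⟩ := xga (ctx_xhyp C H C.e) C.hPh C.hSg.1
    (fun x hx hinv => H.I1 ⟨hx, hinv⟩) (ctx_eps_sq C) hP hwP hpP
    (H.gen _ (ctx_isPP p C.e) P hS)
  refine ⟨P', ?_, h2, h3, h4 _ C.hSg.1, h5⟩
  rw [Th.Fin_Vth_eq_I (hNS := ctx_hNS C)]
  exact h1

/-- **XBlock from `IsoHyp`.** -/
theorem xBlock_of_isoHyp (C : Fin.Ctx M q p)
    (H : IsoHyp (M * q) (ctx_hNS C) C.a C.A p q C.Sg C.Ph) : C.LOC ∧ C.GA := by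
  refine ⟨ctx_LOC_of C ?_, ctx_GA_of C ?_⟩
  · rw [pow_succ']
    exact ctx_LOCat C H C.e
  · rw [pow_succ']
    exact ctx_GAat C H

end Fermat.Agent.S43.I
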