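import Fermat.Agent.S43.I.WA

/-!
# S43 / I / I2 : Frobenius at `q` on `Kum (M q) m` (block (I2))

* `frob_add_w_mem_tor` (I2a) : if `nm x = 0 = nm (w x)` (no level `M`), then `φ x + w x ∈ Tor`;
* `frob_eq_of_mem_tor` (I2b) : `φ = - q w` on `Tor ∩ V`, for a Galois- and `w`-stable subgroup `V` without level `M` on which the
  Weil pairing is nondegenerate and `Tor ∩ V` is isotropic.
-/

set_option autoImplicit false

open AlgebraicCurve ModularCurve

namespace Fermat.Agent.S43.I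

open Fermat.Agent.ES Fermat.Agent.SS Fermat.Agent.S15.W

noncomputable section

variable {M q : ℕ} [NeZero M] [NeZero q] {w : FF (M * q) →ₐ[Qb] FF (M * q)}
  {A : ValuationSubring Qb} {m : ℕ}

/-- TASK S43/I-I2-a.  [Copy the first half of the proof of `SS.redConst_uF`: `hG` and `hA'` there say that `w h * φ h` and
`normA M q (w h)` both reduce (up to constants) to `ρa = r' * Fr r`; `coe_heckeAlphaBar`; `RedUp.mul`, `RedUp.inv`, `mul_inv_cancel₀`.] -/
theorem redUp_frob_w (hq : q.Prime) (hqM : ¬ q ∣ M) (hw : IsAL M q w) (hA : A.LiesOverPrime q)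
    (g : A.decompositionSubgroup ℚ)
    (hg : (resA A).comp (galA g) = (frobA hq hA).comp (resA A))
    (h : FF (M * q)) (hh : h ≠ 0) :
    RedUp A (((w h * galF (M * q) (g : GQ) h * (heckeAlphaBar Qb M q (normA M q (w h)))⁻¹ :
      FF (M * q))) : LaurentSeries Qb) 1 := by
  have : NeZero (M * q) := ⟨Nat.mul_ne_zero (NeZero.ne M) (NeZero.ne q)⟩
  have hwh : w h ≠ 0 := by rw [Ne, map_eq_zero]; exact hh
  obtain ⟨r, hr, hH⟩ := exists_redUp A h hh
  obtain ⟨r', hr', hH'⟩ := exists_redUp A (w h) hwh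
  set Fr : LaurentSeries (kA A) →+* LaurentSeries (kA A) := coeffMap (frobA hq hA) with hFr
  have hFr0 : ∀ {y : LaurentSeries (kA A)}, y ≠ 0 → Fr y ≠ 0 := fun hy =>
    coeffMap_ne_zero_of_injective _ (frobA hq hA).injective hy
  have hpow : ∀ y : LaurentSeries (kA A), Vq (kA A) q (Fr y) = y ^ q := fun y =>
    (pow_eq_Vq_frobA hq hA y).symm
  have hA' : RedUp A ((normA M q (w h) : FF M) : LaurentSeries Qb) (r' * Fr r) := by
    refine RedUp.of_Vq q _ (normA_ne_zero hwh) (mul_ne_zero hr' (hFr0 hr)) ?_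
    rw [Vq_normA hq hqM hw, map_mul, hpow, hw.invol hq]
    exact (hH'.vq q).mul (hH.tprod hq hA)
  have hG : RedUp A ((w h : FF (M * q)) * coeffMap (((g : GQ) : Qb →+* Qb)) (h : LaurentSeries Qb))
      (r' * Fr r) := hH'.mul (hH.gal g _ hg)
  have hρa0 : r' * Fr r ≠ 0 := mul_ne_zero hr' (hFr0 hr)
  refine (hG.mul (hA'.inv hρa0)).congr ?_ ?_
  · simp only [IntermediateField.coe_mul, IntermediateField.coe_inv, coe_galF, coe_heckeAlphaBar]
  · exact mul_inv_cancel₀ hρa0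

/-- TASK S43/I-I2-b.  **(I2a)**.
[`x = Kum.mk f`, `h = f`.  `u := w h * φ h / α (normA (w h))`, `u' := w h * φ h / β (normA h)`.  Classes:
`[u] = w x + φ x - pullA (nm (w x)) = w x + φ x`, `[u'] = w x + φ x - pullB (nm x) = w x + φ x` (as in `SS.exists_Xcl_eq`).
`u` is `RedConst` by `redUp_frob_w` for `h`;  `w u' = h * φ (w h) / α (normA h)` (`hw.invol`, `hw.galF_comm`, `hw.beta`) is
`RedConst` by `redUp_frob_w` for `w h`.  Conclude by `isTor_of_two`, `mem_Tor_iff`.  `res_galA_of_frobenius hq hA hφ` gives `g`.] -/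
theorem frob_add_w_mem_tor (hq : q.Prime) (hqM : ¬ q ∣ M) (hw : IsAL M q w)
    (hA : A.LiesOverPrime q) {φ : GQ} (hφ : A.IsFrobeniusAt φ q) (x : Kum (M * q) m)
    (h1 : nmKum M q m x = 0) (h2 : nmKum M q m (wKum hw hq m x) = 0) :
    galKum (M * q) m φ x + wKum hw hq m x ∈ Tor A w m := by
  have : NeZero (M * q) := ⟨Nat.mul_ne_zero (NeZero.ne M) (NeZero.ne q)⟩
  obtain ⟨f, rfl⟩ := Kum.mk_surjective x
  obtain ⟨g, hgφ, hg⟩ := res_galA_of_frobenius hq hA hφ
  have hf0 : ((f : (FF (M * q))ˣ) : FF (M * q)) ≠ 0 := (f : (FF (M * q))ˣ).ne_zero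
  have hwf0 : w ((f : (FF (M * q))ˣ) : FF (M * q)) ≠ 0 := by
    rw [Ne, map_eq_zero]; exact hf0
  have e1 : ∃ u : Dm (M * q) m,
      wKum hw hq m (Kum.mk f) + galKum (M * q) m φ (Kum.mk f)
        - pullA M q m (nmKum M q m (wKum hw hq m (Kum.mk f))) = Kum.mk u ∧
      ((u : (FF (M * q))ˣ) : FF (M * q)) = w ((f : (FF (M * q))ˣ) : FF (M * q))
        * galF (M * q) φ ((f : (FF (M * q))ˣ) : FF (M * q))
        * (heckeAlphaBar Qb M q (normA M q (w ((f : (FF (M * q))ˣ) : FF (M * q)))))⁻¹ := by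
    simp only [wKum_mk, galKum_mk, nmKum_mk, ← Kum.mk_mul, sub_eq_add_neg,
      ← Kum.mk_inv, pullA_mk]
    refine ⟨_, rfl, ?_⟩
    simp only [Subgroup.coe_mul, Units.val_mul, Subgroup.coe_inv, Units.val_inv_eq_inv_val,
      coe_galU, coe_wU, coe_alphaU, coe_normU]
  have e2 : ∃ u : Dm (M * q) m,
      wKum hw hq m (Kum.mk f) + galKum (M * q) m φ (Kum.mk f)
        - pullB M q m (nmKum M q m (Kum.mk f)) = Kum.mk u ∧
      ((u : (FF (M * q))ˣ) : FF (M * q)) = w ((f : (FF (M * q))ˣ) : FF (M * q))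
        * galF (M * q) φ ((f : (FF (M * q))ˣ) : FF (M * q))
        * (heckeBetaBar Qb M q (normA M q ((f : (FF (M * q))ˣ) : FF (M * q))))⁻¹ := by
    simp only [wKum_mk, galKum_mk, nmKum_mk, ← Kum.mk_mul, sub_eq_add_neg,
      ← Kum.mk_inv, pullB_mk]
    refine ⟨_, rfl, ?_⟩
    simp only [Subgroup.coe_mul, Units.val_mul, Subgroup.coe_inv, Units.val_inv_eq_inv_val,
      coe_galU, coe_wU, coe_betaU, coe_normU]
  obtain ⟨u, hu, huF⟩ := e1
  obtain ⟨u', hu', hu'F⟩ := e2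
  rw [h2, map_zero, sub_zero] at hu
  rw [h1, map_zero, sub_zero] at hu'
  have r1 : RedConst A ((u : (FF (M * q))ˣ) : FF (M * q)) := by
    rw [redConst_iff_redUp, huF, ← hgφ]
    exact redUp_frob_w hq hqM hw hA g hg _ hf0
  have r2 : RedConst A (w ((u' : (FF (M * q))ˣ) : FF (M * q))) := by
    have h := redUp_frob_w hq hqM hw hA g hg _ hwf0
    rw [hw.invol hq] at h
    rw [redConst_iff_redUp, hu'F, map_mul, map_mul, map_inv₀, hw.invol hq, hw.beta,
      ← hw.galF_comm hq, ← hgφ]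
    exact h
  have ht := isTor_of_two hq hqM hw hA u u' (hu.symm.trans hu') r1 r2
  rw [add_comm, hu, mem_Tor_iff]
  exact ht

/-- TASK S43/I-I2-c.  **(I2b)**.
[`z := φ x + q • w x ∈ V`.  For `y ∈ V` write `y = φ y'`, `y' = φ⁻¹ y ∈ V`.  `e (φ x) (φ y') = e x y' ^ q` (`e1N_gal_pow`,
`S31.frob_pow_apply_root … 1`), `e (w x) (φ y') = e x (w (φ y'))` (`e1N_wKum`, `wKum_wKum`).  So
`e z y = e x (y' + w (φ y')) ^ q = e x (w (φ y' + w y')) ^ q = 1` by `frob_add_w_mem_tor`, `wKum_mem_tor`, `galKum_wKum`, `hiso`.] -/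
theorem frob_eq_of_mem_tor (hq : q.Prime) (hqM : ¬ q ∣ M) (hqm : ¬ q ∣ m) (hm : m ≠ 0)
    (hw : IsAL M q w) (hA : A.LiesOverPrime q) {φ : GQ} (hφ : A.IsFrobeniusAt φ q)
    (V : AddSubgroup (Kum (M * q) m))
    (hVgal : ∀ (σ : GQ), ∀ x ∈ V, galKum (M * q) m σ x ∈ V)
    (hVw : ∀ x ∈ V, wKum hw hq m x ∈ V)
    (hVnm : ∀ x ∈ V, nmKum M q m x = 0)
    (hnd : ∀ x ∈ V, (∀ y ∈ V, e1N x y = 1) → x = 0)
    (hiso : ∀ x ∈ V, ∀ y ∈ V, x ∈ Tor A w m → y ∈ Tor A w m → e1N x y = 1)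
    {x : Kum (M * q) m} (hxV : x ∈ V) (hx : x ∈ Tor A w m) :
    galKum (M * q) m φ x = -(q • wKum hw hq m x) := by
  have hns : ∀ (n : ℕ) (a b : Kum (M * q) m), e1N (n • a) b = e1N a b ^ n := by
    intro n a b
    induction n with
    | zero =>
      rw [zero_smul, pow_zero]
      have h := e1N_add_left hm (0 : Kum (M * q) m) 0 b
      rw [add_zero] at h
      exact (mul_eq_left₀ (e1N_ne_zero hm _ _)).1 h.symm
    | succ n ih => rw [succ_nsmul, e1N_add_left hm, ih, pow_succ]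
  have hzV : galKum (M * q) m φ x + q • wKum hw hq m x ∈ V :=
    V.add_mem (hVgal φ x hxV) (V.nsmul_mem (hVw x hxV) q)
  have hz : galKum (M * q) m φ x + q • wKum hw hq m x = 0 := by
    refine hnd _ hzV fun y hy => ?_
    have hy'V : galKum (M * q) m φ⁻¹ y ∈ V := hVgal _ y hy
    have hyy : galKum (M * q) m φ (galKum (M * q) m φ⁻¹ y) = y := by
      rw [← galKum_mul, mul_inv_cancel, galKum_one]
    set y' := galKum (M * q) m φ⁻¹ y with hy'
    have h1 : e1N (galKum (M * q) m φ x) y = e1N x y' ^ q := by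
      rw [← hyy]
      exact e1N_gal_pow hm φ (fun ζ hζ => S31.frob_apply_root A hq hA φ hφ hqm hζ) x y'
    have h2 : e1N (wKum hw hq m x) y = e1N x (wKum hw hq m y) := by
      rw [← e1N_wKum hm hw hq (wKum hw hq m x) y, wKum_wKum]
    have h3 : y' + wKum hw hq m y = wKum hw hq m (galKum (M * q) m φ y' + wKum hw hq m y') := by
      rw [map_add, wKum_wKum, hyy, add_comm]
    have h4 : galKum (M * q) m φ y' + wKum hw hq m y' ∈ Tor A w m :=
      frob_add_w_mem_tor hq hqM hw hA hφ y' (hVnm _ hy'V) (hVnm _ (hVw _ hy'V))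
    have h5 : e1N x (y' + wKum hw hq m y) = 1 := by
      refine hiso x hxV _ (V.add_mem hy'V (hVw _ hy)) hx ?_
      rw [h3]
      exact wKum_mem_tor hq hw h4
    rw [e1N_add_left hm, h1, hns, h2, ← mul_pow, ← e1N_add_right hm, h5, one_pow]
  exact eq_neg_of_add_eq_zero_left hz

end

end Fermat.Agent.S43.I
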