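import Fermat.Agent.S43.I.InvDefs
import Fermat.Agent.S43.I.Tor
import Fermat.Agent.S44.Top
import Fermat.Agent.S44.Soft.Comm

/-!
# S43 / I / Inv : block (a_k) : an inertia invariant class which is a Hecke eigenclass modulo `Tor` (system `a`, not of level `M`,
not Eisenstein) is toric.

`ConstQ + EisQ + OldQ + WA + ResDeg ⟹ tor_of_inv`.
-/

set_option autoImplicit false

open AlgebraicCurve ModularCurve

namespace Fermat.Agent.S43.I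

open Fermat.Agent.ES Fermat.Agent.SS Fermat.Agent.S33
open Fermat.Agent.S37.Mod (resF)
open Fermat.Agent.S44 (CuspP Cuspk ResDeg allk_of_nck_cuspk hasRed_of_resDeg)
open Fermat.Agent.S44.Eis (NC NCk ALLk HasRed)
open Fermat.Agent.S44.XD (XD)

noncomputable section

variable {M q e : ℕ} [NeZero M] [NeZero q] {A : ValuationSubring Qb}

/-- two parameter copy of `S44.inK1_of_ppow`. -/
theorem inK1_of_epow (he : e ≠ 0) (f : Dm (M * q) e) {φ h : LaurentSeries (kA A)} {c : kA A}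
    (hφ : φ ≠ 0)
    (hred : RedUp A (((f : (FF (M * q))ˣ) : FF (M * q)) : LaurentSeries Qb) φ)
    (hh : h ∈ resF M A) (e' : φ = cstk A c * h ^ e) : InK1 A (Kum.mk f) := by
  have hh0 : h ≠ 0 := by
    rintro rfl
    exact hφ (by rw [e', zero_pow he, mul_zero])
  have hc0 : c ≠ 0 := by
    rintro rfl
    exact hφ (by rw [e', cstk, map_zero, zero_mul])
  obtain ⟨H, hH⟩ := hh
  have hHmem : H ∈ modularFunctionFieldBar M := hH.mem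
  have hHto : RedTo A H h := by
    obtain ⟨a, b, -, -, hb, h1, h2⟩ := hH
    exact ⟨a, b, hb, h1, h2.symm⟩
  have hH0 : H ≠ 0 := by
    rintro rfl
    obtain ⟨a, b, hb, h1, h2⟩ := hHto
    rw [zero_mul] at h1
    have ha : a = 0 := S37.Mod.io_injective (by rw [map_zero]; exact h1.symm)
    rw [ha, map_zero] at h2
    exact (mul_ne_zero hh0 hb) h2.symm
  have hHup : RedUp A H h := ⟨1, one_ne_zero, hHto.congr (by rw [cst, map_one, one_mul]) rfl⟩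
  let Hu : (FF M)ˣ := Units.mk0 (⟨H, hHmem⟩ : FF M) (fun h0 => hH0 (congrArg Subtype.val h0))
  let v : (FF (M * q))ˣ := (f : (FF (M * q))ˣ) * (alphaU M q Hu⁻¹) ^ e
  have hv : v ∈ Dm (M * q) e :=
    (Dm (M * q) e).mul_mem f.2 (Pw_le_Dm _ _ ⟨alphaU M q Hu⁻¹, rfl⟩)
  refine ⟨⟨v, hv⟩, ?_, ?_⟩
  · rw [Kum.mk_eq_mk_iff]
    refine ⟨alphaU M q Hu⁻¹, ?_⟩
    show _ = (f : (FF (M * q))ˣ) * (alphaU M q Hu⁻¹) ^ e * (f : (FF (M * q))ˣ)⁻¹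
    rw [mul_comm (f : (FF (M * q))ˣ), mul_assoc, mul_inv_cancel, mul_one]
  · apply redConst_of_redUp
    have e1 : ((v : FF (M * q)) : LaurentSeries Qb)
        = (((f : (FF (M * q))ˣ) : FF (M * q)) : LaurentSeries Qb) * (H⁻¹) ^ e := by
      have e4 : (v : FF (M * q))
          = ((f : (FF (M * q))ˣ) : FF (M * q)) * ((heckeAlphaBar Qb M q (Hu : FF M))⁻¹) ^ e := by
        simp only [v, Units.val_mul, Units.val_pow_eq_pow_val, coe_alphaU,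
          Units.val_inv_eq_inv_val, map_inv₀]
      rw [e4]
      push_cast
      rw [coe_heckeAlphaBar]
      rfl
    have h1 : RedUp A ((v : FF (M * q)) : LaurentSeries Qb) (cstk A c) := by
      rw [e1]
      refine (hred.mul ((hHup.inv hh0).pow e)).congr rfl ?_
      rw [e', inv_pow, mul_assoc, mul_inv_cancel₀ (pow_ne_zero _ hh0), mul_one]
    obtain ⟨d, hd, h2⟩ := h1
    obtain ⟨a, rfl⟩ := IsLocalRing.residue_surjective c
    have hau : IsUnit a := by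
      by_contra hnu
      exact hc0 ((IsLocalRing.residue_eq_zero_iff a).mpr ((IsLocalRing.mem_maximalIdeal a).mpr hnu))
    obtain ⟨a', ha'⟩ := hau.exists_left_inv
    have ha'0 : (a' : Qb) ≠ 0 := by
      intro h0
      have : a' = 0 := Subtype.ext h0
      rw [this, zero_mul] at ha'
      exact zero_ne_one ha'
    refine ⟨(a' : Qb) * d, mul_ne_zero ha'0 hd, ((RedTo.cst_of_mem a').mul h2).congr ?_ ?_⟩
    · rw [cst, cst, cst, map_mul, mul_assoc]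
    · rw [cstk, cstk, ← map_mul]
      have : resA A a' * IsLocalRing.residue A a = 1 := by
        rw [← map_mul, ha', map_one]
      rw [this, map_one]

/-- the eigen relation modulo `Tor`, on representatives. -/
theorem exists_hecke_rel_tor {w : FF (M * q) →ₐ[Qb] FF (M * q)} {ℓ : ℕ} [NeZero ℓ] (hℓ : ℓ.Prime)
    (hℓN : ¬ ℓ ∣ M * q) (f : Dm (M * q) e) (a : ℤ)
    (h : heckeKum (M * q) ℓ hℓ hℓN e (Kum.mk f) - a • Kum.mk f ∈ Tor A w e) :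
    ∃ g u : FF (M * q), g ≠ 0 ∧ RedUp A (u : LaurentSeries Qb) 1 ∧
      heckeSer ℓ (((f : (FF (M * q))ˣ) : FF (M * q)) : LaurentSeries Qb)
      = cst 1 * (((f : (FF (M * q))ˣ) : FF (M * q)) : LaurentSeries Qb) ^ a
          * (g : LaurentSeries Qb) ^ e * (u : LaurentSeries Qb) := by
  obtain ⟨u, hu, hu1, -⟩ := mem_Tor_iff.1 h
  have h0 : heckeKum (M * q) ℓ hℓ hℓN e (Kum.mk f) = Kum.mk (f ^ a * u) := by
    rw [Kum.mk_mul, Fermat.Agent.S44.Kum.mk_zpow', ← hu]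
    abel
  rw [heckeKum_mk, Kum.mk_eq_mk_iff] at h0
  obtain ⟨g, hg⟩ := h0
  refine ⟨g, ((u : (FF (M * q))ˣ) : FF (M * q)), g.ne_zero, (redConst_iff_redUp _).1 hu1, ?_⟩
  have h1 : heckeU (M * q) ℓ hℓ hℓN (f : (FF (M * q))ˣ)
      = (f : (FF (M * q))ˣ) ^ a * g ^ e * (u : (FF (M * q))ˣ) := by
    rw [hg]
    show _ = (f : (FF (M * q))ˣ) ^ a * (heckeU (M * q) ℓ hℓ hℓN (f : (FF (M * q))ˣ)
      * ((f : (FF (M * q))ˣ) ^ a * (u : (FF (M * q))ˣ))⁻¹) * (u : (FF (M * q))ˣ)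
    rw [mul_inv]
    calc heckeU (M * q) ℓ hℓ hℓN (f : (FF (M * q))ˣ)
        = heckeU (M * q) ℓ hℓ hℓN (f : (FF (M * q))ˣ)
          * (((f : (FF (M * q))ˣ) ^ a * ((f : (FF (M * q))ˣ) ^ a)⁻¹)
            * ((u : (FF (M * q))ˣ)⁻¹ * (u : (FF (M * q))ˣ))) := by
          rw [mul_inv_cancel, inv_mul_cancel, one_mul, mul_one]
      _ = _ := by
          simp only [mul_comm, mul_assoc, mul_left_comm]
  have h2 := congrArg (fun t : (FF (M * q))ˣ => (((t : FF (M * q))) : LaurentSeries Qb)) h1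
  simp only [coe_heckeU, coe_heckeF] at h2
  rw [h2, cst, map_one, one_mul]
  push_cast
  rfl

/-- **(a_k), first half**: the class is trivial on the component `∞`. -/
theorem inK1_of_inv (hq : q.Prime) (he : e ≠ 0) (he12 : IsCoprime (12 : ℤ) (e : ℤ))
    (hconst : ConstQ M q e) (heis : EisQ M q e) (hold : OldQ M q e) (hres : ResDeg M q)
    (hA : A.LiesOverPrime q) {w : FF (M * q) →ₐ[Qb] FF (M * q)}
    (S : Finset ℕ) (hMS : ∀ r : ℕ, r.Prime → r ∣ M → r ∈ S) (hqS : q ∈ S) (a : ℕ → ℤ)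
    (Pol : FreeAlgebra ℤ (GP S))
    (hPol : ∀ m : ℕ, 0 < m →
      FreeAlgebra.lift ℤ (fun ℓ : GP S => heckeT M m (ℓ.good hMS)) Pol = 0)
    (hPol' : IsCoprime (FreeAlgebra.lift ℤ (fun ℓ : GP S => a ℓ.1) Pol) (e : ℤ))
    (hE3 : ∃ ℓ : ℕ, ℓ.Prime ∧ ℓ ∉ S ∧ IsCoprime (a ℓ - (ℓ + 1)) (e : ℤ))
    (x : Kum (M * q) e) (hx : ∀ σ ∈ A.inertiaSubgroupIn ℚ, galKum (M * q) e σ x = x)
    (heig : ∀ (ℓ : ℕ) [NeZero ℓ] (hℓ : ℓ.Prime) (hℓN : ¬ ℓ ∣ M * q), ℓ ∉ S →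
      heckeKum (M * q) ℓ hℓ hℓN e x - a ℓ • x ∈ Tor A w e) :
    InK1 A x := by
  have hNS : ∀ ℓ : ℕ, ℓ.Prime → ℓ ∉ S → ¬ ℓ ∣ M * q := by
    intro ℓ hℓ hℓS hd
    rcases (Nat.Prime.dvd_mul hℓ).1 hd with h | h
    · exact hℓS (hMS ℓ hℓ h)
    · rw [(Nat.prime_dvd_prime_iff_eq hℓ hq).1 h] at hℓS
      exact hℓS hqS
  obtain ⟨f, rfl, hfL⟩ := Fermat.Agent.S36.Base.exists_rep_coeff_mem_L0 (M * q) e he A x hx
  obtain ⟨c, hcusp, hNC⟩ := hconst A hA f hfL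
  set F : LaurentSeries Qb := (((f : (FF (M * q))ˣ) : FF (M * q)) : LaurentSeries Qb) with hF
  have hfred : HasRed M A F := hasRed_of_resDeg hres hA _ (f : (FF (M * q))ˣ).ne_zero
  have hNCf : NC M A e F := by
    obtain ⟨ℓ, hℓ, hℓS, hne⟩ := hE3
    have : NeZero ℓ := ⟨hℓ.ne_zero⟩
    obtain ⟨g, u, hg0, hu, hg⟩ := exists_hecke_rel_tor hℓ (hNS ℓ hℓ hℓS) f (a ℓ)
      (heig ℓ hℓ (hNS ℓ hℓ hℓS) hℓS)
    exact heis A hA ℓ hℓ (hNS ℓ hℓ hℓS) F g u 12 c (a ℓ) 1 one_ne_zero hfred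
      (hasRed_of_resDeg hres hA g hg0) hu he12 hne hNC hg
  obtain ⟨φ, hφred, hφc⟩ := hcusp
  have hφ0 : φ ≠ 0 := hφc.2.1
  have hall : ALLk M A e φ := allk_of_nck_cuspk (hNCf.nck hφred hφ0) hφc
  obtain ⟨c', h, hh, e'⟩ := hold A hA S hMS hqS a Pol hPol hPol' φ hall (by
    intro ℓ _ hℓ hℓS
    obtain ⟨g, u, hg0, hu, hg⟩ := exists_hecke_rel_tor hℓ (hNS ℓ hℓ hℓS) f (a ℓ)
      (heig ℓ hℓ (hNS ℓ hℓ hℓS) hℓS)
    obtain ⟨r, hr, hr0, hrm⟩ := hasRed_of_resDeg hres hA g hg0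
    have hℓq : ℓ ≠ q := by
      rintro rfl
      exact hℓS hqS
    have h1 : RedUp A (heckeSer ℓ F) (heckeSer ℓ φ) :=
      Fermat.Agent.S44.Eis.RedUp.heckeSer hq hA hℓ hℓq hφred
    have h2 : RedUp A (heckeSer ℓ F) (φ ^ (a ℓ) * r ^ e) := by
      rw [hg]
      have := ((Fermat.Agent.S44.Eis.RedUp.zpow hφred hφ0 (a ℓ)).mul (hr.pow e)).mul hu
      have h3 := Fermat.Agent.S44.Eis.RedUp.const_mul (c := 1) one_ne_zero this
      rw [mul_one] at h3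
      rwa [← mul_assoc, ← mul_assoc] at h3
    obtain ⟨ζ', hζ'⟩ := Fermat.Agent.S44.Eis.exists_primitiveRoot_kA hq hA hℓ hℓq
    obtain ⟨d, -, hd⟩ := Fermat.Agent.S44.Eis.RedUp.unique_up h2 h1
      (mul_ne_zero (zpow_ne_zero _ hφ0) (pow_ne_zero _ hr0))
      (Fermat.Agent.S44.Eis.heckeSer_ne_zero hζ' hφ0)
    exact ⟨d, r, hrm, by rw [hd, mul_assoc]⟩)
  exact inK1_of_epow he f hφ0 hφred hh e'

/-- `w` commutes with the Hecke operators. -/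
theorem heckeKum_wKum' (hq : q.Prime) (he : e ≠ 0) {w : FF (M * q) →ₐ[Qb] FF (M * q)}
    (hw : IsAL M q w) {ℓ : ℕ} [NeZero ℓ] (hℓ : ℓ.Prime) (hℓN : ¬ ℓ ∣ M * q) (hℓe : ¬ ℓ ∣ e)
    (x : Kum (M * q) e) :
    heckeKum (M * q) ℓ hℓ hℓN e (wKum hw hq e x) = wKum hw hq e (heckeKum (M * q) ℓ hℓ hℓN e x) := by
  obtain ⟨A, hA, φ, hφ⟩ := Fermat.Agent.S54.exists_frob ℓ hℓ
  rw [Fermat.Agent.S44.Soft.heckeKum_eq_frob he hℓ hℓN hℓe A hA φ hφ, galKum_wKum hw hq,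
    galKum_wKum hw hq, ← map_nsmul, ← map_add,
    ← Fermat.Agent.S44.Soft.heckeKum_eq_frob he hℓ hℓN hℓe A hA φ hφ]

/-- **(a_k)**. -/
theorem tor_of_inv (hq : q.Prime) (he : e ≠ 0) (he12 : IsCoprime (12 : ℤ) (e : ℤ))
    (hconst : ConstQ M q e) (heis : EisQ M q e) (hold : OldQ M q e) (hres : ResDeg M q)
    (hwa : WA M q e hq)
    (hA : A.LiesOverPrime q) {w : FF (M * q) →ₐ[Qb] FF (M * q)} (hw : IsAL M q w)
    (S : Finset ℕ) (hMS : ∀ r : ℕ, r.Prime → r ∣ M → r ∈ S) (hqS : q ∈ S)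
    (heS : ∀ r : ℕ, r.Prime → r ∣ e → r ∈ S) (a : ℕ → ℤ)
    (Pol : FreeAlgebra ℤ (GP S))
    (hPol : ∀ m : ℕ, 0 < m →
      FreeAlgebra.lift ℤ (fun ℓ : GP S => heckeT M m (ℓ.good hMS)) Pol = 0)
    (hPol' : IsCoprime (FreeAlgebra.lift ℤ (fun ℓ : GP S => a ℓ.1) Pol) (e : ℤ))
    (hE3 : ∃ ℓ : ℕ, ℓ.Prime ∧ ℓ ∉ S ∧ IsCoprime (a ℓ - (ℓ + 1)) (e : ℤ))
    (x : Kum (M * q) e) (hx : ∀ σ ∈ A.inertiaSubgroupIn ℚ, galKum (M * q) e σ x = x)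
    (heig : ∀ (ℓ : ℕ) [NeZero ℓ] (hℓ : ℓ.Prime) (hℓN : ¬ ℓ ∣ M * q), ℓ ∉ S →
      heckeKum (M * q) ℓ hℓ hℓN e x - a ℓ • x ∈ Tor A w e) :
    x ∈ Tor A w e := by
  refine hwa A hA w hw x
    (inK1_of_inv hq he he12 hconst heis hold hres hA S hMS hqS a Pol hPol hPol' hE3 x hx heig)
    (inK1_of_inv (w := w) hq he he12 hconst heis hold hres hA S hMS hqS a Pol hPol hPol' hE3 _ ?_ ?_)
  · intro σ hσ
    rw [galKum_wKum hw hq, hx σ hσ]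
  · intro ℓ _ hℓ hℓN hℓS
    rw [heckeKum_wKum' hq he hw hℓ hℓN (fun h => hℓS (heS ℓ hℓ h)), ← map_zsmul, ← map_sub]
    exact wKum_mem_tor hq hw (heig ℓ hℓ hℓN hℓS)

end

end Fermat.Agent.S43.I
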