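import Fermat.Agent.S43.I.Vth
import Fermat.Agent.S15.P.Main
import Fermat.Agent.S30.KumTower

/-!
# S43 / I / Iso : (DIV) + (WT) + (I1), concrete form on `Kum N m`

`N` any level, `A` a valuation ring of `ℚ̄` over `q ≠ p`, `Inv m` = the `I_A`-invariants of `Vth N m hNS a`.

Hypotheses (structure `IsoHyp`), for all exponents `m = p ^ (k+1)` (`IsPP p m`):
* (GEN) `Sg ∈ I_A`, and a class fixed by `Sg` is fixed by `I_A`;
* (KUM) if `x' ∈ Vth (p m)`, `p x' ∈ Inv m`, and `y ∈ Kum N p` is the class with `incl y = (Sg - 1) x'`, then `y ⊥ Inv p`;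
* (FR)  `φ² = q²` on `Inv m` (`φ` a Frobenius at `A`).

Conclusions:
* `IsoHyp.exists_lift_step`, `IsoHyp.exists_lift` : (DIV) `Inv` is `p`-divisible;
* `IsoHyp.isotropic` : (WT) `Inv m` is isotropic for `e1N` at EVERY exponent `m = p ^ (k+1)`;
* `IsoHyp.I1` : (I1) `Inv p = (Sg - 1) Vth p`.
-/

set_option autoImplicit false

open AlgebraicCurve ModularCurve

namespace Fermat.Agent.S43.I

open Fermat.Agent.ES Fermat.Agent.SS Fermat.Agent.S15.W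

noncomputable section

/-! ### levels -/

section Level

variable {N : ℕ} [NeZero N]

/-- `Kum.trans` is onto (divisibility of `J₀(N)`). -/
theorem trans_surj {m r : ℕ} (hm : 0 < m) (hr : 0 < r) (h : m ∣ r * m) (x : Kum N m) :
    ∃ y : Kum N (r * m), Kum.trans N h y = x := by
  obtain ⟨f, rfl⟩ := Kum.mk_surjective x
  have hf : IsDm Qb m ((f : (FF N)ˣ) : FF N) := isDm_coe' f
  obtain ⟨E', g, hg, hE⟩ := S37.exists_eq_nsmul_add_div r hr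
    ⟨Dv Qb m ((f : (FF N)ˣ) : FF N), degree_Dv hm.ne' hf⟩
  have hord : ∀ P : Place Qb (FF N),
      P.ord (((f : (FF N)ˣ) * (Units.mk0 g hg ^ m)⁻¹ : (FF N)ˣ) : FF N)
        = ((r * m : ℕ) : ℤ) * (E' : Divisor Qb (FF N)) P := by
    intro P
    have h1 : Dv Qb m ((f : (FF N)ˣ) : FF N) P
        = (r : ℤ) * (E' : Divisor Qb (FF N)) P + P.ord g := hE P
    rw [Dv_apply] at h1
    have h2 : (m : ℤ) * (P.ord ((f : (FF N)ˣ) : FF N) / (m : ℤ)) = P.ord ((f : (FF N)ˣ) : FF N) :=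
      Int.mul_ediv_cancel' (f.2 P)
    have h3 : (((f : (FF N)ˣ) * (Units.mk0 g hg ^ m)⁻¹ : (FF N)ˣ) : FF N)
        = ((f : (FF N)ˣ) : FF N) * (g ^ (m : ℤ))⁻¹ := by simp
    rw [h3, P.ord_mul (f : (FF N)ˣ).ne_zero (inv_ne_zero (zpow_ne_zero _ hg)), P.ord_inv, P.ord_zpow]
    push_cast
    linear_combination (-1 : ℤ) * h2 + (m : ℤ) * h1
  refine ⟨Kum.mk ⟨(f : (FF N)ˣ) * (Units.mk0 g hg ^ m)⁻¹, fun P => ⟨_, hord P⟩⟩, ?_⟩
  rw [Kum.trans_mk, Kum.mk_eq_mk_iff]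
  refine ⟨(Units.mk0 g hg)⁻¹, ?_⟩
  rw [Dm.coe_incl]
  show _ = (f : (FF N)ˣ) * (Units.mk0 g hg ^ m)⁻¹ * (f : (FF N)ˣ)⁻¹
  rw [inv_pow, mul_comm (f : (FF N)ˣ), mul_inv_cancel_right]

omit [NeZero N] in
/-- exactness: the kernel of `p : J[p m] → J[m]` is `J[p]`. -/
theorem exists_incl_eq {e m : ℕ} (hm : m ≠ 0) (h : m ∣ e * m) (t : Kum N (e * m))
    (ht : Kum.trans N h t = 0) : ∃ y : Kum N e, Kum.incl N e m y = t := by
  obtain ⟨f, rfl⟩ := Kum.mk_surjective t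
  rw [Kum.trans_mk, Kum.mk_eq_zero_iff] at ht
  obtain ⟨g, hg⟩ := ht
  rw [Dm.coe_incl] at hg
  have hgD : g ∈ Dm N e := by
    intro P
    have h1 := f.2 P
    have h2 : ((f : (FF N)ˣ) : FF N) = (g : FF N) ^ (m : ℤ) := by
      rw [← hg]; simp
    rw [h2, P.ord_zpow] at h1
    push_cast at h1
    rw [mul_comm (e : ℤ)] at h1
    exact (mul_dvd_mul_iff_left (by exact_mod_cast hm)).mp h1
  exact ⟨Kum.mk ⟨g, hgD⟩, by rw [Kum.incl_mk]; exact congrArg Kum.mk (Subtype.ext hg)⟩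

omit [NeZero N] in
theorem incl_inj {e m : ℕ} (he : e ≠ 0) (hm : m ≠ 0) : Function.Injective (Kum.incl N e m) := by
  rw [injective_iff_map_eq_zero]
  intro x hx
  obtain ⟨f, rfl⟩ := Kum.mk_surjective x
  rw [Kum.incl_mk, Kum.mk_eq_zero_iff] at hx
  obtain ⟨g, hg⟩ := hx
  rw [Dm.coe_powHom] at hg
  obtain ⟨ξ, hξ⟩ := S30.exists_pow_eq_of_pow_eq_one hm he ((f : (FF N)ˣ) * (g ^ e)⁻¹) (by
    rw [mul_pow, inv_pow, ← pow_mul, hg, mul_inv_cancel])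
  rw [Kum.mk_eq_zero_iff]
  exact ⟨ξ * g, by rw [mul_pow, hξ, inv_mul_cancel_right]⟩

omit [NeZero N] in
theorem trans_incl_eq_zero {e m : ℕ} (h : m ∣ e * m) (y : Kum N e) :
    Kum.trans N h (Kum.incl N e m y) = 0 := by
  obtain ⟨f, rfl⟩ := Kum.mk_surjective y
  rw [Kum.incl_mk, Kum.trans_mk, Kum.mk_eq_zero_iff]
  exact ⟨f, by rw [Dm.coe_incl, Dm.coe_powHom]⟩

end Level

/-- positive powers of `p`. -/
def IsPP (p m : ℕ) : Prop := ∃ k : ℕ, m = p ^ (k + 1)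

theorem IsPP.self (p : ℕ) : IsPP p p := ⟨0, (pow_one p).symm⟩

theorem IsPP.mul_left {p m : ℕ} (h : IsPP p m) : IsPP p (p * m) := by
  obtain ⟨k, rfl⟩ := h
  exact ⟨k + 1, (pow_succ' p (k + 1)).symm⟩

theorem IsPP.mul_pow {p m : ℕ} (h : IsPP p m) (K : ℕ) : IsPP p (m * p ^ K) := by
  obtain ⟨k, rfl⟩ := h
  exact ⟨k + K, by rw [← pow_add]; congr 1; omega⟩

theorem IsPP.pos {p m : ℕ} (hp : p.Prime) (h : IsPP p m) : 0 < m := by
  obtain ⟨k, rfl⟩ := h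
  exact pow_pos hp.pos _

theorem IsPP.not_dvd {p q m : ℕ} (hp : p.Prime) (hq : q.Prime) (hqp : q ≠ p) (h : IsPP p m) :
    ¬ q ∣ m := by
  obtain ⟨k, rfl⟩ := h
  exact fun h => hqp ((Nat.prime_dvd_prime_iff_eq hq hp).1 (hq.dvd_of_dvd_pow h))

variable (N : ℕ) [NeZero N] {S : Finset ℕ} (hNS : ∀ r : ℕ, r.Prime → r ∣ N → r ∈ S) (a : ℕ → ℤ)
  (A : ValuationSubring Qb)

/-- the `I_A`-invariants of `Vth`. -/
def Inv (m : ℕ) : AddSubgroup (Kum N m) where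
  carrier := {x | x ∈ Vth N m hNS a ∧ ∀ σ ∈ A.inertiaSubgroupIn ℚ, galKum N m σ x = x}
  zero_mem' := ⟨(Vth N m hNS a).zero_mem, fun _ _ => map_zero _⟩
  add_mem' := by
    rintro x y ⟨hx, hx'⟩ ⟨hy, hy'⟩
    exact ⟨(Vth N m hNS a).add_mem hx hy, fun σ hσ => by rw [map_add, hx' σ hσ, hy' σ hσ]⟩
  neg_mem' := by
    rintro x ⟨hx, hx'⟩
    exact ⟨(Vth N m hNS a).neg_mem hx, fun σ hσ => by rw [map_neg, hx' σ hσ]⟩

variable {N hNS a A}

theorem mem_Inv {m : ℕ} {x : Kum N m} : x ∈ Inv N hNS a A m ↔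
    x ∈ Vth N m hNS a ∧ ∀ σ ∈ A.inertiaSubgroupIn ℚ, galKum N m σ x = x := Iff.rfl

variable (N hNS a A)

/-- the hypotheses of (DIV) + (WT). -/
structure IsoHyp (p q : ℕ) (Sg φ : GQ) : Prop where
  hp : p.Prime
  hq : q.Prime
  hqp : q ≠ p
  hA : A.LiesOverPrime q
  hSg : Sg ∈ A.inertiaSubgroupIn ℚ
  hφ : A.IsFrobeniusAt φ q
  gen : ∀ m, IsPP p m → ∀ x : Kum N m, galKum N m Sg x = x →
    ∀ σ ∈ A.inertiaSubgroupIn ℚ, galKum N m σ x = x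
  kum : ∀ m, IsPP p m → ∀ x' ∈ Vth N (p * m) hNS a,
    Kum.trans N (Dvd.intro_left p rfl : m ∣ p * m) x' ∈ Inv N hNS a A m →
    ∀ y : Kum N p, Kum.incl N p m y = galKum N (p * m) Sg x' - x' →
    ∀ z ∈ Inv N hNS a A p, e1N y z = 1
  fr : ∀ m, IsPP p m → ∀ x ∈ Inv N hNS a A m, galKum N m φ (galKum N m φ x) = (q ^ 2) • x

variable {N hNS a A} {p q : ℕ} {Sg φ : GQ}

namespace IsoHyp

variable (H : IsoHyp N hNS a A p q Sg φ)

include H

theorem e1N_inertia {m : ℕ} (hm : IsPP p m) {σ : GQ} (hσ : σ ∈ A.inertiaSubgroupIn ℚ)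
    (x y : Kum N m) : e1N (galKum N m σ x) (galKum N m σ y) = e1N x y := by
  rw [e1N_gal (hm.pos H.hp).ne']
  exact S31.inertia_apply_root A H.hq H.hA σ hσ (hm.not_dvd H.hp H.hq H.hqp)
    (e1N_pow (hm.pos H.hp).ne' x y)

/-- `(Inv p)^⊥ ⊆ (Sg - 1) Vth p`. -/
theorem exists_of_perp {y : Kum N p} (hy : y ∈ Vth N p hNS a)
    (hperp : ∀ z ∈ Inv N hNS a A p, e1N y z = 1) :
    ∃ y₀ ∈ Vth N p hNS a, y = galKum N p Sg y₀ - y₀ := by
  have hp0 : p ≠ 0 := H.hp.ne_zero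
  have hfin : Finite (Kum N p) := Glue.finite_Kum H.hp.pos
  have hfin' : Finite (Vth N p hNS a) := inferInstance
  let D : Kum N p →+ Kum N p := galKum N p Sg - AddMonoidHom.id _
  have hD : ∀ x, D x = galKum N p Sg x - x := fun x => rfl
  have key := mem_of_perp_perp H.hp (fun x : Kum N p => Kum.nsmul_eq_zero x)
    (card_torsion_units_le (K := Qb) hp0) (e1NHom hp0) (Vth N p hNS a)
    ((Vth N p hNS a).map D) (by
      rintro _ ⟨x, hx, rfl⟩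
      exact (Vth N p hNS a).sub_mem (gal_mem_Vth Sg hx) hx)
    (by
      intro x hx hx0
      obtain ⟨b, hb, hb'⟩ := Vth_nondeg H.hp hx hx0
      exact ⟨b, hb, fun h => hb' ((e1NHom_eq_zero_iff hp0 x b).1 h)⟩)
    hy (by
      intro b hb hc
      rw [e1NHom_eq_zero_iff]
      apply hperp
      -- `b` is invariant
      have hb' : galKum N p Sg⁻¹ b ∈ Vth N p hNS a := gal_mem_Vth _ hb
      have hSb : galKum N p Sg (galKum N p Sg⁻¹ b) = b := by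
        rw [← galKum_mul, mul_inv_cancel, galKum_one]
      have h1 : ∀ y₀ ∈ Vth N p hNS a, e1N (galKum N p Sg⁻¹ b - b) y₀ = 1 := by
        intro y₀ hy₀
        have h2 := hc (D y₀) ⟨y₀, hy₀, rfl⟩
        rw [hD, map_sub, AddMonoidHom.sub_apply, sub_eq_zero, e1NHom_eq_iff] at h2
        have h3 := H.e1N_inertia (IsPP.self p) H.hSg y₀ (galKum N p Sg⁻¹ b)
        rw [hSb, h2] at h3
        rw [← e1NHom_eq_zero_iff hp0, map_sub, AddMonoidHom.sub_apply, sub_eq_zero, e1NHom_eq_iff,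
          e1N_symm hp0 y₀, e1N_symm hp0 y₀ b, h3]
      have h4 : galKum N p Sg⁻¹ b - b = 0 := by
        by_contra hne
        obtain ⟨y₀, hy₀, hy₀'⟩ := Vth_nondeg H.hp ((Vth N p hNS a).sub_mem hb' hb) hne
        exact hy₀' (h1 y₀ hy₀)
      have h5 : galKum N p Sg b = b := by
        rw [sub_eq_zero] at h4
        rw [h4] at hSb
        exact hSb
      exact ⟨hb, H.gen p (IsPP.self p) b h5⟩)
  obtain ⟨y₀, hy₀, rfl⟩ := key
  exact ⟨y₀, hy₀, rfl⟩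

/-- **(DIV)**, one step. -/
theorem exists_lift_step {m : ℕ} (hm : IsPP p m) {x : Kum N m} (hx : x ∈ Inv N hNS a A m) :
    ∃ y ∈ Inv N hNS a A (p * m), Kum.trans N (Dvd.intro_left p rfl : m ∣ p * m) y = x := by
  have hm0 : 0 < m := hm.pos H.hp
  have hpm0 : 0 < p * m := Nat.mul_pos H.hp.pos hm0
  obtain ⟨x₀, hx₀⟩ := trans_surj hm0 H.hp.pos (Dvd.intro_left p rfl : m ∣ p * m) x
  obtain ⟨L, r, h1, -, -, h4⟩ := exists_thProj (N := N) (hNS := hNS) (a := a) (p * m) m hpm0 hm0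
  obtain ⟨x', hx'def⟩ : ∃ x', x' = projOp (TT N (p * m) hNS a) r L x₀ := ⟨_, rfl⟩
  have hx'V : x' ∈ Vth N (p * m) hNS a := hx'def ▸ h1 x₀
  have hx't : Kum.trans N (Dvd.intro_left p rfl : m ∣ p * m) x' = x := by
    rw [hx'def, projOp_intertwine (TT N (p * m) hNS a) (TT N m hNS a) (Kum.trans N _)
      (fun ℓ x => trans_TT _ ℓ x), hx₀, h4 x hx.1]
  have ht : Kum.trans N (Dvd.intro_left p rfl : m ∣ p * m) (galKum N (p * m) Sg x' - x') = 0 := by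
    rw [map_sub, Kum.trans_galKum, hx't, hx.2 Sg H.hSg, sub_self]
  obtain ⟨y, hy⟩ := exists_incl_eq hm0.ne' _ _ ht
  have hyV : y ∈ Vth N p hNS a := by
    refine gker_of_intertwine_injective (TT N p hNS a) (TT N (p * m) hNS a) (Kum.incl N p m)
      (incl_inj H.hp.ne_zero hm0.ne') (fun ℓ x => incl_TT m ℓ x) ?_
    rw [hy]
    exact (Vth N (p * m) hNS a).sub_mem (gal_mem_Vth Sg hx'V) hx'V
  obtain ⟨y₀, hy₀, hyy₀⟩ := H.exists_of_perp hyV (H.kum m hm x' hx'V (hx't ▸ hx) y hy)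
  refine ⟨x' - Kum.incl N p m y₀, ⟨(Vth N (p * m) hNS a).sub_mem hx'V (incl_mem_Vth m hy₀), ?_⟩, ?_⟩
  · apply H.gen (p * m) hm.mul_left
    have h5 : galKum N (p * m) Sg (Kum.incl N p m y₀) - Kum.incl N p m y₀
        = galKum N (p * m) Sg x' - x' := by
      rw [← hy, hyy₀, map_sub, Kum.incl_galKum]
    rw [map_sub, sub_eq_sub_iff_sub_eq_sub, ← h5]
  · rw [map_sub, hx't, trans_incl_eq_zero, sub_zero]

/-- **(DIV)**: `Inv` is `p`-divisible. -/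
theorem exists_lift {m : ℕ} (hm : IsPP p m) {x : Kum N m} (hx : x ∈ Inv N hNS a A m) (K : ℕ) :
    ∃ y ∈ Inv N hNS a A (m * p ^ K), Kum.trans N (dvd_mul_right m (p ^ K)) y = x := by
  have main : ∀ K : ℕ, ∀ m₂ : ℕ, m₂ = m * p ^ K → ∀ h : m ∣ m₂,
      ∃ y ∈ Inv N hNS a A m₂, Kum.trans N h y = x := by
    intro K
    induction K with
    | zero =>
      intro m₂ hm₂ h
      rw [pow_zero, mul_one] at hm₂
      subst hm₂
      exact ⟨x, hx, Kum.trans_refl x⟩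
    | succ K ih =>
      intro m₂ hm₂ h
      obtain ⟨y₁, hy₁, hy₁x⟩ := ih (m * p ^ K) rfl (dvd_mul_right m (p ^ K))
      obtain ⟨y₂, hy₂, hy₂y⟩ := H.exists_lift_step (hm.mul_pow K) hy₁
      have e : m₂ = p * (m * p ^ K) := by rw [hm₂, pow_succ]; ring
      subst e
      refine ⟨y₂, hy₂, ?_⟩
      rw [← hy₁x, ← hy₂y, Kum.trans_trans]
  exact main K _ rfl _

omit H in
/-- elementary. -/
theorem pow_eq_one_of_frob' {e q n K : ℕ} (he : e.Prime) (hq : q.Prime) (heq : e ≠ q)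
    (hK : q ^ 2 < e ^ K) {z : Qb} (hz : z ≠ 0) (h1 : z ^ (e ^ n) = 1)
    (h2 : z ^ (q ^ 2 * q ^ 2) = z ^ (q ^ 2)) : z ^ (e ^ K) = 1 := by
  have hq4 : 4 ≤ q ^ 2 := by
    have := hq.two_le
    nlinarith
  have h3 : z ^ (q ^ 2 * (q ^ 2 - 1)) = 1 := by
    have e1 : q ^ 2 * q ^ 2 = q ^ 2 * (q ^ 2 - 1) + q ^ 2 := by
      obtain ⟨t, ht⟩ : ∃ t, q ^ 2 = t + 1 := ⟨q ^ 2 - 1, by omega⟩
      rw [ht, Nat.add_sub_cancel]
      ring
    rw [e1, pow_add] at h2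
    exact mul_right_cancel₀ (pow_ne_zero _ hz) (by rw [h2, one_mul])
  have hd1 : orderOf z ∣ e ^ n := orderOf_dvd_of_pow_eq_one h1
  obtain ⟨j, -, hjo⟩ := (Nat.dvd_prime_pow he).mp hd1
  have hd2 : orderOf z ∣ q ^ 2 * (q ^ 2 - 1) := orderOf_dvd_of_pow_eq_one h3
  have hcop : Nat.Coprime (orderOf z) (q ^ 2) := by
    rw [hjo]
    exact Nat.Coprime.pow _ _ ((Nat.coprime_primes he hq).mpr heq)
  have hd3 : orderOf z ∣ q ^ 2 - 1 := hcop.dvd_of_dvd_mul_left hd2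
  have hle : orderOf z ≤ q ^ 2 - 1 := Nat.le_of_dvd (by omega) hd3
  have hjK : j ≤ K := by
    by_contra hcon
    have h5 : e ^ K ≤ e ^ j := Nat.pow_le_pow_right he.pos (by omega)
    rw [hjo] at hle
    omega
  rw [← orderOf_dvd_iff_pow_eq_one, hjo]
  exact pow_dvd_pow e hjK

/-- **(WT)**: `Inv m` is isotropic, at every exponent `m = p ^ (k+1)`. -/
theorem isotropic {m : ℕ} (hm : IsPP p m) {x z : Kum N m} (hx : x ∈ Inv N hNS a A m)
    (hz : z ∈ Inv N hNS a A m) : e1N x z = 1 := by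
  obtain ⟨K, hKdef⟩ : ∃ K, K = q ^ 2 := ⟨_, rfl⟩
  have hK : q ^ 2 < p ^ K := by
    calc q ^ 2 < 2 ^ (q ^ 2) := Nat.lt_two_pow_self
      _ ≤ p ^ (q ^ 2) := Nat.pow_le_pow_left H.hp.two_le _
      _ = p ^ K := by rw [hKdef]
  have hm₂ : IsPP p (m * p ^ K) := hm.mul_pow K
  have hm₂0 : m * p ^ K ≠ 0 := (hm₂.pos H.hp).ne'
  obtain ⟨x', hx', rfl⟩ := H.exists_lift hm hx K
  obtain ⟨z', hz', rfl⟩ := H.exists_lift hm hz K
  rw [e1N_trans hm₂0]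
  obtain ⟨n, hn⟩ := hm₂
  refine pow_eq_one_of_frob' (n := n + 1) H.hp H.hq (Ne.symm H.hqp) hK (e1N_ne_zero hm₂0 _ _)
    (by rw [← hn]; exact e1N_pow hm₂0 _ _) ?_
  refine S15.P.e1N_pow_of_frob hm₂0 φ (fun ζ hζ => ?_) x' z' (H.fr _ (hm.mul_pow K) x' hx')
    (H.fr _ (hm.mul_pow K) z' hz')
  have := S31.frob_pow_apply_root A H.hq H.hA φ H.hφ ((hm.mul_pow K).not_dvd H.hp H.hq H.hqp) hζ 2
  rwa [pow_two] at this

/-- **(I1)**: `ker N = N V` on `Vth N p`. -/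
theorem I1 {x : Kum N p} (hx : x ∈ Inv N hNS a A p) :
    ∃ y ∈ Vth N p hNS a, x = galKum N p Sg y - y :=
  H.exists_of_perp hx.1 fun _ hz => H.isotropic (IsPP.self p) hx hz

end IsoHyp

end

end Fermat.Agent.S43.I
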