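import Fermat.Agent.S43.I.Inv
import Fermat.Agent.S43.I.Iso

/-!
# S43 / I / InvTor : devissage `Inv ≤ Tor`

`tor_of_inv` gives: an inertia invariant class `x` with `(T_ℓ - a ℓ) x ∈ Tor` for all good `ℓ` lies in `Tor`.
By devissage along the (locally nilpotent, commuting) operators `T_ℓ - a ℓ` this gives `Inv ≤ Tor`.
-/

set_option autoImplicit false

open AlgebraicCurve ModularCurve

namespace Fermat.Agent.S43.I

section Abstract

variable {X ι : Type*} [AddCommGroup X]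

/-- the smallest subgroup containing `x`, stable under all the `T i`. -/
def dvCl (T : ι → Module.End ℤ X) (x : X) : AddSubgroup X :=
  sInf {Z : AddSubgroup X | x ∈ Z ∧ ∀ i, ∀ y ∈ Z, T i y ∈ Z}

theorem dvCl_self (T : ι → Module.End ℤ X) (x : X) : x ∈ dvCl T x := by
  rw [dvCl, AddSubgroup.mem_sInf]
  exact fun Z hZ => hZ.1

theorem dvCl_stable (T : ι → Module.End ℤ X) (x : X) (i : ι) {y : X} (hy : y ∈ dvCl T x) :
    T i y ∈ dvCl T x := by
  rw [dvCl, AddSubgroup.mem_sInf] at hy ⊢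
  exact fun Z hZ => hZ.2 i y (hy Z hZ)

theorem dvCl_le (T : ι → Module.End ℤ X) {x : X} {Z : AddSubgroup X} (hx : x ∈ Z)
    (hZ : ∀ i, ∀ y ∈ Z, T i y ∈ Z) : dvCl T x ≤ Z :=
  sInf_le ⟨hx, hZ⟩

theorem dvCl_apply_le_map (T : ι → Module.End ℤ X) (hc : ∀ i j, Commute (T i) (T j)) (x : X)
    (i : ι) : dvCl T (T i x) ≤ (dvCl T x).map (T i).toAddMonoidHom := by
  refine dvCl_le T ⟨x, dvCl_self T x, rfl⟩ ?_
  rintro j _ ⟨y, hy, rfl⟩
  refine ⟨T j y, dvCl_stable T x j hy, ?_⟩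
  have := congrArg (fun f : Module.End ℤ X => f y) (hc i j).eq
  exact this

theorem dvCl_apply_le (T : ι → Module.End ℤ X) (x : X) (i : ι) : dvCl T (T i x) ≤ dvCl T x :=
  dvCl_le T (dvCl_stable T x i (dvCl_self T x)) (fun j _ hy => dvCl_stable T x j hy)

theorem dvCl_apply_lt [Finite X] (T : ι → Module.End ℤ X) (hc : ∀ i j, Commute (T i) (T j))
    {x : X} (hx : x ≠ 0) (i : ι) (hn : ∃ n : ℕ, (T i ^ n) x = 0) :
    dvCl T (T i x) < dvCl T x := by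
  refine lt_of_le_of_ne (dvCl_apply_le T x i) fun heq => hx ?_
  -- `T i` is surjective on `dvCl T x`
  let g : dvCl T x → dvCl T x := fun y => ⟨T i y, dvCl_stable T x i y.2⟩
  have hsurj : Function.Surjective g := by
    rintro ⟨z, hz⟩
    have hz' : z ∈ (dvCl T x).map (T i).toAddMonoidHom :=
      dvCl_apply_le_map T hc x i (heq ▸ hz)
    obtain ⟨y, hy, rfl⟩ := hz'
    exact ⟨⟨y, hy⟩, rfl⟩
  have hinj : Function.Injective g := Finite.injective_iff_surjective.2 hsurj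
  obtain ⟨n, hn⟩ := hn
  have hit : ∀ (k : ℕ) (y : dvCl T x), ((g^[k] y : dvCl T x) : X) = (T i ^ k) (y : X) := by
    intro k
    induction k with
    | zero => intro y; simp
    | succ k ih =>
      intro y
      rw [Function.iterate_succ_apply, ih, pow_succ]
      rfl
  have h0 : g^[n] ⟨x, dvCl_self T x⟩ = g^[n] 0 := by
    apply Subtype.ext
    rw [hit, hit]
    simp [hn]
  have := (hinj.iterate n) h0
  exact congrArg Subtype.val this

/-- **devissage.** -/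
theorem devissage [Finite X] (T : ι → Module.End ℤ X) (hc : ∀ i j, Commute (T i) (T j))
    (I R : AddSubgroup X) (hI : ∀ i, ∀ x ∈ I, T i x ∈ I)
    (hnil : ∀ x ∈ I, ∀ i, ∃ n : ℕ, (T i ^ n) x = 0)
    (hP : ∀ x ∈ I, (∀ i, T i x ∈ R) → x ∈ R) : I ≤ R := by
  have key : ∀ (n : ℕ) (x : X), x ∈ I → Nat.card (dvCl T x) = n → x ∈ R := by
    intro n
    induction n using Nat.strong_induction_on with
    | _ n ih =>
      intro x hx hn
      by_cases hx0 : x = 0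
      · rw [hx0]; exact R.zero_mem
      refine hP x hx fun i => ?_
      refine ih _ ?_ (T i x) (hI i x hx) rfl
      rw [← hn]
      have hlt := dvCl_apply_lt T hc hx0 i (hnil x hx i)
      have := Set.ncard_lt_ncard (s := (dvCl T (T i x) : Set X)) (t := (dvCl T x : Set X))
        (by exact_mod_cast hlt) (Set.toFinite _)
      rw [← Nat.card_coe_set_eq, ← Nat.card_coe_set_eq] at this
      exact this
  exact fun x hx => key _ x hx rfl

end Abstract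

open Fermat.Agent.ES Fermat.Agent.SS Fermat.Agent.S33
open Fermat.Agent.S44 (ResDeg)

variable {M q e : ℕ} [NeZero M] [NeZero q] {A : ValuationSubring Qb}

theorem TT_mem_Vth {N m : ℕ} [NeZero N] {S : Finset ℕ}
    {hNS : ∀ r : ℕ, r.Prime → r ∣ N → r ∈ S} {a : ℕ → ℤ} (ℓ : GP S) {x : Kum N m}
    (hx : x ∈ Vth N m hNS a) : TT N m hNS a ℓ x ∈ Vth N m hNS a := by
  intro ℓ'
  obtain ⟨n, hn⟩ := hx ℓ'
  refine ⟨n, ?_⟩
  have h : Commute (TT N m hNS a ℓ' ^ n) (TT N m hNS a ℓ) := (TT_commute ℓ' ℓ).pow_left n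
  have := congrArg (fun f : Module.End ℤ (Kum N m) => f x) h.eq
  calc (TT N m hNS a ℓ' ^ n) (TT N m hNS a ℓ x) = TT N m hNS a ℓ ((TT N m hNS a ℓ' ^ n) x) := this
    _ = 0 := by rw [hn, map_zero]

theorem TT_mem_Inv {N m : ℕ} [NeZero N] {S : Finset ℕ}
    {hNS : ∀ r : ℕ, r.Prime → r ∣ N → r ∈ S} {a : ℕ → ℤ} (ℓ : GP S) {x : Kum N m}
    (hx : x ∈ Inv N hNS a A m) : TT N m hNS a ℓ x ∈ Inv N hNS a A m :=
  ⟨TT_mem_Vth ℓ hx.1, fun σ hσ => by rw [gal_TT, hx.2 σ hσ]⟩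

/-- **`(a_k)`: `Inv ≤ Tor`** (any exponent `e` prime to `12`). -/
theorem inv_le_tor (hq : q.Prime) (he : e ≠ 0) (he12 : IsCoprime (12 : ℤ) (e : ℤ))
    (hconst : ConstQ M q e) (heis : EisQ M q e) (hold : OldQ M q e) (hres : ResDeg M q)
    (hwa : WA M q e hq)
    (hA : A.LiesOverPrime q) {w : FF (M * q) →ₐ[Qb] FF (M * q)} (hw : IsAL M q w)
    (S : Finset ℕ) (hMS : ∀ r : ℕ, r.Prime → r ∣ M → r ∈ S) (hqS : q ∈ S)
    (heS : ∀ r : ℕ, r.Prime → r ∣ e → r ∈ S) (a : ℕ → ℤ)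
    (Pol : FreeAlgebra ℤ (GP S))
    (hPol : ∀ m : ℕ, 0 < m →
      FreeAlgebra.lift ℤ (fun ℓ : GP S => heckeT M m (ℓ.good hMS)) Pol = 0)
    (hPol' : IsCoprime (FreeAlgebra.lift ℤ (fun ℓ : GP S => a ℓ.1) Pol) (e : ℤ))
    (hE3 : ∃ ℓ : ℕ, ℓ.Prime ∧ ℓ ∉ S ∧ IsCoprime (a ℓ - (ℓ + 1)) (e : ℤ))
    (hNS : ∀ r : ℕ, r.Prime → r ∣ M * q → r ∈ S) :
    Inv (M * q) hNS a A e ≤ Tor A w e := by
  have hfin : Finite (Kum (M * q) e) := Glue.finite_Kum (Nat.pos_of_ne_zero he)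
  refine devissage (TT (M * q) e hNS a) TT_commute _ _ (fun ℓ x hx => TT_mem_Inv ℓ hx)
    (fun x hx ℓ => hx.1 ℓ) ?_
  intro x hx h
  refine tor_of_inv hq he he12 hconst heis hold hres hwa hA hw S hMS hqS heS a Pol hPol hPol' hE3
    x hx.2 ?_
  intro ℓ _ hℓ hℓN hℓS
  exact h ⟨ℓ, hℓ, hℓS⟩

end Fermat.Agent.S43.I
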