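import Fermat.Agent.S43.I.Inv
import Fermat.Agent.S43.I.Eis2
import Fermat.Agent.S43.I.WAExport
import Fermat.Agent.S43.Fin.Defs
import Fermat.Agent.S44.ResDeg.RedTo
import Fermat.Agent.S43.I.InvTor
import Fermat.Agent.S43.I.ConstQAll
import Fermat.Agent.S43.I.IsoInst

/-!
# S43 / I / InvCtx : `tor_of_inv` for the data of a `Fin.Ctx`

* `tor_of_inv_ctx` : eigenvector-mod-`Tor` form, hypothesis `ConstQ M q (p ^ (k+1))`;
* `constQ_ctx`     : `ConstQ M q (p ^ (k+1))` (from `Raise3.constQ_all`);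
* `ak_ctx`         : **(a_k)** `Inv (M q) m ≤ Tor` for all `m = p ^ (k+1)`: no hypothesis left.
-/

set_option autoImplicit false

open AlgebraicCurve ModularCurve

namespace Fermat.Agent.S43.I

open Fermat.Agent.ES Fermat.Agent.SS Fermat.Agent.S33

noncomputable section

variable {M q p : ℕ} [NeZero M] [NeZero q]

theorem InvCtx_isCoprime_pow {p : ℕ} (hp : p.Prime) {n : ℤ} (h : ¬ (p : ℤ) ∣ n) (k : ℕ) :
    IsCoprime n ((p ^ k : ℕ) : ℤ) := by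
  push_cast
  refine IsCoprime.pow_right ?_
  exact ((Nat.prime_iff_prime_int.1 hp).coprime_iff_not_dvd.2 h).symm

theorem InvCtx_not_dvd_twelve {p : ℕ} (hp : p.Prime) (h5 : 5 ≤ p) : ¬ (p : ℤ) ∣ 12 := by
  intro h
  have h' : p ∣ 2 ^ 2 * 3 := by exact_mod_cast h
  rcases (Nat.Prime.dvd_mul hp).1 h' with h1 | h1
  · have := (Nat.prime_dvd_prime_iff_eq hp Nat.prime_two).1 (hp.dvd_of_dvd_pow h1)
    omega
  · have := (Nat.prime_dvd_prime_iff_eq hp Nat.prime_three).1 h1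
    omega

/-- **(a_k), eigenvector-mod-`Tor` form, for a `Fin.Ctx`.** -/
theorem tor_of_inv_ctx (C : Fin.Ctx M q p) (k : ℕ) (hconst : ConstQ M q (p ^ (k + 1)))
    (x : Kum (M * q) (p ^ (k + 1)))
    (hx : ∀ σ ∈ C.A.inertiaSubgroupIn ℚ, galKum (M * q) (p ^ (k + 1)) σ x = x)
    (heig : ∀ (ℓ : ℕ) [NeZero ℓ] (hℓ : ℓ.Prime) (hℓN : ¬ ℓ ∣ M * q), ℓ ∉ C.S →
      heckeKum (M * q) ℓ hℓ hℓN (p ^ (k + 1)) x - C.a ℓ • x ∈ Tor C.A C.w (p ^ (k + 1))) :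
    x ∈ Tor C.A C.w (p ^ (k + 1)) := by
  have hp := C.hp
  have he0 : p ^ (k + 1) ≠ 0 := pow_ne_zero _ hp.ne_zero
  have he1 : 1 < p ^ (k + 1) := Nat.one_lt_pow (Nat.succ_ne_zero k) hp.one_lt
  have h12 : ¬ (p : ℤ) ∣ 12 := InvCtx_not_dvd_twelve hp C.hp5
  obtain ⟨Pol, hPol, hPol'⟩ := C.hSep M C.hMS (dvd_mul_right M q) (by
    intro h
    have h1 : M * 1 = M * q := by rw [mul_one]; exact h
    exact C.hq.one_lt.ne (Nat.eq_of_mul_eq_mul_left (Nat.pos_of_ne_zero (NeZero.ne M)) h1))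
  obtain ⟨ℓ, hℓ, hℓS, hℓE⟩ := C.hnE
  refine tor_of_inv C.hq he0 (InvCtx_isCoprime_pow hp h12 _) hconst
    (eisQ M q _ C.hq C.hqM he1) (oldQ_all M q _ C.hq C.hqM he0)
    (Fermat.Agent.S44.ResDeg.resDeg M q C.hq C.hqM) (wa M q _ C.hq C.hqM) C.hA C.hw C.S C.hMS C.hqS
    ?_ C.a Pol hPol (InvCtx_isCoprime_pow hp hPol' _) ⟨ℓ, hℓ, hℓS, ?_⟩ x hx heig
  · intro r hr hd
    have := (Nat.prime_dvd_prime_iff_eq hr hp).mp (hr.dvd_of_dvd_pow hd)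
    rw [this]; exact C.hpS
  · refine InvCtx_isCoprime_pow hp ?_ _
    intro h
    apply hℓE
    have e : C.W.apOfModel ℓ - ℓ - 1 = C.a ℓ - (ℓ + 1) := by
      show _ = C.W.apOfModel ℓ - (ℓ + 1)
      ring
    rw [e]; exact h

theorem constQ_ctx (C : Fin.Ctx M q p) (k : ℕ) : ConstQ M q (p ^ (k + 1)) := by
  refine Raise3.constQ_all M q _ C.hq C.hq2 C.hqM (pow_pos C.hp.pos _) ?_
  refine Nat.Coprime.pow_left _ ?_
  rw [Nat.Prime.coprime_iff_not_dvd C.hp]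
  intro h
  exact InvCtx_not_dvd_twelve C.hp C.hp5 (by exact_mod_cast h)

/-- **(a_k)** for a `Fin.Ctx`: the inertia invariants of the `θ`-part are toric, at every exponent `p ^ (k+1)`. -/
theorem ak_ctx (C : Fin.Ctx M q p) :
    ∀ m, IsPP p m → Inv (M * q) (ctx_hNS C) C.a C.A m ≤ Tor C.A C.w m := by
  rintro _ ⟨k, rfl⟩
  have hfin : Finite (Kum (M * q) (p ^ (k + 1))) := Glue.finite_Kum (pow_pos C.hp.pos _)
  refine devissage (TT (M * q) (p ^ (k + 1)) (ctx_hNS C) C.a) TT_commute _ _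
    (fun ℓ x hx => TT_mem_Inv ℓ hx) (fun x hx ℓ => hx.1 ℓ) ?_
  intro x hx h
  refine tor_of_inv_ctx C k (constQ_ctx C k) x hx.2 ?_
  intro ℓ _ hℓ hℓN hℓS
  exact h ⟨ℓ, hℓ, hℓS⟩

end

end Fermat.Agent.S43.I
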