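import Fermat.Agent.S43.I.OldQAll

/-!
# S43 / I / OldQ3 : alias file (three seats proved the same statement at the same time)

The theorem `S43.I.oldQ_all : OldQ M q e` for EVERY prime `q ∤ M` lives in `S43/I/OldQAll.lean`.
This file only keeps the second name `oldQ'`, so that both files can be imported together.
-/

set_option autoImplicit false

namespace Fermat.Agent.S43.I

/-- **OLD_q** for every prime `q ∤ M` (alias of `oldQ_all`). -/
theorem oldQ' (M q e : ℕ) [NeZero M] (hq : q.Prime) (hM : ¬ q ∣ M) (he : e ≠ 0) : OldQ M q e :=
  oldQ_all M q e hq hM he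

end Fermat.Agent.S43.I
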