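import Fermat.Agent.S15.GR.Norm.Above
import Fermat.Agent.S44.ResDeg.Main
import Fermat.Agent.S44.Defs
import Fermat.Agent.Crux.LevelDescent

/-!
# S43 / I / Raise3 : descent of `e ∣ ord` from level `M'` to level `M ∣ M'` in the residue function fields

For `q = 3` and `M` odd the level `M` is not admissible (`Crux.Admissible 3 M` fails), so the chart based statements only exist at
level `2 M`.  This file brings their conclusion (`Eis.ALLk`, `Eis.NCk`, `Cuspk`) back to level `M`.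

* `exists_above_ord` : (any characteristic) a place `Q'` above `Q`, with `ord_{Q'} = c * ord_Q` and `c` linearly independent elements;
* `card_le_relfinrank` : `resF M A`-independent elements of `resF M' A` lift to `FF M`-independent elements of `FF M'`;
* `allk_descend`, `nck_descend`, `cuspk_descend`; `allk_descend_two` etc. (`M' = 2 * M`, `M` odd, `e` prime to `6`).
-/

set_option autoImplicit false
set_option linter.style.haveILetI false
set_option linter.unusedSectionVars false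

open AlgebraicCurve ModularCurve

namespace Fermat.Agent.S43.I.Raise3

open Fermat.Agent.S26 (FF1)
open Fermat.Agent.S37.Red (Reg Van)

section Generic

variable {Ω 𝕃 𝕃' : Type*} [Field Ω] [Field 𝕃] [Field 𝕃'] [Algebra Ω 𝕃] [Algebra Ω 𝕃']
variable [Algebra 𝕃 𝕃'] [IsScalarTower Ω 𝕃 𝕃'] [FF1 Ω 𝕃] [FF1 Ω 𝕃']

open Fermat.Agent.S37.Red in
/-- a place above `Q`, its ramification index `c`, and `c` linearly independent elements. -/
theorem exists_above_ord (Q : Place Ω 𝕃) :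
    ∃ (Q' : Place Ω 𝕃') (c : ℕ), 0 < c ∧
      (∀ f : 𝕃, (Reg Q' (algebraMap 𝕃 𝕃' f) ↔ Reg Q f) ∧ (Van Q' (algebraMap 𝕃 𝕃' f) ↔ Van Q f)) ∧
      (∀ f : 𝕃, Q'.ord (algebraMap 𝕃 𝕃' f) = c * Q.ord f) ∧
      ∃ b : Fin c → 𝕃', LinearIndependent 𝕃 b := by
  classical
  obtain ⟨Q', hQ'⟩ := Fermat.Agent.S15.GR.exists_place_above (𝕃' := 𝕃') Q
  obtain ⟨ϖ, hϖ⟩ := Fermat.Agent.S24.FF.exists_ord_eq_one Q
  have hϖ0 : ϖ ≠ 0 := Fermat.Agent.S24.FF.ne_zero_of_ord_ne_zero Q (by rw [hϖ]; exact one_ne_zero)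
  have hι0 : ∀ f : 𝕃, f ≠ 0 → algebraMap 𝕃 𝕃' f ≠ 0 := fun f hf =>
    (_root_.map_ne_zero (algebraMap 𝕃 𝕃')).2 hf
  have hpos : 0 < Q'.ord (algebraMap 𝕃 𝕃' ϖ) :=
    ord_pos_of_van Q' ((hQ' ϖ).2.2 (van_of_ord_pos Q (by rw [hϖ]; exact one_pos))) (hι0 ϖ hϖ0)
  obtain ⟨c, hc⟩ : ∃ c : ℕ, (c : ℤ) = Q'.ord (algebraMap 𝕃 𝕃' ϖ) :=
    ⟨(Q'.ord (algebraMap 𝕃 𝕃' ϖ)).toNat, Int.toNat_of_nonneg hpos.le⟩
  have hc0 : 0 < c := by
    have : (0 : ℤ) < c := by rw [hc]; exact hpos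
    exact_mod_cast this
  have hord : ∀ f : 𝕃, Q'.ord (algebraMap 𝕃 𝕃' f) = c * Q.ord f := by
    intro f
    rcases eq_or_ne f 0 with rfl | hf
    · rw [map_zero, Place.ord_zero, Place.ord_zero, mul_zero]
    set n := Q.ord f with hn
    set u : 𝕃 := f * ϖ ^ (-n) with hu
    have hz : ϖ ^ (-n) ≠ 0 := zpow_ne_zero _ hϖ0
    have hu0 : u ≠ 0 := mul_ne_zero hf hz
    have hou : Q.ord u = 0 := by
      rw [hu, Q.ord_mul hf hz, Q.ord_zpow, hϖ, ← hn]
      ring
    have h1 : Reg Q u := (reg_iff_ord Q).2 hou.ge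
    have h2 : ¬ Van Q u := by
      rw [van_iff_ord]
      rintro (h | h)
      · exact hu0 h
      · rw [hou] at h
        exact lt_irrefl _ h
    have h3 : Q'.ord (algebraMap 𝕃 𝕃' u) = 0 :=
      ord_eq_zero_of_reg_of_not_van Q' ((hQ' u).1.2 h1) (fun h => h2 ((hQ' u).2.1 h))
    have h4 : f = u * ϖ ^ n := by
      rw [hu, mul_assoc, ← zpow_add₀ hϖ0, neg_add_cancel, zpow_zero, mul_one]
    have h5 : algebraMap 𝕃 𝕃' f = algebraMap 𝕃 𝕃' u * algebraMap 𝕃 𝕃' ϖ ^ n := by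
      conv_lhs => rw [h4]
      rw [map_mul, map_zpow₀]
    rw [h5, Q'.ord_mul (hι0 u hu0) (zpow_ne_zero _ (hι0 ϖ hϖ0)), h3, Q'.ord_zpow, ← hc]
    ring
  refine ⟨Q', c, hc0, hQ', hord, ?_⟩
  obtain ⟨ϖ', hϖ'⟩ := Fermat.Agent.S24.FF.exists_ord_eq_one Q'
  have hϖ'0 : ϖ' ≠ 0 :=
    Fermat.Agent.S24.FF.ne_zero_of_ord_ne_zero Q' (by rw [hϖ']; exact one_ne_zero)
  refine ⟨fun i => ϖ' ^ (i : ℕ), ?_⟩
  rw [Fintype.linearIndependent_iff]
  intro g hg
  by_contra hcon
  push Not at hcon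
  obtain ⟨j, hj⟩ := hcon
  set S : Finset (Fin c) := Finset.univ.filter fun i => g i ≠ 0 with hS
  have hSne : S.Nonempty := ⟨j, by rw [hS, Finset.mem_filter]; exact ⟨Finset.mem_univ _, hj⟩⟩
  let vl : Fin c → ℤ := fun i => c * Q.ord (g i) + (i : ℕ)
  obtain ⟨i0, hi0S, hmin⟩ := Finset.exists_min_image S vl hSne
  have hgi0 : g i0 ≠ 0 := by
    rw [hS, Finset.mem_filter] at hi0S
    exact hi0S.2
  let t : Fin c → 𝕃' := fun i => algebraMap 𝕃 𝕃' (g i) * ϖ' ^ (i : ℕ)
  have ht0 : ∀ i, g i ≠ 0 → t i ≠ 0 := fun i hi => mul_ne_zero (hι0 _ hi) (pow_ne_zero _ hϖ'0)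
  have htord : ∀ i, g i ≠ 0 → Q'.ord (t i) = vl i := by
    intro i hi
    show Q'.ord (algebraMap 𝕃 𝕃' (g i) * ϖ' ^ (i : ℕ)) = _
    rw [Q'.ord_mul (hι0 _ hi) (pow_ne_zero _ hϖ'0), hord, Fermat.Agent.S24.FF.ord_pow, hϖ', mul_one]
  have hsum0 : ∑ i, t i = 0 := by
    rw [← hg]
    exact Finset.sum_congr rfl fun i _ => (Algebra.smul_def _ _).symm
  have hvan : Van Q' (∑ i ∈ Finset.univ.erase i0, t i * (t i0)⁻¹) := by
    refine Finset.sum_induction _ (Van Q') (fun a b ha hb => ha.add Q' hb) (van_zero Q') ?_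
    intro i hi
    have hne : i ≠ i0 := Finset.ne_of_mem_erase hi
    by_cases hgi : g i = 0
    · have : t i = 0 := by
        show algebraMap 𝕃 𝕃' (g i) * ϖ' ^ (i : ℕ) = 0
        rw [hgi, map_zero, zero_mul]
      rw [this, zero_mul]
      exact van_zero Q'
    · apply van_of_ord_pos
      rw [Q'.ord_mul (ht0 i hgi) (inv_ne_zero (ht0 i0 hgi0)), Q'.ord_inv, htord i hgi,
        htord i0 hgi0]
      have h1 : vl i0 ≤ vl i := hmin i (by rw [hS, Finset.mem_filter]; exact ⟨Finset.mem_univ _, hgi⟩)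
      have h2 : vl i0 ≠ vl i := by
        intro heq
        apply hne
        have h3 : (c : ℤ) * (Q.ord (g i0) - Q.ord (g i)) = ((i : ℕ) : ℤ) - ((i0 : ℕ) : ℤ) := by
          have : (c : ℤ) * Q.ord (g i0) + ((i0 : ℕ) : ℤ) = c * Q.ord (g i) + ((i : ℕ) : ℤ) := heq
          linear_combination this
        have h4 : (c : ℤ) ∣ ((i : ℕ) : ℤ) - ((i0 : ℕ) : ℤ) := ⟨_, h3.symm⟩
        have h5 : ((i : ℕ) : ℤ) - ((i0 : ℕ) : ℤ) = 0 := by
          apply Int.eq_zero_of_abs_lt_dvd h4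
          have := i.2
          have := i0.2
          rw [abs_lt]
          constructor <;> omega
        apply Fin.ext
        omega
      have h3 : vl i0 < vl i := lt_of_le_of_ne h1 h2
      omega
  have h1 : (1 : 𝕃') + ∑ i ∈ Finset.univ.erase i0, t i * (t i0)⁻¹ = 0 := by
    have h2 : t i0 + ∑ i ∈ Finset.univ.erase i0, t i = 0 := by
      rw [Finset.add_sum_erase _ _ (Finset.mem_univ i0)]
      exact hsum0
    have h3 : (t i0 + ∑ i ∈ Finset.univ.erase i0, t i) * (t i0)⁻¹ = 0 := by rw [h2, zero_mul]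
    rw [add_mul, mul_inv_cancel₀ (ht0 i0 hgi0), Finset.sum_mul] at h3
    exact h3
  have h2 : (1 : 𝕃') = - ∑ i ∈ Finset.univ.erase i0, t i * (t i0)⁻¹ := by
    linear_combination h1
  exact not_van_one Q' (by rw [h2]; exact hvan.neg Q')

/-- descent of divisibility of orders. -/
theorem exists_above_dvd (e n : ℕ)
    (hbound : ∀ (c : ℕ) (b : Fin c → 𝕃'), LinearIndependent 𝕃 b → c ≤ n)
    (hcop : ∀ c : ℕ, 0 < c → c ≤ n → Nat.Coprime e c) (Q : Place Ω 𝕃) :
    ∃ Q' : Place Ω 𝕃',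
      (∀ f : 𝕃, (0 ≤ Q'.ord (algebraMap 𝕃 𝕃' f) ↔ 0 ≤ Q.ord f) ∧
        (Q'.ord (algebraMap 𝕃 𝕃' f) < 0 ↔ Q.ord f < 0)) ∧
      ∀ φ : 𝕃, (e : ℤ) ∣ Q'.ord (algebraMap 𝕃 𝕃' φ) → (e : ℤ) ∣ Q.ord φ := by
  obtain ⟨Q', c, hc0, -, hord, b, hb⟩ := exists_above_ord (𝕃' := 𝕃') Q
  have hc0' : (0 : ℤ) < c := by exact_mod_cast hc0
  refine ⟨Q', fun f => ?_, fun φ h => ?_⟩
  · rw [hord]
    constructor
    · exact ⟨fun h => nonneg_of_mul_nonneg_right h hc0', fun h => mul_nonneg hc0'.le h⟩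
    · exact ⟨fun h => by
        by_contra h2
        exact absurd (mul_nonneg hc0'.le (not_lt.1 h2)) (not_le.2 h), fun h => mul_neg_of_pos_of_neg hc0' h⟩
  · rw [hord] at h
    have h1 : IsCoprime (e : ℤ) (c : ℤ) := Nat.isCoprime_iff_coprime.2 (hcop c hc0 (hbound c b hb))
    exact h1.dvd_of_dvd_mul_left h

end Generic

section Sub

variable {Ω Λ : Type*} [Field Ω] [Field Λ] [Algebra Ω Λ]

/-- a family of elements of `E` which is independent over `F ≤ E` has at most `[E : F]` elements. -/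
theorem card_le_relfinrank_aux (F E : IntermediateField Ω Λ) (hle : F ≤ E)
    (hfin : F.relfinrank E ≠ 0) (c : ℕ) (b : Fin c → Λ) (hb : ∀ i, b i ∈ E)
    (h : ∀ g : Fin c → F, ∑ i, (g i : Λ) * b i = 0 → ∀ i, g i = 0) : c ≤ F.relfinrank E := by
  rw [IntermediateField.relfinrank_eq_finrank_of_le hle] at hfin ⊢
  have : FiniteDimensional F (IntermediateField.extendScalars hle) :=
    Module.finite_of_finrank_pos (Nat.pos_of_ne_zero hfin)
  let B : Fin c → IntermediateField.extendScalars hle := fun i => ⟨b i, hb i⟩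
  have hli : LinearIndependent F B := by
    rw [Fintype.linearIndependent_iff]
    intro g hg
    apply h g
    have h1 := congrArg (fun z : IntermediateField.extendScalars hle => (z : Λ)) hg
    simpa [B, Algebra.smul_def, IntermediateField.coe_sum] using h1
  simpa using hli.fintype_card_le_finrank

/-- `exists_above_dvd` for two intermediate fields `L ≤ L'`. -/
theorem exists_above_sub (L L' : IntermediateField Ω Λ) (hle : L ≤ L') [FF1 Ω L] [FF1 Ω L']
    (e n : ℕ)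
    (hbound : ∀ (c : ℕ) (b : Fin c → Λ), (∀ i, b i ∈ L') →
      (∀ g : Fin c → Λ, (∀ i, g i ∈ L) → ∑ i, g i * b i = 0 → ∀ i, g i = 0) → c ≤ n)
    (hcop : ∀ c : ℕ, 0 < c → c ≤ n → Nat.Coprime e c) (Q : Place Ω L) :
    ∃ Q' : Place Ω L', ∀ (f : Λ) (hf : f ∈ L) (hf' : f ∈ L'),
        (0 ≤ Q.ord (⟨f, hf⟩ : L) → 0 ≤ Q'.ord (⟨f, hf'⟩ : L')) ∧
        (Q.ord (⟨f, hf⟩ : L) < 0 → Q'.ord (⟨f, hf'⟩ : L') < 0) ∧
        ((e : ℤ) ∣ Q'.ord (⟨f, hf'⟩ : L') → (e : ℤ) ∣ Q.ord (⟨f, hf⟩ : L)) := by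
  letI : Algebra L L' := (IntermediateField.inclusion hle).toAlgebra
  haveI : IsScalarTower Ω L L' := IsScalarTower.of_algebraMap_eq fun x => rfl
  have hmap : ∀ (f : Λ) (hf : f ∈ L) (hf' : f ∈ L'), algebraMap L L' ⟨f, hf⟩ = ⟨f, hf'⟩ :=
    fun f hf hf' => rfl
  have hbound' : ∀ (c : ℕ) (b : Fin c → L'), LinearIndependent L b → c ≤ n := by
    intro c b hb
    refine hbound c (fun i => (b i : Λ)) (fun i => (b i).2) ?_
    intro g hg hsum i
    have h1 := Fintype.linearIndependent_iff.1 hb (fun i => ⟨g i, hg i⟩) (by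
      apply Subtype.ext
      rw [IntermediateField.coe_sum, IntermediateField.coe_zero, ← hsum]
      exact Finset.sum_congr rfl fun i _ => rfl) i
    exact congrArg Subtype.val h1
  obtain ⟨Q', h1, h2⟩ := exists_above_dvd (𝕃' := L') e n hbound' hcop Q
  refine ⟨Q', fun f hf hf' => ⟨fun h => ?_, fun h => ?_, fun h => ?_⟩⟩
  · rw [← hmap f hf hf']
    exact (h1 _).1.2 h
  · rw [← hmap f hf hf']
    exact (h1 _).2.2 h
  · apply h2
    rw [hmap f hf hf']
    exact h

end Sub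

section Concrete

open Fermat.Agent.ES (Qb FF)
open Fermat.Agent.S37.Mod (kA resF RedRel gaussVFF red_iff)
open Fermat.Agent.S44 (Cuspk)
open Fermat.Agent.S44.Eis (jt NCk ALLk)

variable {M M' : ℕ} [NeZero M] [NeZero M'] (A : ValuationSubring Qb)

theorem redRel_mono (h : M ∣ M') {f : LaurentSeries Qb} {u : LaurentSeries (kA A)}
    (hf : RedRel M A f u) : RedRel M' A f u := by
  have hle : modularFunctionFieldBar M ≤ modularFunctionFieldBar M' := Fermat.Agent.Crux.bar_le h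
  obtain ⟨a, b, ha, hb, hb0, hf, hu⟩ := hf
  exact ⟨a, b, hle ha, hle hb, hb0, hf, hu⟩

theorem redRel_sum {ι : Type*} (s : Finset ι) (f : ι → LaurentSeries Qb)
    (u : ι → LaurentSeries (kA A)) (h : ∀ i ∈ s, RedRel M A (f i) (u i)) :
    RedRel M A (∑ i ∈ s, f i) (∑ i ∈ s, u i) := by
  classical
  induction s using Finset.induction_on with
  | empty => simpa using (RedRel.zero : RedRel M A 0 0)
  | insert a s ha ih =>
    rw [Finset.sum_insert ha, Finset.sum_insert ha]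
    exact (h a (Finset.mem_insert_self a s)).add
      (ih fun i hi => h i (Finset.mem_insert_of_mem hi))

/-- independent residues lift to independent elements. -/
theorem card_le_relfinrank (hMM' : M ∣ M')
    (hfin : (modularFunctionFieldBar M).relfinrank (modularFunctionFieldBar M') ≠ 0) (c : ℕ)
    (bt : Fin c → LaurentSeries (kA A)) (hbt : ∀ i, bt i ∈ resF M' A)
    (h : ∀ g : Fin c → LaurentSeries (kA A), (∀ i, g i ∈ resF M A) → ∑ i, g i * bt i = 0 →
      ∀ i, g i = 0) :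
    c ≤ (modularFunctionFieldBar M).relfinrank (modularFunctionFieldBar M') := by
  classical
  have hle : modularFunctionFieldBar M ≤ modularFunctionFieldBar M' :=
    Fermat.Agent.Crux.bar_le hMM'
  choose b hb using hbt
  refine card_le_relfinrank_aux _ _ hle hfin c b (fun i => (hb i).mem) ?_
  · intro g hg'
    by_contra hcon
    push Not at hcon
    obtain ⟨j, hj⟩ := hcon
    set V := gaussVFF M A with hV
    obtain ⟨i0, -, hmax⟩ := Finset.exists_max_image Finset.univ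
      (fun i => V.O.valuation (g i)) ⟨j, Finset.mem_univ j⟩
    have hgi0 : g i0 ≠ 0 := by
      intro h0
      have h1 := hmax j (Finset.mem_univ j)
      simp only [h0, map_zero] at h1
      exact hj ((map_eq_zero _).1 (le_antisymm h1 zero_le))
    have hmem : ∀ i, g i / g i0 ∈ V.O := by
      intro i
      rw [← ValuationSubring.valuation_le_one_iff, map_div₀]
      exact div_le_one_of_le₀ (hmax i (Finset.mem_univ i)) zero_le
    let at' : Fin c → resF M A := fun i => V.red ⟨g i / g i0, hmem i⟩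
    have hred : ∀ i, RedRel M A (((g i / g i0 : FF M)) : LaurentSeries Qb)
        ((at' i : resF M A) : LaurentSeries (kA A)) := fun i => red_iff.1 ⟨hmem i, rfl⟩
    have hs : RedRel M' A (∑ i, (((g i / g i0 : FF M)) : LaurentSeries Qb) * b i)
        (∑ i, ((at' i : resF M A) : LaurentSeries (kA A)) * bt i) :=
      redRel_sum A _ _ _ fun i _ => (redRel_mono A hMM' (hred i)).mul (hb i)
    have hz : ∑ i, (((g i / g i0 : FF M)) : LaurentSeries Qb) * b i = 0 := by
      have h1 : ∀ i, (((g i / g i0 : FF M)) : LaurentSeries Qb) * b i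
          = ((g i0 : FF M) : LaurentSeries Qb)⁻¹ * (((g i : FF M) : LaurentSeries Qb) * b i) := by
        intro i
        rw [IntermediateField.coe_div, div_eq_mul_inv]
        ring
      rw [Finset.sum_congr rfl fun i _ => h1 i, ← Finset.mul_sum, hg', mul_zero]
    rw [hz] at hs
    have h0 := hs.unique RedRel.zero
    have h1 := h (fun i => ((at' i : resF M A) : LaurentSeries (kA A))) (fun i => (at' i).2) h0 i0
    have h2 := hred i0
    rw [div_self hgi0] at h2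
    have h3 := h2.unique RedRel.one
    rw [h1] at h3
    exact zero_ne_one h3

variable {A}

/-- the common part of the three descent statements. -/
theorem exists_above_res (hMM' : M ∣ M') (e : ℕ)
    (hfin : (modularFunctionFieldBar M).relfinrank (modularFunctionFieldBar M') ≠ 0)
    (hcop : ∀ c : ℕ, 0 < c →
      c ≤ (modularFunctionFieldBar M).relfinrank (modularFunctionFieldBar M') → Nat.Coprime e c)
    (Q : Place (kA A) (resF M A)) :
    ∃ Q' : Place (kA A) (resF M' A),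
      (∀ (f : LaurentSeries (kA A)) (hf : f ∈ resF M A) (hf' : f ∈ resF M' A),
        (0 ≤ Q.ord (⟨f, hf⟩ : resF M A) → 0 ≤ Q'.ord (⟨f, hf'⟩ : resF M' A)) ∧
        (Q.ord (⟨f, hf⟩ : resF M A) < 0 → Q'.ord (⟨f, hf'⟩ : resF M' A) < 0) ∧
        ((e : ℤ) ∣ Q'.ord (⟨f, hf'⟩ : resF M' A) → (e : ℤ) ∣ Q.ord (⟨f, hf⟩ : resF M A))) := by
  exact exists_above_sub (resF M A) (resF M' A) (Fermat.Agent.S44.ResDeg.resF_mono hMM' A) e _
    (fun c b hb h => card_le_relfinrank A hMM' hfin c b hb h) hcop Q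

theorem allk_descend (hMM' : M ∣ M') (e : ℕ)
    (hfin : (modularFunctionFieldBar M).relfinrank (modularFunctionFieldBar M') ≠ 0)
    (hcop : ∀ c : ℕ, 0 < c →
      c ≤ (modularFunctionFieldBar M).relfinrank (modularFunctionFieldBar M') → Nat.Coprime e c)
    {φ : LaurentSeries (kA A)} (hφ : φ ∈ resF M A) (h : ALLk M' A e φ) : ALLk M A e φ := by
  obtain ⟨hr, h0, hall⟩ := h
  refine ⟨hφ, h0, fun Q => ?_⟩
  obtain ⟨Q', hQ'⟩ := exists_above_res (A := A) hMM' e hfin hcop Q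
  exact (hQ' φ hφ hr).2.2 (hall Q')

theorem nck_descend (hMM' : M ∣ M') (e : ℕ)
    (hfin : (modularFunctionFieldBar M).relfinrank (modularFunctionFieldBar M') ≠ 0)
    (hcop : ∀ c : ℕ, 0 < c →
      c ≤ (modularFunctionFieldBar M).relfinrank (modularFunctionFieldBar M') → Nat.Coprime e c)
    {φ : LaurentSeries (kA A)} (hφ : φ ∈ resF M A) (h : NCk M' A e φ) : NCk M A e φ := by
  obtain ⟨hr, h0, hall⟩ := h
  refine ⟨hφ, h0, fun Q hQ => ?_⟩
  obtain ⟨Q', hQ'⟩ := exists_above_res (A := A) hMM' e hfin hcop Q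
  exact (hQ' φ hφ hr).2.2 (hall Q' ((hQ' _ (jt M A).2 (jt M' A).2).1 hQ))

theorem cuspk_descend (hMM' : M ∣ M') (e : ℕ)
    (hfin : (modularFunctionFieldBar M).relfinrank (modularFunctionFieldBar M') ≠ 0)
    (hcop : ∀ c : ℕ, 0 < c →
      c ≤ (modularFunctionFieldBar M).relfinrank (modularFunctionFieldBar M') → Nat.Coprime e c)
    {φ : LaurentSeries (kA A)} (hφ : φ ∈ resF M A) (h : Cuspk M' A e φ) : Cuspk M A e φ := by
  obtain ⟨hr, h0, hall⟩ := h
  refine ⟨hφ, h0, fun Q hQ => ?_⟩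
  obtain ⟨Q', hQ'⟩ := exists_above_res (A := A) hMM' e hfin hcop Q
  exact (hQ' φ hφ hr).2.2 (hall Q' ((hQ' _ (jt M A).2 (jt M' A).2).2.1 hQ))

/-! ### `M' = 2 * M`, `M` odd, `e` prime to `6` -/

section Two

variable [NeZero (2 * M)]

theorem relfinrank_two (hM : ¬ 2 ∣ M) :
    (modularFunctionFieldBar M).relfinrank (modularFunctionFieldBar (2 * M)) = 3 :=
  Fermat.Agent.Crux.relfinrank_bar_mul_prime Nat.prime_two hM

theorem coprime_of_le_three {e : ℕ} (he : Nat.Coprime e 6) (c : ℕ) (hc : 0 < c) (hc3 : c ≤ 3) :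
    Nat.Coprime e c := by
  apply Nat.Coprime.coprime_dvd_right _ he
  interval_cases c <;> norm_num

theorem allk_descend_two (hM : ¬ 2 ∣ M) {e : ℕ} (he : Nat.Coprime e 6)
    {φ : LaurentSeries (kA A)} (hφ : φ ∈ resF M A) (h : ALLk (2 * M) A e φ) : ALLk M A e φ :=
  allk_descend (dvd_mul_left M 2) e (by rw [relfinrank_two hM]; norm_num)
    (fun c hc h3 => coprime_of_le_three he c hc (by rwa [relfinrank_two hM] at h3)) hφ h

theorem nck_descend_two (hM : ¬ 2 ∣ M) {e : ℕ} (he : Nat.Coprime e 6)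
    {φ : LaurentSeries (kA A)} (hφ : φ ∈ resF M A) (h : NCk (2 * M) A e φ) : NCk M A e φ :=
  nck_descend (dvd_mul_left M 2) e (by rw [relfinrank_two hM]; norm_num)
    (fun c hc h3 => coprime_of_le_three he c hc (by rwa [relfinrank_two hM] at h3)) hφ h

theorem cuspk_descend_two (hM : ¬ 2 ∣ M) {e : ℕ} (he : Nat.Coprime e 6)
    {φ : LaurentSeries (kA A)} (hφ : φ ∈ resF M A) (h : Cuspk (2 * M) A e φ) : Cuspk M A e φ :=
  cuspk_descend (dvd_mul_left M 2) e (by rw [relfinrank_two hM]; norm_num)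
    (fun c hc h3 => coprime_of_le_three he c hc (by rwa [relfinrank_two hM] at h3)) hφ h

end Two

end Concrete

end Fermat.Agent.S43.I.Raise3
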