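import Fermat.Agent.S43.I.Raise3
import Fermat.Agent.S43.I.InvDefs
import Fermat.Agent.S44.ResDeg.RedTo
import Fermat.Agent.S44.XD.Field

/-!
# S43 / I / Raise3C : `ConstQ (2 M) q e ⟹ ConstQ M q e`  (`M` odd, `q` odd, `e` prime to `6`)

So the hypothesis `Crux.Admissible q M` of the chart based proof of `ConstQ` can be removed: for `q = 3` and `M` odd use level `2 M`.
-/

set_option autoImplicit false
set_option linter.style.haveILetI false

open AlgebraicCurve ModularCurve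

namespace Fermat.Agent.S43.I.Raise3

open Fermat.Agent.ES Fermat.Agent.SS
open Fermat.Agent.S37.Mod (resF)
open Fermat.Agent.S44 (CuspP Cuspk)
open Fermat.Agent.S44.Eis (NC NCk)
open Fermat.Agent.S44.XD (XD)

variable {M q e : ℕ} [NeZero M] [NeZero q] [NeZero (2 * M)]

theorem constQ_raise_two (hq : q.Prime) (hq2 : q ≠ 2) (hqM : ¬ q ∣ M) (hM : ¬ 2 ∣ M)
    (he : Nat.Coprime e 6) (h : ConstQ (2 * M) q e) : ConstQ M q e := by
  intro A hA f hf
  haveI : Fact q.Prime := ⟨hq⟩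
  have h2Mq : ¬ 2 ∣ M * q := by
    intro hd
    rcases (Nat.Prime.dvd_mul Nat.prime_two).mp hd with h1 | h1
    · exact hM h1
    · exact hq2 ((Nat.prime_dvd_prime_iff_eq Nat.prime_two hq).mp h1).symm
  have hdvd : M * q ∣ 2 * M * q := ⟨2, by ring⟩
  have hle : modularFunctionFieldBar (M * q) ≤ modularFunctionFieldBar (2 * M * q) :=
    Fermat.Agent.Crux.bar_le hdvd
  have hrank : (modularFunctionFieldBar (M * q)).relfinrank
      (modularFunctionFieldBar (2 * M * q)) = 2 + 1 := by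
    have h1 := Fermat.Agent.Crux.relfinrank_bar_mul_prime (N := M * q) Nat.prime_two h2Mq
    rwa [← mul_assoc] at h1
  have hint : (IntermediateField.inclusion hle).toRingHom.IsIntegral :=
    Fermat.Agent.Crux.isIntegral_inclusion _ _ hle (by rw [hrank]; omega)
  let inc : FF (M * q) →ₐ[Qb] FF (2 * M * q) := IntermediateField.inclusion hle
  let u' : (FF (2 * M * q))ˣ := Units.map (inc : FF (M * q) →* FF (2 * M * q)) (f : (FF (M * q))ˣ)
  have hu' : u' ∈ Dm (2 * M * q) e := by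
    intro P
    have h1 := Place.ord_restrictAlong inc hint P ((f : (FF (M * q))ˣ) : FF (M * q))
    have h2 : ((u' : (FF (2 * M * q))ˣ) : FF (2 * M * q))
        = inc ((f : (FF (M * q))ˣ) : FF (M * q)) := rfl
    rw [h2, h1]
    exact Dvd.dvd.mul_left (f.2 _) _
  obtain ⟨c, ⟨r1, hr1, hc1⟩, ⟨r2, hr2, hc2⟩⟩ := h A hA ⟨u', hu'⟩ hf
  have hr1' : RedUp A (((f : (FF (M * q))ˣ) : FF (M * q)) : LaurentSeries Qb) r1 := hr1
  have hr2' : RedUp A ((((f : (FF (M * q))ˣ) : FF (M * q)) : LaurentSeries Qb) ^ (12 : ℤ)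
      * XD Qb q ^ (-c)) r2 := hr2
  have hm1 : r1 ∈ resF M A :=
    Fermat.Agent.S44.ResDeg.mem_resF_of_redUp_mul M q hq hqM A hA _ hr1'
  have hm2 : r2 ∈ resF M A := by
    have hX : XD Qb q ∈ modularFunctionFieldBar (M * q) := Fermat.Agent.S44.XD.XD_mem M q
    refine Fermat.Agent.S44.ResDeg.mem_resF_of_redUp_mul M q hq hqM A hA
      (((f : (FF (M * q))ˣ) : FF (M * q)) ^ (12 : ℤ) * (⟨XD Qb q, hX⟩ : FF (M * q)) ^ (-c)) ?_
    refine hr2'.congr ?_ rfl
    push_cast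
    rfl
  exact ⟨c, ⟨r1, hr1', cuspk_descend_two hM he hm1 hc1⟩, ⟨r2, hr2', nck_descend_two hM he hm2 hc2⟩⟩

/-- removing `Crux.Admissible` : it suffices to prove `ConstQ` at admissible levels. -/
theorem constQ_of_admissible (e : ℕ) (he : Nat.Coprime e 6)
    (h : ∀ (M q : ℕ) [NeZero M] [NeZero q], q.Prime → ¬ q ∣ M → Fermat.Agent.Crux.Admissible q M →
      ConstQ M q e)
    (M q : ℕ) [NeZero M] [NeZero q] (hq : q.Prime) (hq2 : q ≠ 2) (hqM : ¬ q ∣ M) :
    ConstQ M q e := by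
  by_cases hadm : Fermat.Agent.Crux.Admissible q M
  · exact h M q hq hqM hadm
  · have h3 : q = 3 ∧ ¬ 2 ∣ M := by
      by_contra hcon
      apply hadm
      refine ⟨fun h3 => ?_, fun h2 => absurd h2 hq2⟩
      by_contra h2M
      exact hcon ⟨h3, h2M⟩
    obtain ⟨rfl, hM⟩ := h3
    haveI : NeZero (2 * M) := ⟨Nat.mul_ne_zero two_ne_zero (NeZero.ne M)⟩
    refine constQ_raise_two hq hq2 hqM hM he (h (2 * M) 3 hq ?_ ⟨fun _ => Dvd.intro M rfl, fun h => by omega⟩)
    intro hd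
    rcases (Nat.Prime.dvd_mul hq).mp hd with h1 | h1
    · omega
    · exact hqM h1

end Fermat.Agent.S43.I.Raise3
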