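import Fermat.Agent.S43.I.Tor

/-!
# S43 / I / WA : weak approximation for the two Gauss valuations `v_∞`, `v_0 = v_∞ ∘ w` of `F_{Mq}`

* `exists_eps`    : `ε ∈ F_{Mq}` with `ε ≡ 1 (v_∞)`, `ε ≡ 0 (v_0)`;
* `exists_approx` : for `g ≠ 0` there is `g₁` with `g₁ ≡ const (v_∞)`, `g₁ / g ≡ const (v_0)`;
* `isTor_of_two`  : a class with a representative constant mod `v_∞` and another one constant mod `v_0` is toric.
-/

set_option autoImplicit false

open AlgebraicCurve ModularCurve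

namespace Fermat.Agent.S43.I

open Fermat.Agent.ES Fermat.Agent.SS

noncomputable section

variable {M q : ℕ} [NeZero M] [NeZero q] {w : FF (M * q) →ₐ[Qb] FF (M * q)}
  {A : ValuationSubring Qb} {m : ℕ}

/-- TASK S43/I-WA-a.  [`x = y₁/y₂`, `x' = y₁'/y₂'`: take `y₁ y₂' + y₁' y₂` and `y₂ y₂'`.] -/
theorem redTo_add {x x' : LaurentSeries Qb} {r r' : LaurentSeries (kA A)} (h : RedTo A x r)
    (h' : RedTo A x' r') : RedTo A (x + x') (r + r') := by
  obtain ⟨y₁, y₂, h0, h1, h2⟩ := h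
  obtain ⟨z₁, z₂, k0, k1, k2⟩ := h'
  refine ⟨y₁ * z₂ + z₁ * y₂, y₂ * z₂, ?_, ?_, ?_⟩
  · rw [map_mul]; exact mul_ne_zero h0 k0
  · rw [map_add, map_mul, map_mul, map_mul, ← h1, ← k1]; ring
  · rw [map_add, map_mul, map_mul, map_mul, h2, k2]; ring

/-- TASK S43/I-WA-a.  [`y₂ = 1`.] -/
theorem redTo_of_integral (y : LaurentSeries A) :
    RedTo A (coeffMap A.subtype y) (coeffMap (resA A) y) := by
  refine ⟨y, 1, ?_, ?_, ?_⟩
  · rw [map_one]; exact one_ne_zero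
  · rw [map_one, mul_one]
  · rw [map_one, mul_one]

/-- TASK S43/I-WA-b.  **The idempotent.**
[`j = jqModC Qb ∈ FF M` (`jqModC_mem`-type lemma; see `S37.Mod.isI_j`, `S44.Eis.jqModC_mem_resF`), `jA = heckeAlphaBar j` (same series),
`jB = heckeBetaBar j = Vq Qb q j` (`coe_heckeAlphaBar`, `coe_heckeBetaBar`).  `e₀ := jB - jA ^ q`, `w e₀ = jA - jB ^ q` (`hw.alpha`, `hw.beta`).
Reductions (`redTo_of_integral`, `coeffMap_jqModC`/`map_jqModC`, `RedTo.vq`, `redTo_add`): `e₀ ↦ Vq j̄ - j̄ ^ q = 0`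
(`pow_eq_Vq_frobA hq hA`, and `coeffMap (frobA hq hA) j̄ = j̄` by `map_jqModC`), `w e₀ ↦ ρ := j̄ - (j̄ ^ q) ^ q ≠ 0`
(`S28.transcendental_jqModC`).  `ε := w e₀ / (e₀ + w e₀)`: `ε ↦ ρ / (0 + ρ) = 1`, `w ε = e₀ / (w e₀ + e₀) ↦ 0`.] -/
theorem exists_eps (hq : q.Prime) (hqM : ¬ q ∣ M) (hw : IsAL M q w) (hA : A.LiesOverPrime q) :
    ∃ ε : FF (M * q), RedTo A (ε : LaurentSeries Qb) 1 ∧
      RedTo A ((w ε : FF (M * q)) : LaurentSeries Qb) 0 := by
  classical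
  have : Fact q.Prime := ⟨hq⟩
  have := charP_kA hq hA
  set jM : FF M := Fermat.Agent.S24.jF M M dvd_rfl with hjMdef
  have hjM : (jM : LaurentSeries Qb) = Fermat.Agent.Crux.GM.castS Qb (GM2.Jh M) := by
    rw [Fermat.Agent.Crux.GM.CoordJ.castS_VJ]
    show coeffEmb Qb (qExpand ℚ M jq) = _
    rw [coeffEmb, coeffMap_qExpand, ← jqModC_rat, coeffMap_jqModC]
  set Jf : FF (M * q) := heckeAlphaBar Qb M q jM with hJfdef
  set Yf : FF (M * q) := heckeBetaBar Qb M q jM with hYfdef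
  have hJ : (Jf : LaurentSeries Qb) = Fermat.Agent.Crux.GM.castS Qb (GM2.Jh M) := by
    rw [hJfdef, coe_heckeAlphaBar, hjM]
  have hY : (Yf : LaurentSeries Qb) = Fermat.Agent.Crux.GM.castS Qb (GM2.Jh (M * q)) := by
    rw [hYfdef, coe_heckeBetaBar, hjM]
    have e1 : GM2.Jh (M * q) = Fermat.Agent.S28.V ℤ q (GM2.Jh M) := by
      show qExpand ℤ (M * q) (Fermat.Agent.S28.J ℤ) = qExpand ℤ q (qExpand ℤ M (Fermat.Agent.S28.J ℤ))
      rw [qExpand_qExpand]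
      exact qExpand_congr (mul_comm M q) _
    rw [e1]
    exact (Fermat.Agent.ES.coeffMap_Vq (Int.castRingHom Qb) q (GM2.Jh M)).symm
  set U : FF (M * q) := Yf - Jf ^ q with hUdef
  set U' : FF (M * q) := Jf - Yf ^ q with hU'def
  have hwU : w U = U' := by
    rw [hUdef, hU'def, map_sub, map_pow, hJfdef, hYfdef, hw.alpha, hw.beta]
  have hwU' : w U' = U := by
    rw [hUdef, hU'def, map_sub, map_pow, hJfdef, hYfdef, hw.alpha, hw.beta]
  have hU : (U : LaurentSeries Qb) = Fermat.Agent.Crux.GM.castS Qb (GM2.uh M q) := by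
    have : (U : LaurentSeries Qb) = (Yf : LaurentSeries Qb) - (Jf : LaurentSeries Qb) ^ q := rfl
    rw [this, hJ, hY, GM2.uh]
    simp only [Fermat.Agent.Crux.GM.castS, map_sub, map_pow]
  have hU' : (U' : LaurentSeries Qb) = Fermat.Agent.Crux.GM.castS Qb (GM2.uh' M q) := by
    have : (U' : LaurentSeries Qb) = (Jf : LaurentSeries Qb) - (Yf : LaurentSeries Qb) ^ q := rfl
    rw [this, hJ, hY, GM2.uh']
    simp only [Fermat.Agent.Crux.GM.castS, map_sub, map_pow]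
  set D : FF (M * q) := U + U' with hDdef
  have hwD : w D = D := by
    rw [hDdef, map_add, hwU, hwU', add_comm]
  set r' := Fermat.Agent.Crux.GM.castS (kA A) (GM2.uh' M q) with hr'def
  have hr' : r' ≠ 0 := GM2.castS_uh'_ne_zero (kA A) q M
  have a1 := GM2.Renorm.redTo_castS (A := A) (GM2.uh M q)
  have a2 := GM2.Renorm.redTo_castS (A := A) (GM2.uh' M q)
  rw [GM2.castS_uh (kA A) q M] at a1
  have hDred : RedTo A (D : LaurentSeries Qb) r' := by
    refine (GM2.Renorm.redTo_add a1 a2).congr ?_ ?_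
    · rw [← hU, ← hU']
      rfl
    · rw [zero_add]
  refine ⟨U' * D⁻¹, ?_, ?_⟩
  · refine (a2.mul (hDred.inv hr')).congr ?_ (mul_inv_cancel₀ hr')
    rw [← hU']
    rfl
  · refine (a1.mul (hDred.inv hr')).congr ?_ (zero_mul _)
    rw [map_mul, map_inv₀, hwU', hwD, ← hU]
    rfl

omit [NeZero M] [NeZero q] in
theorem redTo_zero_WA : RedTo A (((0 : FF (M * q)) : FF (M * q)) : LaurentSeries Qb) 0 := by
  refine ⟨0, 1, ?_, ?_, ?_⟩
  · rw [map_one]; exact one_ne_zero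
  · simp
  · simp

theorem redTo_neg_WA {x : LaurentSeries Qb} {r : LaurentSeries (kA A)} (h : RedTo A x r) :
    RedTo A (-x) (-r) := by
  refine ((RedTo.cst_of_mem (-1 : A)).mul h).congr ?_ ?_
  · have e : cst (((-1 : A) : A) : Qb) = -1 := by
      have : (((-1 : A) : A) : Qb) = -1 := by push_cast; rfl
      rw [this, cst, map_neg, map_one]
    rw [e, neg_one_mul]
  · rw [map_neg, map_one, cstk, map_neg, map_one, neg_one_mul]

/-- gluing with the idempotent: `ε + (1 - ε) b` is `≡ 1` at `v_∞` and `≡ w b` at `v_0`. -/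
theorem redTo_glue_WA {ε b : FF (M * q)} {s r : LaurentSeries (kA A)}
    (hε1 : RedTo A (ε : LaurentSeries Qb) 1)
    (hε0 : RedTo A ((w ε : FF (M * q)) : LaurentSeries Qb) 0)
    (hb : RedTo A (b : LaurentSeries Qb) s)
    (hwb : RedTo A ((w b : FF (M * q)) : LaurentSeries Qb) r) :
    RedTo A ((ε + (1 - ε) * b : FF (M * q)) : LaurentSeries Qb) 1 ∧
      RedTo A ((w (ε + (1 - ε) * b) : FF (M * q)) : LaurentSeries Qb) r := by
  constructor
  · refine (redTo_add hε1 ((redTo_add RedTo.one (redTo_neg_WA hε1)).mul hb)).congr ?_ ?_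
    · have e : ((1 - ε : FF (M * q)) : LaurentSeries Qb) = 1 - (ε : LaurentSeries Qb) := rfl
      rw [IntermediateField.coe_add, IntermediateField.coe_mul, e]
      ring
    · ring
  · refine (redTo_add hε0 ((redTo_add RedTo.one (redTo_neg_WA hε0)).mul hwb)).congr ?_ ?_
    · have e : ((1 - w ε : FF (M * q)) : LaurentSeries Qb)
          = 1 - ((w ε : FF (M * q)) : LaurentSeries Qb) := rfl
      rw [map_add, map_mul, map_sub, map_one, IntermediateField.coe_add,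
        IntermediateField.coe_mul, e]
      ring
    · ring

/-- TASK S43/I-WA-c.  **Weak approximation.**
[Scale: `exists_redTo A (w g)` gives `c ≠ 0`, `r ≠ 0` with `cst c * w g ↦ r`; put `a := c • g` (so `w a = cst c * w g ↦ r`).
`exists_redTo A a` gives `d ≠ 0`, `s ≠ 0`, `cst d * a ↦ s`; `d⁻¹ ∈ A` or `d ∈ A` (valuation ring).
Case `d⁻¹ ∈ A`: `a ↦ s' ` integral at `v_∞`; `g₁ := ε + (1 - ε) a`: `g₁ ↦ 1 + 0 * s' = 1`, `w g₁ = w ε + (1 - w ε) w a ↦ 0 + 1 * r = r`,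
so `w g₁ / w g ↦ const`.
Case `d ∈ A`: `a⁻¹` is integral at `v_∞`, `w a⁻¹ ↦ r⁻¹`; `g₂ := ε + (1 - ε) a⁻¹`, `g₁ := g₂⁻¹`.] -/
theorem exists_approx (hq : q.Prime) (hqM : ¬ q ∣ M) (hw : IsAL M q w) (hA : A.LiesOverPrime q)
    (g : FF (M * q)) (hg : g ≠ 0) :
    ∃ g₁ : FF (M * q), g₁ ≠ 0 ∧ RedUp A (g₁ : LaurentSeries Qb) 1 ∧
      RedUp A ((w (g₁ * g⁻¹) : FF (M * q)) : LaurentSeries Qb) 1 := by
  obtain ⟨ε, hε1, hε0⟩ := exists_eps (A := A) hq hqM hw hA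
  have hwg : w g ≠ 0 := by
    rw [Ne, map_eq_zero]; exact hg
  obtain ⟨c, r, hc, hr, hcr⟩ := exists_redTo A (w g) hwg
  set a : FF (M * q) := algebraMap Qb (FF (M * q)) c * g with ha
  have ha0 : a ≠ 0 := by
    rw [ha]
    refine mul_ne_zero ?_ hg
    rw [Ne, map_eq_zero]; exact hc
  have hwa : RedTo A ((w a : FF (M * q)) : LaurentSeries Qb) r := by
    refine hcr.congr ?_ rfl
    rw [ha, map_mul, AlgHom.commutes, IntermediateField.coe_mul]
    rfl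
  -- it is enough to find `g₁` with `g₁ ↦ 1`, `w g₁ ↦ r`
  suffices H : ∃ g₁ : FF (M * q), RedTo A (g₁ : LaurentSeries Qb) 1 ∧
      RedTo A ((w g₁ : FF (M * q)) : LaurentSeries Qb) r by
    obtain ⟨g₁, h1, h2⟩ := H
    refine ⟨g₁, ?_, ⟨1, one_ne_zero, h1.congr ?_ rfl⟩, ⟨c⁻¹, inv_ne_zero hc, ?_⟩⟩
    · rintro rfl
      exact one_ne_zero (h1.unique (redTo_zero_WA (A := A)))
    · rw [cst, map_one, one_mul]
    · refine (h2.mul (hcr.inv hr)).congr ?_ (mul_inv_cancel₀ hr)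
      rw [map_mul, map_inv₀, IntermediateField.coe_mul, IntermediateField.coe_inv, mul_inv, cst, cst,
        map_inv₀]
      ring
  obtain ⟨d, s, hd, hs, hds⟩ := exists_redTo A a ha0
  have hcd : cst d ≠ 0 := by
    rw [Ne, map_eq_zero]; exact hd
  have ha0' : (a : LaurentSeries Qb) ≠ 0 := fun h => ha0 (Subtype.ext h)
  rcases A.mem_or_inv_mem d with hdA | hdA
  · -- `a⁻¹` is integral at `v_∞`
    have h1 : RedTo A ((a⁻¹ : FF (M * q)) : LaurentSeries Qb) (cstk A (resA A ⟨d, hdA⟩) * s⁻¹) := by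
      refine ((RedTo.cst_of_mem (⟨d, hdA⟩ : A)).mul (hds.inv hs)).congr ?_ rfl
      rw [IntermediateField.coe_inv, mul_inv, ← mul_assoc, mul_inv_cancel₀ hcd, one_mul]
    have h2 : RedTo A ((w a⁻¹ : FF (M * q)) : LaurentSeries Qb) r⁻¹ := by
      refine (hwa.inv hr).congr ?_ rfl
      rw [map_inv₀, IntermediateField.coe_inv]
    obtain ⟨k1, k2⟩ := redTo_glue_WA hε1 hε0 h1 h2
    refine ⟨(ε + (1 - ε) * a⁻¹)⁻¹, ?_, ?_⟩
    · refine (k1.inv one_ne_zero).congr ?_ inv_one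
      rw [IntermediateField.coe_inv]
    · refine (k2.inv (inv_ne_zero hr)).congr ?_ (inv_inv r)
      rw [map_inv₀, IntermediateField.coe_inv]
  · -- `a` is integral at `v_∞`
    have h1 : RedTo A (a : LaurentSeries Qb) (cstk A (resA A ⟨d⁻¹, hdA⟩) * s) := by
      refine ((RedTo.cst_of_mem (⟨d⁻¹, hdA⟩ : A)).mul hds).congr ?_ rfl
      have e : cst (((⟨d⁻¹, hdA⟩ : A) : Qb)) = (cst d)⁻¹ := map_inv₀ _ _
      rw [e, ← mul_assoc, inv_mul_cancel₀ hcd, one_mul]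
    obtain ⟨k1, k2⟩ := redTo_glue_WA hε1 hε0 h1 hwa
    exact ⟨ε + (1 - ε) * a, k1, k2⟩

/-- TASK S43/I-WA-d.  [`Kum.mk_eq_mk_iff`: `h ^ m = u' / u`.  `exists_approx` for `g = h`: `g₁`.  Representative `u'' := u * g₁ ^ m`
(in `Dm`: `u` times an `m`-th power; same class).  `u'' ↦ 1` at `v_∞`; `w u'' = w u' * (w (g₁ / h)) ^ m ↦ 1`.] -/
theorem isTor_of_two (hq : q.Prime) (hqM : ¬ q ∣ M) (hw : IsAL M q w) (hA : A.LiesOverPrime q)
    (u u' : Dm (M * q) m) (h : Kum.mk u = Kum.mk u')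
    (h1 : RedConst A ((u : (FF (M * q))ˣ) : FF (M * q)))
    (h2 : RedConst A (w ((u' : (FF (M * q))ˣ) : FF (M * q)))) : IsTor A w m (Kum.mk u) := by
  have : NeZero (M * q) := ⟨Nat.mul_ne_zero (NeZero.ne M) (NeZero.ne q)⟩
  obtain ⟨hh, hhm⟩ := (Kum.mk_eq_mk_iff u' u).1 h.symm
  obtain ⟨g₁, hg₁, ha, hb⟩ := exists_approx hq hqM hw hA (hh : FF (M * q)) hh.ne_zero
  have hmem : (u : (FF (M * q))ˣ) * (Units.mk0 g₁ hg₁) ^ m ∈ Dm (M * q) m :=
    (Dm (M * q) m).mul_mem u.2 (Pw_le_Dm (M * q) m ⟨Units.mk0 g₁ hg₁, rfl⟩)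
  have hu0 : ((u : (FF (M * q))ˣ) : FF (M * q)) ≠ 0 := (u : (FF (M * q))ˣ).ne_zero
  have hh0 : (hh : FF (M * q)) ≠ 0 := hh.ne_zero
  have hrel : (hh : FF (M * q)) ^ m * ((u : (FF (M * q))ˣ) : FF (M * q))
      = ((u' : (FF (M * q))ˣ) : FF (M * q)) := by
    have h3 := congrArg (fun z : (FF (M * q))ˣ => (z : FF (M * q))) hhm
    simp only [Units.val_pow_eq_pow_val, Units.val_mul, Units.val_inv_eq_inv_val] at h3
    rw [h3, inv_mul_cancel_right₀ hu0]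
  refine ⟨⟨_, hmem⟩, ?_, ?_, ?_⟩
  · rw [Kum.mk_eq_mk_iff]
    refine ⟨(Units.mk0 g₁ hg₁)⁻¹, ?_⟩
    show ((Units.mk0 g₁ hg₁)⁻¹) ^ m
      = (u : (FF (M * q))ˣ) * ((u : (FF (M * q))ˣ) * (Units.mk0 g₁ hg₁) ^ m)⁻¹
    rw [mul_inv, mul_inv_cancel_left, inv_pow]
  · rw [redConst_iff_redUp] at h1 ⊢
    refine (h1.mul (ha.pow m)).congr ?_ (by rw [one_pow, one_mul])
    simp
  · rw [redConst_iff_redUp] at h2 ⊢
    refine (h2.mul (hb.pow m)).congr ?_ (by rw [one_pow, one_mul])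
    have h4 : w ((u' : (FF (M * q))ˣ) : FF (M * q)) * (w (g₁ * (hh : FF (M * q))⁻¹)) ^ m
        = w (((u : (FF (M * q))ˣ) : FF (M * q)) * g₁ ^ m) := by
      rw [← map_pow, ← map_mul, ← hrel]
      congr 1
      rw [mul_pow, inv_pow]
      have hhm0 : (hh : FF (M * q)) ^ m ≠ 0 := pow_ne_zero m hh0
      field_simp
    have h5 := congrArg (fun z : FF (M * q) => (z : LaurentSeries Qb)) h4
    simpa using h5

end

end Fermat.Agent.S43.I
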