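import Fermat.Agent.S43.I.I2
import Fermat.Agent.S43.I.Lev
import Fermat.Agent.S43.I.VthX

/-!
# S43 / I / XBlock : the two statements (LOC), (GA) consumed by the end game

Level `M q`, exponent `m = p * p ^ n`, `V = Vth (M q) m`, `ε = ± 1`, `Jc = {y ∈ V | w y = - ε y}`.

* `xloc` (LOC) : `(φ - ε q)(φ - ε) = 0` on `Jc`;
* `xga`  (GA)  : an inertia invariant `P₁ ∈ Jc` killed by `p` is `p ^ n • P'` with `P' ∈ Jc` inertia invariant, `φ P' = ε q P'`.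

Hypotheses coming from the other sub-blocks:
* `HISO` : `Tor ∩ V` is isotropic for `e1N` (exponent `m`);
* `HI1`  : (I1) at exponent `p`.
-/

set_option autoImplicit false

open AlgebraicCurve ModularCurve

namespace Fermat.Agent.S43.I

open Fermat.Agent.ES Fermat.Agent.SS Fermat.Agent.S15.W

noncomputable section

variable {M q : ℕ} [NeZero M] [NeZero q] {w : FF (M * q) →ₐ[Qb] FF (M * q)}
  {A : ValuationSubring Qb}

theorem incl_wKum (hq : q.Prime) (hw : IsAL M q w) (m' k : ℕ) (x : Kum (M * q) m') :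
    Kum.incl (M * q) m' k (wKum hw hq m' x) = wKum hw hq (m' * k) (Kum.incl (M * q) m' k x) := by
  obtain ⟨f, rfl⟩ := Kum.mk_surjective x
  rw [wKum_mk, Kum.incl_mk, Kum.incl_mk, wKum_mk]
  exact congrArg Kum.mk (Subtype.ext (map_pow (wU w) _ k).symm)

theorem trans_wKum (hq : q.Prime) (hw : IsAL M q w) (m' k : ℕ) (x : Kum (M * q) (m' * k)) :
    Kum.trans (M * q) (dvd_mul_right m' k) (wKum hw hq (m' * k) x)
      = wKum hw hq m' (Kum.trans (M * q) (dvd_mul_right m' k) x) := by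
  obtain ⟨f, rfl⟩ := Kum.mk_surjective x
  rfl

variable {S : Finset ℕ} {hNS : ∀ r : ℕ, r.Prime → r ∣ M * q → r ∈ S}
  {hMS : ∀ r : ℕ, r.Prime → r ∣ M → r ∈ S} {a : ℕ → ℤ} {p : ℕ}

theorem prime_mem_of_dvd_ppow (hp : p.Prime) (hpS : p ∈ S) (n : ℕ) :
    ∀ r : ℕ, r.Prime → r ∣ p * p ^ n → r ∈ S := by
  intro r hr hd
  rw [← pow_succ'] at hd
  have := (Nat.prime_dvd_prime_iff_eq hr hp).mp (hr.dvd_of_dvd_pow hd)
  rw [this]; exact hpS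

theorem nmKum_eq_zero_of_mem_Vth (hq : q.Prime) (hqM : ¬ q ∣ M) (hp : p.Prime) (hpS : p ∈ S)
    (hsep : Sep M p S hMS a) (n : ℕ) {x : Kum (M * q) (p * p ^ n)}
    (hx : x ∈ Vth (M * q) (p * p ^ n) hNS a) : nmKum M q (p * p ^ n) x = 0 := by
  have hm : p * p ^ n ≠ 0 := Nat.mul_ne_zero hp.ne_zero (pow_ne_zero _ hp.ne_zero)
  have h1 : nmKum M q (p * p ^ n) x ∈ Vth M (p * p ^ n) hMS a :=
    nmKum_mem_Vth hm (prime_mem_of_dvd_ppow hp hpS n) hq hqM hx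
  rw [Vth_eq_bot_of_sep hp hsep ⟨n + 1, (pow_succ' p n).symm⟩] at h1
  exact h1

/-- the package of hypotheses. -/
structure XHyp (M q p n : ℕ) [NeZero M] [NeZero q] (w : FF (M * q) →ₐ[Qb] FF (M * q))
    (A : ValuationSubring Qb) (S : Finset ℕ) (hNS : ∀ r : ℕ, r.Prime → r ∣ M * q → r ∈ S)
    (hMS : ∀ r : ℕ, r.Prime → r ∣ M → r ∈ S) (a : ℕ → ℤ) : Prop where
  hq : q.Prime
  hqM : ¬ q ∣ M
  hp : p.Prime
  hp2 : p ≠ 2
  hpq : p ≠ q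
  hpS : p ∈ S
  hw : IsAL M q w
  hA : A.LiesOverPrime q
  hsep : Sep M p S hMS a
  hiso : ∀ x ∈ Vth (M * q) (p * p ^ n) hNS a, ∀ y ∈ Vth (M * q) (p * p ^ n) hNS a,
    x ∈ Tor A w (p * p ^ n) → y ∈ Tor A w (p * p ^ n) → e1N x y = 1

variable {n : ℕ}

theorem XHyp.hm (H : XHyp M q p n w A S hNS hMS a) : p * p ^ n ≠ 0 :=
  Nat.mul_ne_zero H.hp.ne_zero (pow_ne_zero _ H.hp.ne_zero)

theorem XHyp.hqm (H : XHyp M q p n w A S hNS hMS a) : ¬ q ∣ p * p ^ n := by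
  rw [← pow_succ']
  intro h
  exact H.hpq ((Nat.prime_dvd_prime_iff_eq H.hq H.hp).mp (H.hq.dvd_of_dvd_pow h)).symm

/-- `φ = - q w` on `Tor ∩ V`. -/
theorem XHyp.frob_tor (H : XHyp M q p n w A S hNS hMS a) {φ : GQ} (hφ : A.IsFrobeniusAt φ q)
    {x : Kum (M * q) (p * p ^ n)} (hxV : x ∈ Vth (M * q) (p * p ^ n) hNS a)
    (hx : x ∈ Tor A w (p * p ^ n)) :
    galKum (M * q) (p * p ^ n) φ x = -(q • wKum H.hw H.hq (p * p ^ n) x) :=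
  frob_eq_of_mem_tor H.hq H.hqM H.hqm H.hm H.hw H.hA hφ (Vth (M * q) (p * p ^ n) hNS a)
    (fun σ _ hx => gal_mem_Vth σ hx)
    (fun _ hx => wKum_mem_Vth H.hm (prime_mem_of_dvd_ppow H.hp H.hpS n) H.hq H.hw hx)
    (fun _ hx => nmKum_eq_zero_of_mem_Vth H.hq H.hqM H.hp H.hpS H.hsep n hx)
    (fun _ hx h => lev_Vth_nondeg H.hm hx h) H.hiso hxV hx

/-- **(LOC)**. -/
theorem xloc (H : XHyp M q p n w A S hNS hMS a) {φ : GQ} (hφ : A.IsFrobeniusAt φ q)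
    {ε : ℤ} (hε : ε * ε = 1) {y : Kum (M * q) (p * p ^ n)}
    (hy : y ∈ Vth (M * q) (p * p ^ n) hNS a) (hwy : wKum H.hw H.hq (p * p ^ n) y = -(ε • y)) :
    galKum (M * q) (p * p ^ n) φ (galKum (M * q) (p * p ^ n) φ y - ε • y)
      = (ε * q) • (galKum (M * q) (p * p ^ n) φ y - ε • y) := by
  have hmS := prime_mem_of_dvd_ppow H.hp H.hpS n
  have hwyV := wKum_mem_Vth (hNS := hNS) (a := a) H.hm hmS H.hq H.hw hy
  have h1 := nmKum_eq_zero_of_mem_Vth H.hq H.hqM H.hp H.hpS H.hsep n hy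
  have h2 := nmKum_eq_zero_of_mem_Vth H.hq H.hqM H.hp H.hpS H.hsep n hwyV
  have hτ := frob_add_w_mem_tor H.hq H.hqM H.hw H.hA hφ y h1 h2
  rw [hwy, ← sub_eq_add_neg] at hτ
  have hτV : galKum (M * q) (p * p ^ n) φ y - ε • y ∈ Vth (M * q) (p * p ^ n) hNS a :=
    (Vth _ _ hNS a).sub_mem (gal_mem_Vth φ hy) ((Vth _ _ hNS a).zsmul_mem hy ε)
  rw [H.frob_tor hφ hτV hτ, map_sub, map_zsmul, ← galKum_wKum, hwy, map_neg, map_zsmul]
  have e1 : ε • -(ε • y) = - y := by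
    rw [smul_neg, smul_smul, hε, one_smul]
  rw [e1]
  generalize galKum (M * q) (p * p ^ n) φ y = Y
  have e3 : (ε * (q : ℤ)) • (Y - ε • y) = (q : ℤ) • (ε • Y) - (q : ℤ) • y := by
    rw [smul_sub, smul_smul, mul_comm ε (q : ℤ), mul_assoc, hε, mul_one, mul_smul]
  rw [e3, ← natCast_zsmul, smul_sub, smul_neg, smul_neg]
  abel

/-- **(GA)**. -/
theorem xga (H : XHyp M q p n w A S hNS hMS a) {φ : GQ} (hφ : A.IsFrobeniusAt φ q)
    {Sg : GQ} (hSg : Sg ∈ A.inertiaSubgroupIn ℚ)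
    (hI1 : ∀ x ∈ Vth (M * q) p hNS a, (∀ σ ∈ A.inertiaSubgroupIn ℚ, galKum (M * q) p σ x = x) →
      ∃ y ∈ Vth (M * q) p hNS a, x = galKum (M * q) p Sg y - y)
    {ε : ℤ} (hε : ε * ε = 1) {P₁ : Kum (M * q) (p * p ^ n)}
    (hP : P₁ ∈ Vth (M * q) (p * p ^ n) hNS a) (hwP : wKum H.hw H.hq (p * p ^ n) P₁ = -(ε • P₁))
    (hpP : p • P₁ = 0)
    (hinv : ∀ σ ∈ A.inertiaSubgroupIn ℚ, galKum (M * q) (p * p ^ n) σ P₁ = P₁) :
    ∃ P' ∈ Vth (M * q) (p * p ^ n) hNS a, wKum H.hw H.hq (p * p ^ n) P' = -(ε • P') ∧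
      p ^ n • P' = P₁ ∧
      (∀ σ ∈ A.inertiaSubgroupIn ℚ, galKum (M * q) (p * p ^ n) σ P' = P') ∧
      galKum (M * q) (p * p ^ n) φ P' = (ε * q) • P' := by
  have hm := H.hm
  have hmpos : 0 < p * p ^ n := Nat.pos_of_ne_zero hm
  have hmS := prime_mem_of_dvd_ppow H.hp H.hpS n
  obtain ⟨x₁, hx₁V, hx₁⟩ := lev_exists_incl_Vth (hNS := hNS) (a := a) hmpos hP hpP
  have hinj := lev_incl_injective (N := M * q) (m' := p) (k := p ^ n) hmpos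
  have hx₁inv : ∀ σ ∈ A.inertiaSubgroupIn ℚ, galKum (M * q) p σ x₁ = x₁ := by
    intro σ hσ
    apply hinj
    rw [Kum.incl_galKum, hx₁, hinv σ hσ]
  have hwx₁ : wKum H.hw H.hq p x₁ = -(ε • x₁) := by
    apply hinj
    rw [incl_wKum, hx₁, hwP, map_neg, map_zsmul, hx₁]
  obtain ⟨y₁, hy₁V, hy₁⟩ := hI1 x₁ hx₁V hx₁inv
  obtain ⟨y', hy'V, hy'⟩ := lev_trans_surjective_Vth (hNS := hNS) (a := a) hmpos hy₁V
  obtain ⟨z, hz⟩ : ∃ z, z = y' - ε • wKum H.hw H.hq (p * p ^ n) y' := ⟨_, rfl⟩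
  have hzV : z ∈ Vth (M * q) (p * p ^ n) hNS a := by
    rw [hz]
    exact (Vth _ _ hNS a).sub_mem hy'V
      ((Vth _ _ hNS a).zsmul_mem (wKum_mem_Vth hm hmS H.hq H.hw hy'V) ε)
  have hwz : wKum H.hw H.hq (p * p ^ n) z = -(ε • z) := by
    rw [hz, map_sub, map_zsmul, wKum_wKum, smul_sub, smul_smul, hε, one_smul]
    abel
  obtain ⟨P₂, hP₂⟩ : ∃ P₂, P₂ = galKum (M * q) (p * p ^ n) Sg z - z := ⟨_, rfl⟩
  have hP₂V : P₂ ∈ Vth (M * q) (p * p ^ n) hNS a := by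
    rw [hP₂]
    exact (Vth _ _ hNS a).sub_mem (gal_mem_Vth Sg hzV) hzV
  have hwP₂ : wKum H.hw H.hq (p * p ^ n) P₂ = -(ε • P₂) := by
    rw [hP₂, map_sub, ← galKum_wKum, hwz, map_neg, map_zsmul, smul_sub]
    abel
  have hP₂inv : ∀ σ ∈ A.inertiaSubgroupIn ℚ, galKum (M * q) (p * p ^ n) σ P₂ = P₂ := by
    intro σ hσ
    rw [hP₂]
    exact core34 H.hq H.hqM H.hqm (SS.GM2.crux2 M q _ H.hq H.hqM H.hqm) A H.hA Sg σ hSg hσ z
  have hP₂T : P₂ ∈ Tor A w (p * p ^ n) :=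
    ram_le_tor H.hq H.hw ⊤ (AddSubgroup.subset_closure ⟨Sg, hSg, z, AddSubgroup.mem_top z, hP₂⟩)
  have htz : Kum.trans (M * q) (dvd_mul_right p (p ^ n)) z = y₁ - ε • wKum H.hw H.hq p y₁ := by
    rw [hz, map_sub, map_zsmul, trans_wKum, hy']
  have htP₂ : Kum.trans (M * q) (dvd_mul_right p (p ^ n)) P₂ = 2 • x₁ := by
    rw [hP₂, map_sub, Kum.trans_galKum, htz, map_sub, map_zsmul, galKum_wKum]
    have e1 : galKum (M * q) p Sg y₁ = x₁ + y₁ := by rw [hy₁]; abel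
    rw [e1, map_add, hwx₁, smul_add, smul_neg, smul_smul, hε, one_smul, two_smul]
    abel
  have hpP₂ : p ^ n • P₂ = 2 • P₁ := by
    rw [← Kum.incl_trans, htP₂, map_nsmul, hx₁]
  obtain ⟨c, hc⟩ : ∃ c, p + 1 = c * 2 := by
    obtain ⟨t, ht⟩ := H.hp.odd_of_ne_two H.hp2
    exact ⟨t + 1, by omega⟩
  refine ⟨c • P₂, (Vth _ _ hNS a).nsmul_mem hP₂V c, ?_, ?_, ?_, ?_⟩
  · rw [map_nsmul, hwP₂, smul_neg, smul_comm]
  · rw [smul_comm, hpP₂, smul_smul, ← hc, add_smul, hpP, one_smul, zero_add]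
  · intro σ hσ
    rw [map_nsmul, hP₂inv σ hσ]
  · rw [H.frob_tor hφ ((Vth _ _ hNS a).nsmul_mem hP₂V c) ((Tor A w _).nsmul_mem hP₂T c),
      map_nsmul, hwP₂, smul_neg, smul_neg, neg_neg, mul_smul, natCast_zsmul, smul_comm c ε,
      smul_comm q ε]

end

end Fermat.Agent.S43.I
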